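import Mathlib

/-!
# S16 (B): lifting Manin symbols mod `n` to integral Manin symbols

`X` is a finite set with a transitive action of a group generated by `s` (acting as an involution)
and `r` (acting with order three).  A function `X → ZMod n` satisfying the two-term and three-term
relations and vanishing at the fixed points of `s` and `r` lifts to a function `X → ℤ` satisfying
the two-term and three-term relations.
-/

set_option autoImplicit false

namespace Fermat.Agent.S16lib

section Lift

variable {G X : Type*} [Group G] [MulAction G X]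

/-- the three-term sum -/
def tri (r : G) (ζ : X → ℤ) (x : X) : ℤ := ζ x + ζ (r • x) + ζ (r • r • x)

lemma tri_add (r : G) (a b : X → ℤ) (x : X) : tri r (a + b) x = tri r a x + tri r b x := by
  simp only [tri, Pi.add_apply]; ring

lemma tri_neg (r : G) (a : X → ℤ) (x : X) : tri r (-a) x = - tri r a x := by
  simp only [tri, Pi.neg_apply]; ring

lemma tri_zero (r : G) (x : X) : tri r (0 : X → ℤ) x = 0 := by
  simp [tri]

/-- the functions whose three-term sums are those of an antisymmetric function -/
def liftable (s r : G) : AddSubgroup (X → ℤ) where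
  carrier := {β | ∃ ζ : X → ℤ, (∀ x, ζ x + ζ (s • x) = 0) ∧ ∀ x, tri r ζ x = tri r β x}
  zero_mem' := ⟨0, by simp, fun x => rfl⟩
  add_mem' := by
    rintro a b ⟨ζ, h1, h2⟩ ⟨ζ', h1', h2'⟩
    refine ⟨ζ + ζ', fun x => ?_, fun x => ?_⟩
    · simp only [Pi.add_apply]; linear_combination h1 x + h1' x
    · rw [tri_add, tri_add, h2, h2']
  neg_mem' := by
    rintro a ⟨ζ, h1, h2⟩
    refine ⟨-ζ, fun x => ?_, fun x => ?_⟩
    · simp only [Pi.neg_apply]; linear_combination -h1 x
    · rw [tri_neg, tri_neg, h2]

lemma single_sub_single_mem_liftable [DecidableEq X] (s r : G)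
    (hgen : Subgroup.closure {s, r} = ⊤)
    (hs : ∀ x : X, s • s • x = x) (hr : ∀ x : X, r • r • r • x = x) (g : G) (y : X) :
    (Pi.single (g • y) (1 : ℤ) - Pi.single y (1 : ℤ) : X → ℤ) ∈ liftable (X := X) s r := by
  have hg : g ∈ Subgroup.closure {s, r} := by rw [hgen]; trivial
  induction hg using Subgroup.closure_induction generalizing y with
  | mem x hx =>
    rcases hx with rfl | hx
    · refine ⟨Pi.single (x • y) (1 : ℤ) - Pi.single y (1 : ℤ), fun z => ?_, fun z => rfl⟩
      simp only [Pi.sub_apply, Pi.single_apply]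
      have h1 : (x • z = x • y) ↔ z = y := by
        constructor
        · intro h; exact MulAction.injective x h
        · intro h; rw [h]
      have h2 : (x • z = y) ↔ z = x • y := by
        constructor
        · intro h; rw [← h, hs]
        · intro h; rw [h, hs]
      simp only [h1, h2]
      ring
    · rw [Set.mem_singleton_iff] at hx
      subst hx
      refine ⟨0, by simp, fun z => ?_⟩
      rw [tri_zero]
      simp only [tri, Pi.sub_apply, Pi.single_apply]
      have h1 : (x • z = x • y) ↔ z = y := by
        constructor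
        · intro h; exact MulAction.injective x h
        · intro h; rw [h]
      have h2 : (x • x • z = x • y) ↔ x • z = y := by
        constructor
        · intro h; exact MulAction.injective x h
        · intro h; rw [h]
      have h3 : (x • x • z = y) ↔ z = x • y := by
        constructor
        · intro h; rw [← h, hr]
        · intro h; rw [h, hr]
      simp only [h1, h2, h3]
      ring
  | one => simp
  | mul a b _ _ ha hb =>
    have := AddSubgroup.add_mem _ (ha (b • y)) (hb y)
    rw [mul_smul]
    convert this using 1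
    ring
  | inv a _ ha =>
    have := AddSubgroup.neg_mem _ (ha (a⁻¹ • y))
    rw [smul_inv_smul] at this
    convert this using 1
    ring

lemma mem_liftable_of_sum_eq_zero [Fintype X] [MulAction.IsPretransitive G X] (s r : G)
    (hgen : Subgroup.closure {s, r} = ⊤)
    (hs : ∀ x : X, s • s • x = x) (hr : ∀ x : X, r • r • r • x = x)
    (β : X → ℤ) (hβ : ∑ x, β x = 0) : β ∈ liftable (X := X) s r := by
  classical
  rcases isEmpty_or_nonempty X with hX | ⟨⟨x0⟩⟩
  · have : β = 0 := by ext x; exact (hX.false x).elim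
    rw [this]; exact AddSubgroup.zero_mem _
  have : β = ∑ x, β x • (Pi.single x (1 : ℤ) - Pi.single x0 (1 : ℤ) : X → ℤ) := by
    simp only [smul_sub, Finset.sum_sub_distrib, ← Finset.sum_smul, hβ, zero_smul, sub_zero]
    ext z
    simp [Finset.sum_apply, Pi.single_apply]
  rw [this]
  refine AddSubgroup.sum_mem _ (fun x _ => AddSubgroup.zsmul_mem _ ?_ _)
  obtain ⟨g, rfl⟩ := MulAction.exists_smul_eq G x0 x
  exact single_sub_single_mem_liftable s r hgen hs hr g x0

lemma sum_tri [Fintype X] (r : G) (ζ : X → ℤ) : ∑ x, tri r ζ x = 3 * ∑ x, ζ x := by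
  simp only [tri, Finset.sum_add_distrib]
  have h1 : ∑ x, ζ (r • x) = ∑ x, ζ x := Equiv.sum_comp (MulAction.toPerm r) ζ
  have h2 : ∑ x, ζ (r • r • x) = ∑ x, ζ x := by
    have := Equiv.sum_comp (MulAction.toPerm r) (fun x => ζ (r • x))
    simp only [MulAction.toPerm_apply] at this
    rw [this, h1]
  rw [h1, h2]; ring

theorem exists_int_lift [Finite X] [MulAction.IsPretransitive G X] (s r : G)
    (hgen : Subgroup.closure {s, r} = ⊤)
    (hs : ∀ x : X, s • s • x = x) (hr : ∀ x : X, r • r • r • x = x)
    (n : ℕ) [NeZero n] (ξb : X → ZMod n)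
    (h2 : ∀ x, ξb x + ξb (s • x) = 0)
    (h3 : ∀ x, ξb x + ξb (r • x) + ξb (r • r • x) = 0)
    (hfs : ∀ x, s • x = x → ξb x = 0) (hfr : ∀ x, r • x = x → ξb x = 0) :
    ∃ ξ : X → ℤ, (∀ x, ((ξ x : ℤ) : ZMod n) = ξb x) ∧ (∀ x, ξ x + ξ (s • x) = 0) ∧
      ∀ x, ξ x + ξ (r • x) + ξ (r • r • x) = 0 := by
  classical
  have := Fintype.ofFinite X
  obtain ⟨m, ⟨e0⟩⟩ := Finite.exists_equiv_fin X
  set e : X → ℕ := fun x => (e0 x : ℕ) with he
  have einj : ∀ x y, e x = e y → x = y := fun x y h => e0.injective (Fin.ext h)
  set ℓ : ZMod n → ℤ := fun a => (ZMod.cast a : ℤ) with hℓ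
  have hℓ0 : ℓ 0 = 0 := by simp [hℓ]
  have hℓc : ∀ a, ((ℓ a : ℤ) : ZMod n) = a := fun a => ZMod.intCast_zmod_cast a
  set η : X → ℤ := fun x => if e x < e (s • x) then ℓ (ξb x)
    else if e (s • x) < e x then - ℓ (ξb (s • x)) else 0 with hη
  have ηanti : ∀ x, η x + η (s • x) = 0 := by
    intro x
    simp only [hη, hs]
    split_ifs <;> first | omega | ring
  have ηcast : ∀ x, ((η x : ℤ) : ZMod n) = ξb x := by
    intro x
    simp only [hη]
    split_ifs with c1 c2
    · exact hℓc _
    · rw [Int.cast_neg, hℓc]; linear_combination -h2 x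
    · have : s • x = x := (einj _ _ (by omega)).symm
      rw [hfs x this]; simp
  have ηzero : ∀ x, ξb x = 0 → η x = 0 := by
    intro x hx
    have hx' : ξb (s • x) = 0 := by linear_combination h2 x - hx
    simp only [hη, hx, hx', hℓ0]
    split_ifs <;> simp
  have tri_r : ∀ x, tri r η (r • x) = tri r η x := by
    intro x
    simp only [tri, hr]; ring
  have hdvd : ∀ x, (n : ℤ) ∣ tri r η x := by
    intro x
    rw [← ZMod.intCast_zmod_eq_zero_iff_dvd]
    simp only [tri]
    push_cast
    rw [ηcast, ηcast, ηcast, h3]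
  set c : X → ℤ := fun x => tri r η x / n with hc
  have hnc : ∀ x, (n : ℤ) * c x = tri r η x := fun x => Int.mul_ediv_cancel' (hdvd x)
  have c_r : ∀ x, c (r • x) = c x := fun x => by simp only [hc, tri_r]
  set β : X → ℤ := fun x => if e x < e (r • x) ∧ e x < e (r • r • x) then c x else 0 with hβ
  have triβ : ∀ x, tri r β x = c x := by
    intro x
    by_cases hx : r • x = x
    · have h0 : η x = 0 := ηzero x (hfr x hx)
      have : c x = 0 := by simp [hc, tri, hx, h0]
      simp [tri, hβ, hx, this]
    · have d1 : e x ≠ e (r • x) := fun h => hx (einj _ _ h).symm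
      have d2 : e (r • x) ≠ e (r • r • x) := fun h =>
        hx (MulAction.injective r (einj _ _ h)).symm
      have d3 : e (r • r • x) ≠ e x := fun h => by
        apply hx
        have h' := einj _ _ h
        have := congrArg (fun y => r • y) h'
        simp only [hr] at this
        exact this.symm
      simp only [tri, hβ, hr, c_r]
      split_ifs <;> first | omega | ring
  have sumη : ∑ x, η x = 0 := by
    have h1 : ∑ x, η (s • x) = ∑ x, η x := Equiv.sum_comp (MulAction.toPerm s) η
    have h2 : ∑ x, (η x + η (s • x)) = 0 := Finset.sum_eq_zero fun x _ => ηanti x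
    rw [Finset.sum_add_distrib, h1] at h2
    omega
  have sumβ : ∑ x, β x = 0 := by
    have h1 := sum_tri r β
    have h2 := sum_tri r η
    have h3 : ∑ x, tri r η x = n * ∑ x, tri r β x := by
      rw [Finset.mul_sum]
      exact Finset.sum_congr rfl fun x _ => by rw [triβ, hnc]
    rw [h2, sumη, h1] at h3
    have hn : (n : ℤ) ≠ 0 := by exact_mod_cast NeZero.ne n
    have : (n : ℤ) * (3 * ∑ x, β x) = 0 := by linear_combination -h3
    rcases mul_eq_zero.1 this with h | h
    · exact absurd h hn
    · omega
  obtain ⟨ζ, ζanti, ζtri⟩ := mem_liftable_of_sum_eq_zero s r hgen hs hr β sumβ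
  refine ⟨fun x => η x - n * ζ x, fun x => ?_, fun x => ?_, fun x => ?_⟩
  · push_cast
    rw [ηcast]; simp
  · linear_combination ηanti x - (n : ℤ) * ζanti x
  · have h1 := ζtri x
    rw [triβ] at h1
    have h2 := hnc x
    simp only [tri] at h1 h2
    linear_combination (-(n : ℤ)) * h1 - h2

end Lift

end Fermat.Agent.S16lib
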