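import Fermat.Agent.S21
import Fermat.Agent.S21.ParabolicGenus
import Fermat.Agent.S16.Lift

/-!
# S16 (B): every Manin symbol for `Γ₀(N)` comes from a potential; integral parabolic lifts

The dimension formula (S20) and Eichler–Shimura (S21) force equality in all the inequalities of
`S21/ParabolicBound.lean`.  Hence every Manin symbol is the symbol of a potential, and the
homomorphism of any potential is parabolic.
-/

set_option autoImplicit false

open Module ModularGroup ModularCurve.Period CongruenceSubgroup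
open scoped MatrixGroups
open Fermat.Agent.S21h9

namespace Fermat.Agent.S16lib

section Dims

variable (N : ℕ) [NeZero N]

lemma closure_S_ST' : Subgroup.closure {S, S * T} = (⊤ : Subgroup SL(2, ℤ)) :=
  Fermat.Agent.S21lib.closure_S_ST

lemma neg_smul_quot (x : SL(2, ℤ) ⧸ Gamma0 N) : (-1 : SL(2, ℤ)) • x = x :=
  Fermat.Agent.S21lib.neg_one_smul_coset N x

lemma S_S_smul (x : SL(2, ℤ) ⧸ Gamma0 N) : S • S • x = x := by
  rw [← mul_smul]
  have : S * S = (-1 : SL(2, ℤ)) := by decide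
  rw [this, neg_smul_quot]

lemma ST_ST_ST_smul (x : SL(2, ℤ) ⧸ Gamma0 N) : (S * T) • (S * T) • (S * T) • x = x := by
  rw [← mul_smul, ← mul_smul]
  have : (S * T) * (S * T) * (S * T) = (-1 : SL(2, ℤ)) := by decide
  rw [this, neg_smul_quot]

theorem potential_dims :
    finrank ℂ (potentials (Gamma0 N))
        = finrank ℂ (maninW (X := SL(2, ℤ) ⧸ Gamma0 N) S (S * T)) + 1 ∧
      finrank ℂ (LinearMap.range (potHom (Gamma0 N)))
        = finrank ℂ (parabolicHoms ℂ (Gamma0 N) ℂ) := by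
  classical
  have hneg := neg_one_mem_Gamma0 N
  have := Fintype.ofFinite (SL(2, ℤ) ⧸ Gamma0 N)
  have : Finite (CuspQ (Gamma0 N)) := Quotient.finite _
  have := Fintype.ofFinite (CuspQ (Gamma0 N))
  have : FiniteDimensional ℂ (potentials (Gamma0 N)) :=
    FiniteDimensional.of_injective (potEmb (Gamma0 N) hneg) (potEmb_injective (Gamma0 N) hneg)
  have hW := six_mul_finrank_maninW_le (X := SL(2, ℤ) ⧸ Gamma0 N) S (S * T) closure_S_ST'
    (S_S_smul N) (ST_ST_ST_smul N)
  have h1 : finrank ℂ (potentials (Gamma0 N))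
      ≤ finrank ℂ (maninW (X := SL(2, ℤ) ⧸ Gamma0 N) S (S * T)) + 1 := by
    have := LinearMap.finrank_le_finrank_of_injective (potEmb_injective (Gamma0 N) hneg)
    rwa [finrank_prod, finrank_self] at this
  have h2 := LinearMap.finrank_range_add_finrank_ker (potHom (Gamma0 N))
  have h3 : finrank ℂ (parabolicHoms ℂ (Gamma0 N) ℂ)
      ≤ finrank ℂ (LinearMap.range (potHom (Gamma0 N))) :=
    Submodule.finrank_mono (parabolicHoms_le_range (Gamma0 N))
  have h4 : Nat.card (CuspQ (Gamma0 N)) ≤ finrank ℂ (LinearMap.ker (potHom (Gamma0 N))) := by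
    have hinj : Function.Injective
        ((cuspPot (Gamma0 N)).codRestrict (LinearMap.ker (potHom (Gamma0 N)))
          (cuspPot_mem_ker (Gamma0 N))) := by
      intro a b hab
      exact cuspPot_injective (Gamma0 N) (congrArg Subtype.val hab)
    have := LinearMap.finrank_le_finrank_of_injective hinj
    rwa [finrank_fintype_fun_eq_card, ← Nat.card_eq_fintype_card] at this
  rw [← Nat.card_eq_fintype_card] at hW
  have h5 := Fermat.Agent.S21lib.two_mul_finrank_le N
  have hS20 := Fermat.Agent.S20.result N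
  unfold ModularCurve.genusFormula at hS20
  have h4c : Nat.card (CuspQ (Gamma0 N)) = ModularCurve.cuspCount N :=
    Fermat.Agent.S20lib.card_orbits_T N
  rw [Fermat.Agent.S20lib.card_quot_Gamma0, Fermat.Agent.S20lib.card_fixed_S,
    Fermat.Agent.S20lib.card_fixed_ST] at hW
  rw [h4c] at h4
  have h6 : (12 * (finrank ℂ (CuspForm (Gamma0 N) 2) : ℚ) + 3 * ModularCurve.nuTwo N
      + 4 * ModularCurve.nuThree N + 6 * ModularCurve.cuspCount N : ℚ)
      = ModularCurve.dedekindPsi N + 12 := by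
    rw [hS20]; ring
  have h6' : 12 * finrank ℂ (CuspForm (Gamma0 N) 2) + 3 * ModularCurve.nuTwo N
      + 4 * ModularCurve.nuThree N + 6 * ModularCurve.cuspCount N
      = ModularCurve.dedekindPsi N + 12 := by
    exact_mod_cast h6
  constructor <;> omega

theorem potEmb_surjective :
    Function.Surjective (potEmb (Gamma0 N) (neg_one_mem_Gamma0 N)) := by
  classical
  have hneg := neg_one_mem_Gamma0 N
  have := Fintype.ofFinite (SL(2, ℤ) ⧸ Gamma0 N)
  have : FiniteDimensional ℂ (potentials (Gamma0 N)) :=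
    FiniteDimensional.of_injective (potEmb (Gamma0 N) hneg) (potEmb_injective (Gamma0 N) hneg)
  refine (LinearMap.injective_iff_surjective_of_finrank_eq_finrank ?_).1
    (potEmb_injective (Gamma0 N) hneg)
  rw [finrank_prod, finrank_self, (potential_dims N).1]

theorem exists_potential (ξ : SL(2, ℤ) ⧸ Gamma0 N → ℂ)
    (hξ : ξ ∈ maninW (X := SL(2, ℤ) ⧸ Gamma0 N) S (S * T)) :
    ∃ v : potentials (Gamma0 N), potXi (Gamma0 N) v = ξ ∧ v.1 1 = 0 := by
  obtain ⟨v, hv⟩ := potEmb_surjective N (⟨ξ, hξ⟩, 0)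
  exact ⟨v, congrArg Subtype.val (congrArg Prod.fst hv), congrArg Prod.snd hv⟩

theorem potHom_mem_parabolicHoms (v : potentials (Gamma0 N)) :
    potHom (Gamma0 N) v ∈ parabolicHoms ℂ (Gamma0 N) ℂ := by
  have hneg := neg_one_mem_Gamma0 N
  have : FiniteDimensional ℂ (potentials (Gamma0 N)) :=
    FiniteDimensional.of_injective (potEmb (Gamma0 N) hneg) (potEmb_injective (Gamma0 N) hneg)
  have h := Submodule.eq_of_le_of_finrank_le (parabolicHoms_le_range (Gamma0 N))
    (potential_dims N).2.le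
  rw [h]
  exact ⟨v, rfl⟩

end Dims

section Integral

variable {Γ : Subgroup SL(2, ℤ)}

/-- A potential with integral Manin symbol and `v 1 = 0` is integral, and it is determined mod `n`
by the reduction of its Manin symbol. -/
theorem potential_int (v : potentials Γ) (ξ : SL(2, ℤ) ⧸ Γ → ℤ)
    (hξ : ∀ x, potXi Γ v x = ξ x) (h1 : v.1 1 = 0)
    (n : ℕ) (vb : SL(2, ℤ) → ZMod n) (hT : ∀ g, vb (T * g) = vb g)
    (hS : ∀ g : SL(2, ℤ), vb g - vb (S⁻¹ * g) = ((ξ (g : SL(2, ℤ) ⧸ Γ) : ℤ) : ZMod n))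
    (hb1 : vb 1 = 0) (g : SL(2, ℤ)) :
    ∃ m : ℤ, v.1 g = m ∧ ((m : ℤ) : ZMod n) = vb g := by
  have key : ∀ a : SL(2, ℤ), ∀ h, ∃ m : ℤ, v.1 (a * h) - v.1 h = m ∧
      ((m : ℤ) : ZMod n) = vb (a * h) - vb h := by
    intro a
    have ha : a ∈ Subgroup.closure {S, T} := by
      rw [SpecialLinearGroup.SL2Z_generators]; trivial
    induction ha using Subgroup.closure_induction with
    | mem x hx =>
      rcases hx with rfl | hx
      · intro h
        refine ⟨ξ ((S * h : SL(2, ℤ)) : SL(2, ℤ) ⧸ Γ), ?_, ?_⟩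
        · rw [← hξ, potXi_mk, inv_mul_cancel_left]
        · rw [← hS, inv_mul_cancel_left]
      · rw [Set.mem_singleton_iff] at hx
        subst hx
        intro h
        exact ⟨0, by rw [potentials_T]; simp, by rw [hT]; simp⟩
    | one => intro h; exact ⟨0, by simp, by simp⟩
    | mul a b _ _ ha hb =>
      intro h
      obtain ⟨m1, e1, f1⟩ := ha (b * h)
      obtain ⟨m2, e2, f2⟩ := hb h
      refine ⟨m1 + m2, ?_, ?_⟩
      · rw [mul_assoc]; push_cast; rw [← e1, ← e2]; ring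
      · rw [mul_assoc]; push_cast; rw [f1, f2]; ring
    | inv a _ ha =>
      intro h
      obtain ⟨m1, e1, f1⟩ := ha (a⁻¹ * h)
      rw [mul_inv_cancel_left] at e1 f1
      refine ⟨-m1, ?_, ?_⟩
      · push_cast; rw [← e1]; ring
      · push_cast; rw [f1]; ring
  obtain ⟨m, e, f⟩ := key g 1
  rw [mul_one, h1, sub_zero] at e
  rw [mul_one, hb1, sub_zero] at f
  exact ⟨m, e, f⟩

end Integral

section Main

variable (N : ℕ) [NeZero N]

/-- **Integral parabolic lift.**  A `ZMod n`-valued potential whose Manin symbol vanishes at the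
elliptic points comes from an integral parabolic homomorphism. -/
theorem exists_integral_parabolic (n : ℕ) [NeZero n] (vb : SL(2, ℤ) → ZMod n)
    (hT : ∀ g, vb (T * g) = vb g)
    (hΓ : ∀ γ ∈ Gamma0 N, ∀ g, vb (g * γ) = vb g + vb γ)
    (hneg : ∀ g, vb (-g) = vb g)
    (hfS : ∀ g : SL(2, ℤ), ((S * g : SL(2, ℤ)) : SL(2, ℤ) ⧸ Gamma0 N) = g →
      vb g = vb (S⁻¹ * g))
    (hfST : ∀ g : SL(2, ℤ), ((S * T * g : SL(2, ℤ)) : SL(2, ℤ) ⧸ Gamma0 N) = g →
      vb g = vb (S⁻¹ * g)) :
    ∃ ψ ∈ parabolicHoms ℂ (Gamma0 N) ℂ, ∀ γ : Gamma0 N,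
      ∃ m : ℤ, ψ (Additive.ofMul γ) = m ∧ ((m : ℤ) : ZMod n) = vb γ := by
  have hb1 : vb 1 = 0 := by
    have := hΓ 1 (one_mem _) 1
    rw [mul_one] at this
    linear_combination -this
  have hTinv : ∀ g, vb (T⁻¹ * g) = vb g := by
    intro g
    have := hT (T⁻¹ * g)
    rw [mul_inv_cancel_left] at this
    exact this.symm
  -- the Manin symbol mod `n`
  set ξb : SL(2, ℤ) ⧸ Gamma0 N → ZMod n := fun x => vb x.out - vb (S⁻¹ * x.out) with hξb
  have ξb_mk : ∀ g : SL(2, ℤ), ξb (g : SL(2, ℤ) ⧸ Gamma0 N) = vb g - vb (S⁻¹ * g) := by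
    intro g
    obtain ⟨h, hh⟩ := QuotientGroup.mk_out_eq_mul (Gamma0 N) g
    show vb (Quotient.out (g : SL(2, ℤ) ⧸ Gamma0 N))
      - vb (S⁻¹ * Quotient.out (g : SL(2, ℤ) ⧸ Gamma0 N)) = _
    rw [hh, ← mul_assoc, hΓ _ h.2, hΓ _ h.2]
    ring
  have r2 : ∀ x, ξb x + ξb (S • x) = 0 := by
    intro x
    induction x using QuotientGroup.induction_on with
    | H g =>
      have e : S • (g : SL(2, ℤ) ⧸ Gamma0 N) = ((S * g : SL(2, ℤ)) : SL(2, ℤ) ⧸ Gamma0 N) := rfl
      rw [e, ξb_mk, ξb_mk, inv_mul_cancel_left]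
      have e2 : S * g = -(S⁻¹ * g) := by
        have : S = -S⁻¹ := by decide
        conv_lhs => rw [this]
        simp
      rw [e2, hneg]
      ring
  have r3 : ∀ x, ξb x + ξb ((S * T) • x) + ξb ((S * T) • (S * T) • x) = 0 := by
    intro x
    induction x using QuotientGroup.induction_on with
    | H g =>
      have e : (S * T) • (g : SL(2, ℤ) ⧸ Gamma0 N)
          = ((S * T * g : SL(2, ℤ)) : SL(2, ℤ) ⧸ Gamma0 N) := rfl
      have e' : (S * T) • ((S * T * g : SL(2, ℤ)) : SL(2, ℤ) ⧸ Gamma0 N)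
          = ((S * T * (S * T * g) : SL(2, ℤ)) : SL(2, ℤ) ⧸ Gamma0 N) := rfl
      rw [e, e', ξb_mk, ξb_mk, ξb_mk]
      have a1 : S⁻¹ * (S * T * g) = T * g := by group
      have a2 : S⁻¹ * (S * T * (S * T * g)) = T * (S * T * g) := by group
      have a3 : S * T * (S * T * g) = -(T⁻¹ * (S⁻¹ * g)) := by
        have : S * T * S * T = -(T⁻¹ * S⁻¹) := by decide
        calc S * T * (S * T * g) = (S * T * S * T) * g := by group
          _ = -(T⁻¹ * (S⁻¹ * g)) := by rw [this]; simp [mul_assoc]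
      rw [a1, a2, hT, hT, a3, hneg, hTinv]
      ring
  have f2 : ∀ x, S • x = x → ξb x = 0 := by
    intro x
    induction x using QuotientGroup.induction_on with
    | H g =>
      intro hx
      rw [ξb_mk, hfS g hx, sub_self]
  have f3 : ∀ x, (S * T) • x = x → ξb x = 0 := by
    intro x
    induction x using QuotientGroup.induction_on with
    | H g =>
      intro hx
      rw [ξb_mk, hfST g hx, sub_self]
  obtain ⟨ξ, ξcast, ξ2, ξ3⟩ := exists_int_lift (X := SL(2, ℤ) ⧸ Gamma0 N) S (S * T) closure_S_ST'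
    (S_S_smul N) (ST_ST_ST_smul N) n ξb r2 r3 f2 f3
  have hmem : (fun x => ((ξ x : ℤ) : ℂ)) ∈ maninW (X := SL(2, ℤ) ⧸ Gamma0 N) S (S * T) := by
    rw [mem_maninW]
    exact ⟨fun x => by exact_mod_cast ξ2 x, fun x => by exact_mod_cast ξ3 x⟩
  obtain ⟨v, hv, hv1⟩ := exists_potential N _ hmem
  refine ⟨potHom (Gamma0 N) v, potHom_mem_parabolicHoms N v, fun γ => ?_⟩
  obtain ⟨m, e, f⟩ := potential_int v ξ (fun x => congrFun hv x) hv1 n vb hT
    (fun g => by rw [ξcast, ξb_mk]) hb1 (γ : SL(2, ℤ))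
  exact ⟨m, by rw [potHom_apply, hv1, sub_zero, e], f⟩

end Main

end Fermat.Agent.S16lib
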