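import Fermat.Agent.S16.Pair

/-!
# S16 (UP), task FO0: formal toolkit for `U_p`, `V_p`, divisibility in `ℤ[[q]]`
-/

set_option autoImplicit false

namespace Fermat.Agent.S16lib

open PowerSeries

section general

variable {R S : Type*} [CommRing R] [CommRing S] (p : ℕ)

@[simp] theorem coeff_Up (A : PowerSeries R) (n : ℕ) : coeff n (Up p A) = coeff (p * n) A := by
  simp [Up]

theorem coeff_Vp (A : PowerSeries R) (n : ℕ) :
    coeff n (Vp p A) = if p ∣ n then coeff (n / p) A else 0 := by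
  simp [Vp]

theorem Vp_eq_expand (hp : p ≠ 0) (A : PowerSeries R) : Vp p A = PowerSeries.expand p hp A := by
  ext n
  rw [coeff_Vp, PowerSeries.coeff_expand]

@[simp] theorem Up_zero : Up p (0 : PowerSeries R) = 0 := by
  ext n; simp

@[simp] theorem Up_add (A B : PowerSeries R) : Up p (A + B) = Up p A + Up p B := by
  ext n; simp

@[simp] theorem Up_neg (A : PowerSeries R) : Up p (-A) = -Up p A := by
  ext n; simp

@[simp] theorem Up_sub (A B : PowerSeries R) : Up p (A - B) = Up p A - Up p B := by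
  ext n; simp

theorem Up_C_mul (c : R) (A : PowerSeries R) : Up p (C c * A) = C c * Up p A := by
  ext n; simp

theorem psIntCast_eq_C (c : ℤ) : (c : PowerSeries R) = C (c : R) := (map_intCast (C (R := R)) c).symm

theorem psNatCast_eq_C (c : ℕ) : (c : PowerSeries R) = C (c : R) := (map_natCast (C (R := R)) c).symm

theorem Up_intCast_mul (c : ℤ) (A : PowerSeries R) :
    Up p ((c : PowerSeries R) * A) = (c : PowerSeries R) * Up p A := by
  rw [psIntCast_eq_C, Up_C_mul]

theorem Up_natCast_mul (c : ℕ) (A : PowerSeries R) :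
    Up p ((c : PowerSeries R) * A) = (c : PowerSeries R) * Up p A := by
  rw [psNatCast_eq_C, Up_C_mul]

theorem Up_natCast_pow_mul (c r : ℕ) (A : PowerSeries R) :
    Up p ((c : PowerSeries R) ^ r * A) = (c : PowerSeries R) ^ r * Up p A := by
  rw [← Nat.cast_pow, Up_natCast_mul]

theorem map_Up (f : R →+* S) (A : PowerSeries R) :
    PowerSeries.map f (Up p A) = Up p (PowerSeries.map f A) := by
  ext n; simp

theorem map_Vp (f : R →+* S) (A : PowerSeries R) :
    PowerSeries.map f (Vp p A) = Vp p (PowerSeries.map f A) := by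
  ext n
  rw [coeff_map, coeff_Vp, coeff_Vp]
  split_ifs <;> simp

variable {p}

theorem Up_C (hp : p ≠ 0) (c : R) : Up p (C c : PowerSeries R) = C c := by
  ext n
  rw [coeff_Up, coeff_C, coeff_C]
  rcases Nat.eq_zero_or_pos n with rfl | hn
  · simp
  · rw [if_neg (Nat.mul_ne_zero hp hn.ne'), if_neg hn.ne']

theorem Up_intCast (hp : p ≠ 0) (c : ℤ) : Up p (c : PowerSeries R) = c := by
  rw [psIntCast_eq_C, Up_C hp]

theorem Up_natCast (hp : p ≠ 0) (c : ℕ) : Up p (c : PowerSeries R) = c := by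
  rw [psNatCast_eq_C, Up_C hp]

theorem Up_one (hp : p ≠ 0) : Up p (1 : PowerSeries R) = 1 := by
  have := Up_C (R := R) hp 1
  simpa using this

@[simp] theorem Vp_zero : Vp p (0 : PowerSeries R) = 0 := by
  ext n; simp [coeff_Vp]

@[simp] theorem Vp_add (A B : PowerSeries R) : Vp p (A + B) = Vp p A + Vp p B := by
  ext n
  simp only [coeff_Vp, map_add]
  split_ifs <;> simp

@[simp] theorem Vp_neg (A : PowerSeries R) : Vp p (-A) = -Vp p A := by
  ext n
  simp only [coeff_Vp, map_neg]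
  split_ifs <;> simp

@[simp] theorem Vp_sub (A B : PowerSeries R) : Vp p (A - B) = Vp p A - Vp p B := by
  rw [sub_eq_add_neg, Vp_add, Vp_neg, sub_eq_add_neg]

theorem Vp_one (hp : p ≠ 0) : Vp p (1 : PowerSeries R) = 1 := by
  rw [Vp_eq_expand p hp, map_one]

theorem Vp_C (hp : p ≠ 0) (c : R) : Vp p (C c : PowerSeries R) = C c := by
  rw [Vp_eq_expand p hp, PowerSeries.expand_C]

theorem Vp_intCast (hp : p ≠ 0) (c : ℤ) : Vp p (c : PowerSeries R) = c := by
  rw [Vp_eq_expand p hp, map_intCast]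

theorem Vp_natCast (hp : p ≠ 0) (c : ℕ) : Vp p (c : PowerSeries R) = c := by
  rw [Vp_eq_expand p hp, map_natCast]

theorem Vp_mul (hp : p ≠ 0) (A B : PowerSeries R) : Vp p (A * B) = Vp p A * Vp p B := by
  simp only [Vp_eq_expand p hp, map_mul]

theorem Vp_pow (hp : p ≠ 0) (A : PowerSeries R) (n : ℕ) : Vp p (A ^ n) = Vp p A ^ n := by
  simp only [Vp_eq_expand p hp, map_pow]

theorem Vp_X (hp : p ≠ 0) : Vp p (X : PowerSeries R) = X ^ p := by
  rw [Vp_eq_expand p hp, PowerSeries.expand_X]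

theorem Up_Vp (hp : p ≠ 0) (A : PowerSeries R) : Up p (Vp p A) = A := by
  ext n
  rw [coeff_Up, coeff_Vp, if_pos (Dvd.intro _ rfl), Nat.mul_div_cancel_left _ (Nat.pos_of_ne_zero hp)]

/-- the projection formula -/
theorem Up_Vp_mul (hp : p ≠ 0) (A B : PowerSeries R) : Up p (Vp p A * B) = A * Up p B := by
  ext n
  rw [coeff_Up, coeff_mul, coeff_mul]
  have hinj : Function.Injective (fun x : ℕ × ℕ => (p * x.1, p * x.2)) := by
    intro x y h
    simp only [Prod.mk.injEq] at h
    exact Prod.ext (Nat.eq_of_mul_eq_mul_left (Nat.pos_of_ne_zero hp) h.1)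
      (Nat.eq_of_mul_eq_mul_left (Nat.pos_of_ne_zero hp) h.2)
  have h1 : ∑ x ∈ Finset.HasAntidiagonal.antidiagonal n, coeff x.1 A * coeff x.2 (Up p B) =
      ∑ y ∈ (Finset.HasAntidiagonal.antidiagonal n).image (fun x : ℕ × ℕ => (p * x.1, p * x.2)),
        coeff y.1 (Vp p A) * coeff y.2 B := by
    rw [Finset.sum_image (fun x _ y _ h => hinj h)]
    refine Finset.sum_congr rfl fun x _ => ?_
    rw [coeff_Up, coeff_Vp, if_pos (Dvd.intro _ rfl),
      Nat.mul_div_cancel_left _ (Nat.pos_of_ne_zero hp)]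
  rw [h1]
  symm
  refine Finset.sum_subset ?_ ?_
  · intro y hy
    obtain ⟨x, hx, rfl⟩ := Finset.mem_image.1 hy
    rw [Finset.HasAntidiagonal.mem_antidiagonal] at hx ⊢
    simp only
    rw [← hx]; ring
  · intro y hy hy'
    rw [coeff_Vp]
    split_ifs with hd
    · exfalso
      apply hy'
      obtain ⟨c, hc⟩ := hd
      rw [Finset.HasAntidiagonal.mem_antidiagonal] at hy
      have hd2 : p ∣ y.2 := by
        have : p ∣ y.1 + y.2 := hy ▸ Dvd.intro _ rfl
        exact (Nat.dvd_add_right (Dvd.intro _ hc.symm)).1 this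
      obtain ⟨d, hd⟩ := hd2
      refine Finset.mem_image.2 ⟨(c, d), ?_, ?_⟩
      · rw [Finset.HasAntidiagonal.mem_antidiagonal]
        apply Nat.eq_of_mul_eq_mul_left (Nat.pos_of_ne_zero hp)
        simp only
        rw [← hy, hc, hd]; ring
      · exact Prod.ext hc.symm hd.symm
    · rw [zero_mul]

theorem Up_mul_Vp (hp : p ≠ 0) (A B : PowerSeries R) : Up p (A * Vp p B) = Up p A * B := by
  rw [mul_comm, Up_Vp_mul hp, mul_comm]

theorem Vp_injective (hp : p ≠ 0) : Function.Injective (Vp p : PowerSeries R → PowerSeries R) :=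
  fun A B h => by rw [← Up_Vp hp A, h, Up_Vp hp]

theorem order_Vp (hp : p ≠ 0) (A : PowerSeries R) : (Vp p A).order = p • A.order := by
  rw [Vp_eq_expand p hp, PowerSeries.order_expand]

theorem coeff_zero_Up (A : PowerSeries R) : coeff 0 (Up p A) = coeff 0 A := by
  rw [coeff_Up, mul_zero]

theorem coeff_zero_Vp (A : PowerSeries R) : coeff 0 (Vp p A) = coeff 0 A := by
  rw [coeff_Vp, if_pos (dvd_zero _), Nat.zero_div]

end general

section integral

variable {p : ℕ} {A B : PowerSeries ℤ}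

/-- divisibility by a constant in `ℤ[[q]]` is coefficientwise -/
theorem intCast_dvd_iff {N : ℤ} : (N : PowerSeries ℤ) ∣ A ↔ ∀ n, N ∣ coeff n A := by
  rw [psIntCast_eq_C]
  constructor
  · rintro ⟨B, rfl⟩ n
    rw [coeff_C_mul]
    exact Dvd.intro _ rfl
  · intro h
    choose b hb using h
    refine ⟨PowerSeries.mk b, ?_⟩
    ext n
    rw [coeff_C_mul, coeff_mk, hb n]
    rfl

theorem natCast_dvd_iff {N : ℕ} : (N : PowerSeries ℤ) ∣ A ↔ ∀ n, (N : ℤ) ∣ coeff n A := by
  rw [← intCast_dvd_iff, Int.cast_natCast]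

theorem natCast_pow_dvd_iff {N r : ℕ} :
    (N : PowerSeries ℤ) ^ r ∣ A ↔ ∀ n, (N : ℤ) ^ r ∣ coeff n A := by
  rw [← intCast_dvd_iff, Int.cast_pow, Int.cast_natCast]

/-- reduction mod `N` -/
noncomputable abbrev red (N : ℕ) (A : PowerSeries ℤ) : PowerSeries (ZMod N) :=
  PowerSeries.map (Int.castRingHom (ZMod N)) A

theorem red_eq_zero_iff {N : ℕ} : red N A = 0 ↔ (N : PowerSeries ℤ) ∣ A := by
  rw [natCast_dvd_iff, PowerSeries.ext_iff]
  refine forall_congr' fun n => ?_
  rw [coeff_map, map_zero, eq_intCast, ZMod.intCast_zmod_eq_zero_iff_dvd]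

theorem red_eq_red_iff {N : ℕ} : red N A = red N B ↔ (N : PowerSeries ℤ) ∣ A - B := by
  rw [← red_eq_zero_iff, red, red, red, map_sub, sub_eq_zero]

theorem intCast_dvd_Up {N : ℤ} (h : (N : PowerSeries ℤ) ∣ A) : (N : PowerSeries ℤ) ∣ Up p A := by
  rw [intCast_dvd_iff] at h ⊢
  intro n
  rw [coeff_Up]
  exact h _

theorem natCast_dvd_Up {N : ℕ} (h : (N : PowerSeries ℤ) ∣ A) : (N : PowerSeries ℤ) ∣ Up p A := by
  rw [← Int.cast_natCast] at h ⊢
  exact intCast_dvd_Up h

theorem natCast_pow_dvd_Up {N r : ℕ} (h : (N : PowerSeries ℤ) ^ r ∣ A) :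
    (N : PowerSeries ℤ) ^ r ∣ Up p A := by
  rw [← Nat.cast_pow] at h ⊢
  exact natCast_dvd_Up h

theorem intCast_dvd_Vp_iff {N : ℤ} (hp : p ≠ 0) :
    (N : PowerSeries ℤ) ∣ Vp p A ↔ (N : PowerSeries ℤ) ∣ A := by
  constructor
  · intro h
    have := intCast_dvd_Up (p := p) h
    rwa [Up_Vp hp] at this
  · rintro ⟨B, rfl⟩
    rw [Vp_mul hp, Vp_intCast hp]
    exact Dvd.intro _ rfl

theorem natCast_dvd_Vp_iff {N : ℕ} (hp : p ≠ 0) :
    (N : PowerSeries ℤ) ∣ Vp p A ↔ (N : PowerSeries ℤ) ∣ A := by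
  rw [← Int.cast_natCast]
  exact intCast_dvd_Vp_iff hp

/-- `l` is a prime element of `ℤ[[q]]` -/
theorem prime_natCast {l : ℕ} (hl : l.Prime) : Prime (l : PowerSeries ℤ) := by
  have : Fact l.Prime := ⟨hl⟩
  refine ⟨?_, ?_, ?_⟩
  · intro h
    have := congrArg (coeff 0) h
    rw [psNatCast_eq_C] at this
    simp at this
    exact hl.ne_zero this
  · intro h
    have h1 : IsUnit (constantCoeff (l : PowerSeries ℤ)) := h.map (constantCoeff (R := ℤ))
    rw [psNatCast_eq_C, constantCoeff_C, Int.isUnit_iff] at h1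
    have := hl.two_le
    omega
  · intro a b h
    rw [← red_eq_zero_iff, red, map_mul, mul_eq_zero] at h
    rwa [red_eq_zero_iff, red_eq_zero_iff] at h

/-- cancellation of a nonzero constant -/
theorem intCast_mul_cancel {c : ℤ} (hc : c ≠ 0)
    (h : (c : PowerSeries ℤ) * A = (c : PowerSeries ℤ) * B) : A = B := by
  have hc' : (c : PowerSeries ℤ) ≠ 0 := by
    intro h0
    have := congrArg (coeff 0) h0
    rw [psIntCast_eq_C] at this
    simp at this
    exact hc this
  exact mul_left_cancel₀ hc' h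

theorem toC_Up (A : PowerSeries ℤ) : toC (Up p A) = Up p (toC A) := map_Up p _ A

theorem toC_Vp (A : PowerSeries ℤ) : toC (Vp p A) = Vp p (toC A) := map_Vp p _ A

theorem toC_intCast (c : ℤ) : toC (c : PowerSeries ℤ) = PowerSeries.C (c : ℂ) := by
  rw [toC, map_intCast, psIntCast_eq_C]

theorem toC_natCast (c : ℕ) : toC (c : PowerSeries ℤ) = PowerSeries.C (c : ℂ) := by
  rw [toC, map_natCast, psNatCast_eq_C]

end integral

end Fermat.Agent.S16lib
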