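import Fermat.Agent.S16.ShimuraTransfer

/-!
# S16, part (B): the Eisenstein numerator divides `χ(Q)` for every `Q` killing `S₂(Γ₀(p))`

(helper22)  Proof via the Shimura class `γ ↦ d(γ) mod μ₁₂`.
-/

set_option autoImplicit false

namespace Fermat.Agent.S16lib

open CongruenceSubgroup ModularCurve ModularCurve.Period
open scoped MatrixGroups

section

variable {p : ℕ} [Fact p.Prime] {n : ℕ} {lam : (ZMod p)ˣ →* Multiplicative (ZMod n)}

/-- the action of the abstract Hecke algebra on cusp forms -/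
noncomputable abbrev act (Q : HeckeAlg) : Module.End ℂ (CuspForm (Gamma0 p) 2) :=
  ((CuspForm.heckeEvalForms p 2 Q : CuspForm.heckeAlgebra p 2 ∅) :
    Module.End ℂ (CuspForm (Gamma0 p) 2))

theorem IsEis.gen (hn : n ∣ p - 1) {c : ZMod n} {f₁ f₂ : CuspForm (Gamma0 p) 2}
    (h : IsEis lam c (periodHomPair p (f₁, f₂))) (ℓ : Nat.Primes) :
    IsEis lam (c * ((eisensteinSystem p ℓ : ℤ) : ZMod n))
      (periodHomPair p (act (MvPolynomial.X ℓ) f₁, act (MvPolynomial.X ℓ) f₂)) := by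
  by_cases hℓ : (ℓ : ℕ) ∣ p
  · have hℓp : (ℓ : ℕ) = p := (Nat.prime_dvd_prime_iff_eq ℓ.2 (Fact.out : p.Prime)).1 hℓ
    have e : act (p := p) (MvPolynomial.X ℓ) = CuspForm.heckeULin 2 hℓ := by
      have := CuspForm.heckeEvalForms_heckeGen_of_dvd (N := p) (k := 2) hℓ
      unfold act
      rw [show (MvPolynomial.X ℓ : HeckeAlg) = heckeGen ℓ from rfl, this]
      rfl
    rw [e, eisensteinSystem_of_dvd hℓ, Int.cast_one, mul_one]
    obtain ⟨ℓ, hℓ'⟩ := ℓ
    simp only at hℓp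
    subst hℓp
    exact h.heckeU hn hℓ
  · have e : act (p := p) (MvPolynomial.X ℓ) = CuspForm.heckeTLin 2 ℓ.2 hℓ := by
      have := CuspForm.heckeEvalForms_heckeGen_of_not_dvd (N := p) (k := 2) hℓ
      unfold act
      rw [show (MvPolynomial.X ℓ : HeckeAlg) = heckeGen ℓ from rfl, this]
      rfl
    rw [e, eisensteinSystem_of_not_dvd hℓ]
    push_cast
    exact h.heckeT ℓ.2 hℓ

theorem IsEis.aeval (hn : n ∣ p - 1) (Q : HeckeAlg) :
    ∀ (c : ZMod n) (f₁ f₂ : CuspForm (Gamma0 p) 2), IsEis lam c (periodHomPair p (f₁, f₂)) →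
      IsEis lam (c * ((MvPolynomial.aeval (eisensteinSystem p) Q : ℤ) : ZMod n))
        (periodHomPair p (act Q f₁, act Q f₂)) := by
  induction Q using MvPolynomial.induction_on with
  | C a =>
    intro c f₁ f₂ h γ
    obtain ⟨m, e1, e2⟩ := h γ
    have e : act (p := p) (MvPolynomial.C a) = (a : Module.End ℂ (CuspForm (Gamma0 p) 2)) := by
      unfold act
      rw [CuspForm.heckeEvalForms_C]
      simp
    refine ⟨a * m, ?_, ?_⟩
    · rw [e]
      have : (((a : Module.End ℂ (CuspForm (Gamma0 p) 2)) f₁,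
          (a : Module.End ℂ (CuspForm (Gamma0 p) 2)) f₂) :
          CuspForm (Gamma0 p) 2 × CuspForm (Gamma0 p) 2) = a • (f₁, f₂) := by
        simp [Module.End.intCast_apply]
      rw [this, map_zsmul, AddMonoidHom.zsmul_apply, e1]
      simp
    · rw [MvPolynomial.aeval_C]
      push_cast
      rw [e2]
      simp
      ring
  | add A B hA hB =>
    intro c f₁ f₂ h γ
    obtain ⟨m1, e1, e2⟩ := hA c f₁ f₂ h γ
    obtain ⟨m2, e3, e4⟩ := hB c f₁ f₂ h γ
    refine ⟨m1 + m2, ?_, ?_⟩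
    · have e : act (p := p) (A + B) = act A + act B := by
        unfold act
        rw [map_add]
        rfl
      have : ((act (A + B) f₁, act (A + B) f₂) : CuspForm (Gamma0 p) 2 × CuspForm (Gamma0 p) 2)
          = (act A f₁, act A f₂) + (act B f₁, act B f₂) := by
        rw [e]; rfl
      rw [this, map_add, AddMonoidHom.add_apply, e1, e3]
      push_cast; rfl
    · rw [map_add]
      push_cast
      rw [e2, e4]
      ring
  | mul_X A ℓ hA =>
    intro c f₁ f₂ h
    have e : act (p := p) (A * MvPolynomial.X ℓ) = act A * act (MvPolynomial.X ℓ) := by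
      unfold act
      rw [map_mul]
      rfl
    have h1 := hA _ _ _ (h.gen hn ℓ)
    rw [e, map_mul, MvPolynomial.aeval_X]
    push_cast
    have e2 : c * (((MvPolynomial.aeval (eisensteinSystem p) A : ℤ) : ZMod n)
        * ((eisensteinSystem p ℓ : ℤ) : ZMod n))
        = c * ((eisensteinSystem p ℓ : ℤ) : ZMod n)
          * ((MvPolynomial.aeval (eisensteinSystem p) A : ℤ) : ZMod n) := by ring
    rw [e2]
    exact h1

/-- every unit mod `p` is the lower right entry of an element of `Γ₀(p)` -/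
lemma exists_Gamma0_d (u : (ZMod p)ˣ) :
    ∃ γ : Gamma0 p, (((γ : SL(2, ℤ)) 1 1 : ℤ) : ZMod p) = u := by
  have hcop : IsCoprime (((u : ZMod p).val : ℕ) : ℤ) (p : ℤ) := by
    rw [Nat.isCoprime_iff_coprime]
    exact (ZMod.val_coe_unit_coprime u)
  obtain ⟨a, b, hab⟩ := hcop
  have hdet : (!![a, -b; (p : ℤ), (((u : ZMod p).val : ℕ) : ℤ)]).det = 1 := by
    rw [Matrix.det_fin_two_of]
    linear_combination hab
  set g : SL(2, ℤ) := ⟨!![a, -b; (p : ℤ), (((u : ZMod p).val : ℕ) : ℤ)], hdet⟩ with hg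
  have h10 : g 1 0 = (p : ℤ) := by simp [hg]
  have h11 : g 1 1 = (((u : ZMod p).val : ℕ) : ℤ) := by simp [hg]
  refine ⟨⟨g, ?_⟩, ?_⟩
  · rw [Gamma0_mem, h10]
    simp
  · show ((g 1 1 : ℤ) : ZMod p) = u
    rw [h11]
    simp

end

/-- INTERFACE of part (B). -/
theorem eisenstein_dvd (p : ℕ) [Fact p.Prime] (Q : ModularCurve.HeckeAlg)
    (hQ : CuspForm.heckeEvalForms p 2 Q = 0) :
    ((ModularCurve.eisensteinNumerator p : ℕ) : ℤ) ∣
      MvPolynomial.aeval (ModularCurve.eisensteinSystem p) Q := by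
  obtain ⟨lam, hsurj, h12⟩ := exists_lam p
  obtain ⟨ψ, hψ, hint⟩ := exists_shimura_lift lam h12
  rw [← (Fermat.Agent.S21.result p).2] at hψ
  obtain ⟨⟨f₁, f₂⟩, rfl⟩ := hψ
  have h1 : IsEis lam 1 (periodHomPair p (f₁, f₂)) := by
    intro γ
    obtain ⟨m, e1, e2⟩ := hint γ
    exact ⟨m, e1, by rw [e2, one_mul]⟩
  have h2 := h1.aeval (eisensteinNumerator_dvd p) Q
  have e : act (p := p) Q = 0 := by
    unfold act
    rw [hQ]
    rfl
  rw [e] at h2
  obtain ⟨u, hu⟩ := hsurj (Multiplicative.ofAdd 1)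
  obtain ⟨γ, hγ⟩ := exists_Gamma0_d u
  obtain ⟨m, e1, e2⟩ := h2 γ
  have hm : m = 0 := by
    have : (periodHomPair p ((0 : Module.End ℂ (CuspForm (Gamma0 p) 2)) f₁,
        (0 : Module.End ℂ (CuspForm (Gamma0 p) 2)) f₂)) = 0 := by
      have : (((0 : Module.End ℂ (CuspForm (Gamma0 p) 2)) f₁,
        (0 : Module.End ℂ (CuspForm (Gamma0 p) 2)) f₂) :
          CuspForm (Gamma0 p) 2 × CuspForm (Gamma0 p) 2) = 0 := rfl
      rw [this, map_zero]
    rw [this, AddMonoidHom.zero_apply] at e1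
    exact_mod_cast e1.symm
  rw [hm, hγ, Lg_unit, hu, one_mul] at e2
  rw [← ZMod.intCast_zmod_eq_zero_iff_dvd]
  simpa using e2.symm

end Fermat.Agent.S16lib
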