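import Fermat.Agent.S16.Weight

/-!
# S16 (UP), task FO4: the case `l = p ≥ 5`
-/

set_option autoImplicit false

namespace Fermat.Agent.S16lib

open PowerSeries

/-- `l = p ≥ 5`: `p^(i-1) G^i + (-1)^i U_p((U_p G)^i) ≡ (-1)^i u^i mod p` for `i = 2, 3`, so
`p ∣ 4^2 - 1` and `p ∣ 4^3 - 1`. -/
theorem case_eq_p {p : ℕ} [Fact p.Prime] (hp5 : 5 ≤ p)
    {G : PowerSeries ℤ} {u : ℤ} (hG : IsPair p 1 G (-(Up p G))) (hu : ¬ (p : ℤ) ∣ u)
    (hc : (p : PowerSeries ℤ) ∣ G - (u : PowerSeries ℤ)) : False := by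
  have hp : p.Prime := Fact.out
  have hc' : (p : PowerSeries ℤ) ∣ -(Up p G) - ((-u : ℤ) : PowerSeries ℤ) := by
    have h := natCast_dvd_Up (p := p) hc
    rw [Up_sub, Up_intCast hp.ne_zero] at h
    have h2 : -(Up p G) - ((-u : ℤ) : PowerSeries ℤ) = -(Up p G - (u : PowerSeries ℤ)) := by
      push_cast; ring
    rw [h2]
    exact (dvd_neg).2 h
  have key : ∀ i : ℕ, 2 ≤ i → (p : ℤ) ∣ 4 ^ i - 1 := by
    intro i hi
    have h1 := (hG.pow i).trace (by omega)
    have hcong : (p : PowerSeries ℤ) ^ 1 ∣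
        ((p : PowerSeries ℤ) ^ (i * 1 - 1) * G ^ i + Up p ((-(Up p G)) ^ i)) -
          (((-u) ^ i : ℤ) : PowerSeries ℤ) := by
      rw [pow_one, add_sub_assoc]
      refine dvd_add (Dvd.dvd.mul_right (dvd_pow_self _ (by omega)) _) ?_
      have h3 : (p : PowerSeries ℤ) ∣ (-(Up p G)) ^ i - (((-u : ℤ) : PowerSeries ℤ)) ^ i :=
        hc'.trans (sub_dvd_pow_sub_pow _ _ i)
      have h4 := natCast_dvd_Up (p := p) h3
      rw [Up_sub, ← Int.cast_pow, Up_intCast hp.ne_zero] at h4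
      exact h4
    have hne : ¬ (p : PowerSeries ℤ) ∣
        ((p : PowerSeries ℤ) ^ (i * 1 - 1) * G ^ i + Up p ((-(Up p G)) ^ i)) := by
      intro h
      rw [pow_one] at hcong
      have h5 := (dvd_sub_right h).1 hcong
      rw [natCast_dvd_intCast_iff] at h5
      have h6 := (Nat.prime_iff_prime_int.1 hp).dvd_of_dvd_pow h5
      exact hu ((dvd_neg).1 h6)
    have h7 := weight_lemma (r := 1) (m₁ := i * 1) (m₂ := 0) hp (by omega) h1
      ((isL1_intCast _).congr_weight (by simp)) hcong hne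
    simpa using h7
  have h2 := key 2 le_rfl
  have h3 := key 3 (by norm_num)
  have h4 : (p : ℤ) ∣ 3 := by
    have := dvd_sub h3 (Dvd.dvd.mul_left h2 4)
    norm_num at this
    exact this
  have h5 : p ∣ 3 := by exact_mod_cast h4
  have := Nat.le_of_dvd (by norm_num) h5
  omega

end Fermat.Agent.S16lib
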