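import Fermat.Agent.S16.Weight

/-!
# S16 (UP), task FO5: consequences of (Q): `G ≡ u mod l^r`, `l^r ∣ 24` implies `l^r ∣ p + 1`
-/

set_option autoImplicit false

namespace Fermat.Agent.S16lib

open PowerSeries

theorem constantCoeff_Up (p : ℕ) (A : PowerSeries ℤ) :
    constantCoeff (Up p A) = constantCoeff A := by
  rw [← coeff_zero_eq_constantCoeff_apply, ← coeff_zero_eq_constantCoeff_apply, coeff_zero_Up]

theorem constantCoeff_Vp (p : ℕ) (A : PowerSeries ℤ) :
    constantCoeff (Vp p A) = constantCoeff A := by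
  rw [← coeff_zero_eq_constantCoeff_apply, ← coeff_zero_eq_constantCoeff_apply, coeff_zero_Vp]

theorem constantCoeff_E4z : constantCoeff E4z = 1 := by
  rw [← coeff_zero_eq_constantCoeff_apply, coeff_zero_E4z]

theorem constantCoeff_E6z : constantCoeff E6z = 1 := by
  rw [← coeff_zero_eq_constantCoeff_apply, coeff_zero_E6z]

/-- apply `IsPair.pow_dvd_snd` to `(G E₄ - u E₆, -p²(U_pG · V_pE₄ + u p V_pE₆))` and look at the
constant term. -/
theorem case_Q {p l r : ℕ} [Fact p.Prime] (hl : l.Prime) (hlp : l ≠ p) (h24 : l ^ r ∣ 24)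
    {G : PowerSeries ℤ} {u : ℤ} (hG : IsPair p 1 G (-(Up p G))) (hu : ¬ (l : ℤ) ∣ u)
    (hc : (l : PowerSeries ℤ) ^ r ∣ G - (u : PowerSeries ℤ)) : l ^ r ∣ p + 1 := by
  have hp : p.Prime := Fact.out
  have h4 : IsPair p 2 E4z ((p : PowerSeries ℤ) ^ 2 * Vp p E4z) :=
    IsL1.pair (isL1_E4z.congr_weight (by norm_num))
  have h6 : IsPair p 3 E6z ((p : PowerSeries ℤ) ^ 3 * Vp p E6z) :=
    IsL1.pair (isL1_E6z.congr_weight (by norm_num))
  have hP := (hG.mul h4).sub (h6.intCast_mul u)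
  -- divisibility of the first component
  obtain ⟨c, hc24⟩ := h24
  have h24' : (24 : PowerSeries ℤ) = (l : PowerSeries ℤ) ^ r * (c : PowerSeries ℤ) := by
    have : ((24 : ℕ) : PowerSeries ℤ) = ((l ^ r * c : ℕ) : PowerSeries ℤ) := by rw [hc24]
    push_cast at this
    exact this
  have hA : (l : PowerSeries ℤ) ^ r ∣ G * E4z - (u : PowerSeries ℤ) * E6z := by
    obtain ⟨X, hX⟩ := hc
    refine ⟨X * E4z + (u : PowerSeries ℤ) * (c : PowerSeries ℤ) *
      (10 * sigmaSeries 3 + 21 * sigmaSeries 5), ?_⟩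
    have hG' : G = (u : PowerSeries ℤ) + (l : PowerSeries ℤ) ^ r * X := by
      rw [← hX]; ring
    have : G * E4z - (u : PowerSeries ℤ) * E6z = (l : PowerSeries ℤ) ^ r * X * E4z +
        (u : PowerSeries ℤ) * (24 * (10 * sigmaSeries 3 + 21 * sigmaSeries 5)) := by
      rw [hG', E4z, E6z]; ring
    rw [this, h24']; ring
  have hB := hP.pow_dvd_snd hl hlp r hA
  have hB' := map_dvd (constantCoeff (R := ℤ)) hB
  have hc' := map_dvd (constantCoeff (R := ℤ)) hc
  simp only [map_sub, map_mul, map_neg, map_pow, map_natCast, map_intCast, constantCoeff_Up,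
    constantCoeff_Vp, constantCoeff_E4z, constantCoeff_E6z, mul_one, Int.cast_id] at hB' hc'
  -- now pure integer arithmetic
  set g0 : ℤ := constantCoeff G with hg0
  have h1 : (l : ℤ) ^ r ∣ (p : ℤ) ^ 2 * u * ((p : ℤ) + 1) := by
    obtain ⟨x, hx⟩ := hc'
    have hg : g0 = u + (l : ℤ) ^ r * x := by linarith
    have : (p : ℤ) ^ 2 * u * ((p : ℤ) + 1) =
        -(-g0 * (p : ℤ) ^ 2 - u * (p : ℤ) ^ 3) - (l : ℤ) ^ r * (x * (p : ℤ) ^ 2) := by
      rw [hg]; ring
    rw [this]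
    exact dvd_sub (hB'.neg_right) (Dvd.intro _ rfl)
  have hlZ : Prime (l : ℤ) := Nat.prime_iff_prime_int.1 hl
  have hcop1 : IsCoprime ((l : ℤ) ^ r) ((p : ℤ) ^ 2 * u) := by
    apply IsCoprime.pow_left
    apply IsCoprime.mul_right
    · apply IsCoprime.pow_right
      rw [Nat.isCoprime_iff_coprime]
      exact (Nat.coprime_primes hl hp).2 hlp
    · exact (Prime.coprime_iff_not_dvd hlZ).2 hu
  have h2 := hcop1.dvd_of_dvd_mul_left h1
  exact_mod_cast h2

end Fermat.Agent.S16lib
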