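import Fermat.Agent.S16.WT

/-!
# S16 (UP), first half of FO6: `l = 3`, `9 ∣ p + 1`, `G ≡ u mod 9`
-/

set_option autoImplicit false

namespace Fermat.Agent.S16lib

open PowerSeries

theorem coeff_Dz_pow_self (t : ℕ) : coeff t (Dz ^ t) = 1 := by
  rw [Dz, mul_pow]
  have := coeff_X_pow_mul (ModularCurve.dedekindEtaUnit ^ t) t 0
  rw [zero_add] at this
  rw [this, coeff_zero_eq_constantCoeff_apply, map_pow, ModularCurve.constantCoeff_dedekindEtaUnit,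
    one_pow]

/-- `9 ∣ p + 1`: `Φ = Δ^p`, `A₁ = TR(G Φ_b, -U_pG Φ)`, `B₁ = T_p Φ`, `A₁ + u B₁ ≡ 0 mod 9`,
`weight_lemma` gives `9 ∣ 4^(6p+1) - 4^(6p)`. -/
theorem case_three_nine_aux {p : ℕ} [Fact p.Prime] (hp : 9 ∣ p + 1)
    {G : PowerSeries ℤ} {u : ℤ} (hG : IsPair p 1 G (-(Up p G))) (hu : ¬ (3 : ℤ) ∣ u)
    (hc : (3 : PowerSeries ℤ) ^ 2 ∣ G - (u : PowerSeries ℤ)) : False := by
  have hp2 : 2 ≤ p := (Fact.out : p.Prime).two_le
  obtain ⟨k, hk⟩ := hp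
  obtain ⟨g, hg⟩ := hc
  have hG' : G = (u : PowerSeries ℤ) + 3 ^ 2 * g := by rw [← hg]; ring
  have hp0 : p ≠ 0 := by omega
  have h9 : ∀ A : PowerSeries ℤ, Up p (3 ^ 2 * A) = 3 ^ 2 * Up p A := fun A => by
    have := Up_natCast_mul (R := ℤ) p 9 A
    have e : ((9 : ℕ) : PowerSeries ℤ) = 3 ^ 2 := by norm_num
    rwa [e] at this
  have hUG : Up p G = (u : PowerSeries ℤ) + 3 ^ 2 * Up p g := by
    rw [hG', Up_add, Up_intCast hp0, h9]
  set Φ : PowerSeries ℤ := Dz ^ p with hΦdef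
  have hΦ : IsL1 (2 * ((6 * p : ℕ) : ℤ)) Φ :=
    (isL1_Dz.pow p).congr_weight (by push_cast; ring)
  have hpair := hΦ.pair' (p := p)
  have htr := (hG.mul hpair).trace (by omega)
  have hB := hΦ.hecke p (by omega)
  have hB' := hB.intCast_mul (-u)
  set V := Vp p Φ with hV
  -- the congruence
  have hUp : Up p (-(Up p G) * Φ) = -((u : PowerSeries ℤ) * Up p Φ) - 3 ^ 2 * Up p (Up p g * Φ) := by
    have h2 := Up_intCast_mul (R := ℤ) p u Φ
    rw [hUG, show -((u : PowerSeries ℤ) + 3 ^ 2 * Up p g) * Φ =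
      -((u : PowerSeries ℤ) * Φ) - 3 ^ 2 * (Up p g * Φ) by ring, Up_sub, Up_neg, h9, h2]
  have hpk : (p : PowerSeries ℤ) + 1 = 3 ^ 2 * (k : PowerSeries ℤ) := by
    have := congrArg (fun n : ℕ => (n : PowerSeries ℤ)) hk
    push_cast at this
    rw [this]; norm_num
  have hcong : ((3 : ℕ) : PowerSeries ℤ) ^ 2 ∣
      ((p : PowerSeries ℤ) ^ (1 + 6 * p - 1) * (G * ((p : PowerSeries ℤ) ^ (6 * p) * V)) +
        Up p (-(Up p G) * Φ)) -
      (((-u : ℤ) : PowerSeries ℤ) * ((p : PowerSeries ℤ) ^ (2 * (6 * p) - 1) * V + Up p Φ)) := by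
    refine ⟨(p : PowerSeries ℤ) ^ (6 * p) * (g * ((p : PowerSeries ℤ) ^ (6 * p) * V)) -
      Up p (Up p g * Φ) + (u : PowerSeries ℤ) * (p : PowerSeries ℤ) ^ (2 * (6 * p) - 1) * V *
        (k : PowerSeries ℤ), ?_⟩
    have e1 : 1 + 6 * p - 1 = 6 * p := by omega
    have e2 : (p : PowerSeries ℤ) ^ (6 * p) * (p : PowerSeries ℤ) ^ (6 * p) =
        (p : PowerSeries ℤ) ^ (2 * (6 * p) - 1) * p := by
      rw [← pow_add, ← pow_succ]
      congr 1
      omega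
    rw [hUp, e1, hG']
    push_cast
    linear_combination ((u : PowerSeries ℤ) * V) * e2 +
      ((u : PowerSeries ℤ) * (p : PowerSeries ℤ) ^ (2 * (6 * p) - 1) * V) * hpk
  -- non-vanishing mod 3
  have hcoeff : coeff 1 (((-u : ℤ) : PowerSeries ℤ) *
      ((p : PowerSeries ℤ) ^ (2 * (6 * p) - 1) * V + Up p Φ)) = -u := by
    have h1 : coeff 1 ((p : PowerSeries ℤ) ^ (2 * (6 * p) - 1) * V) = 0 := by
      have : (p : PowerSeries ℤ) ^ (2 * (6 * p) - 1) =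
          (((p : ℤ) ^ (2 * (6 * p) - 1) : ℤ) : PowerSeries ℤ) := by push_cast; rfl
      rw [this, coeff_intCast_mul, hV, coeff_Vp, if_neg (by
        intro h
        have := Nat.le_of_dvd one_pos h
        omega), mul_zero]
    rw [coeff_intCast_mul, map_add, h1, coeff_Up, mul_one, hΦdef, coeff_Dz_pow_self]
    ring
  have hne : ¬ ((3 : ℕ) : PowerSeries ℤ) ∣
      ((p : PowerSeries ℤ) ^ (1 + 6 * p - 1) * (G * ((p : PowerSeries ℤ) ^ (6 * p) * V)) +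
        Up p (-(Up p G) * Φ)) := by
    intro h
    have h3 : ((3 : ℕ) : PowerSeries ℤ) ∣ (((-u : ℤ) : PowerSeries ℤ) *
      ((p : PowerSeries ℤ) ^ (2 * (6 * p) - 1) * V + Up p Φ)) :=
      (dvd_sub_right h).1 ((dvd_pow_self _ two_ne_zero).trans hcong)
    have := natCast_dvd_iff.1 h3 1
    rw [hcoeff] at this
    exact hu (by simpa using this)
  have hfin := weight_lemma_wt (l := 3) (r := 2) Nat.prime_three (by norm_num) htr hB' hcong hne
  have e3 : (4 : ℤ) ^ (1 + 6 * p) - 4 ^ (6 * p) = 3 * 4 ^ (6 * p) := by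
    rw [pow_add]; ring
  rw [e3] at hfin
  have h4 : (3 : ℤ) ∣ 4 ^ (6 * p) := by
    have : ((3 : ℕ) : ℤ) ^ 2 = 3 * 3 := by norm_num
    rw [this] at hfin
    exact (mul_dvd_mul_iff_left (by norm_num)).1 hfin
  have h5 := Int.Prime.dvd_pow' Nat.prime_three (by exact_mod_cast h4 : ((3 : ℕ) : ℤ) ∣ 4 ^ (6 * p))
  norm_num at h5

end Fermat.Agent.S16lib
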