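import Fermat.Agent.S16.Weight
import Fermat.Agent.S16.CaseThreeNine

/-!
# S16 (UP), task FO6: `l = 3`, `p ≡ 2 mod 3`, `G ≡ u mod 9`
-/

set_option autoImplicit false

namespace Fermat.Agent.S16lib

open PowerSeries

/-- `9 ∣ p + 1`: `Φ = Δ^p`, `A₁ = TR(G Φ_b, -U_pG Φ)`, `B₁ = T_p Φ`, `A₁ + u B₁ ≡ 0 mod 9`,
`weight_lemma` gives `9 ∣ 4^(6p+1) - 4^(6p)`. -/
theorem case_three_nine {p : ℕ} [Fact p.Prime] (hp : 9 ∣ p + 1)
    {G : PowerSeries ℤ} {u : ℤ} (hG : IsPair p 1 G (-(Up p G))) (hu : ¬ (3 : ℤ) ∣ u)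
    (hc : (3 : PowerSeries ℤ) ^ 2 ∣ G - (u : PowerSeries ℤ)) : False :=
  case_three_nine_aux hp hG hu hc

/-- `3 ∣ p + 1`, `9 ∤ p + 1`: coefficient of `q` in `p G² + U_p((U_pG)²) = (p+1) u² E₄`. -/
theorem case_three_T2 {p : ℕ} [Fact p.Prime] (hp3 : 3 ∣ p + 1) (hp9 : ¬ 9 ∣ p + 1)
    {G : PowerSeries ℤ} {u : ℤ} (hG : IsPair p 1 G (-(Up p G))) (hu : ¬ (3 : ℤ) ∣ u)
    (hc : (3 : PowerSeries ℤ) ^ 2 ∣ G - (u : PowerSeries ℤ)) : False := by
  have hp0 : p ≠ 0 := (Fact.out : p.Prime).ne_zero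
  obtain ⟨X, hX⟩ := hc
  obtain ⟨k, hk⟩ := hp3
  have hk3 : ¬ (3 : ℤ) ∣ (k : ℤ) := by
    intro h
    apply hp9
    have h' : 3 ∣ k := by exact_mod_cast h
    obtain ⟨c, rfl⟩ := h'
    exact ⟨c, by rw [hk]; ring⟩
  have hG' : G = ((u : ℤ) : PowerSeries ℤ) + ((9 : ℤ) : PowerSeries ℤ) * X := by
    have : G = (u : PowerSeries ℤ) + (G - (u : PowerSeries ℤ)) := by ring
    rw [this, hX]; push_cast; ring
  set X' := Up p X with hX'
  have hUG : Up p G = ((u : ℤ) : PowerSeries ℤ) + ((9 : ℤ) : PowerSeries ℤ) * X' := by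
    rw [hG', Up_add, Up_intCast hp0, Up_intCast_mul]
  have hUX' : Up p X' = X := by
    have h1 := hG.Up_Up
    rw [hUG, Up_add, Up_intCast hp0, Up_intCast_mul] at h1
    have h2 : ((9 : ℤ) : PowerSeries ℤ) * Up p X' = ((9 : ℤ) : PowerSeries ℤ) * X := by
      have h3 := h1.trans hG'
      exact add_left_cancel h3
    exact intCast_mul_cancel (by norm_num) h2
  have hT := (hG.mul hG).trace (by norm_num)
  have hpk : (p : PowerSeries ℤ) = 3 * (k : PowerSeries ℤ) - 1 := by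
    have : ((p + 1 : ℕ) : PowerSeries ℤ) = ((3 * k : ℕ) : PowerSeries ℤ) := by rw [hk]
    push_cast at this
    rw [← this]; ring
  have hsq : -(Up p G) * -(Up p G) = ((u ^ 2 : ℤ) : PowerSeries ℤ) +
      ((18 * u : ℤ) : PowerSeries ℤ) * X' + ((81 : ℤ) : PowerSeries ℤ) * (X' * X') := by
    rw [hUG]; push_cast; ring
  have hA : (p : PowerSeries ℤ) ^ (1 + 1 - 1) * (G * G) + Up p (-(Up p G) * -(Up p G)) =
      ((3 * k * u ^ 2 : ℤ) : PowerSeries ℤ) + ((27 : ℤ) : PowerSeries ℤ) *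
        (2 * (k : PowerSeries ℤ) * (u : PowerSeries ℤ) * X +
          3 * ((p : PowerSeries ℤ) * (X * X) + Up p (X' * X'))) := by
    rw [hsq, Up_add, Up_add, Up_intCast hp0, Up_intCast_mul, Up_intCast_mul, hUX']
    have : (1 + 1 - 1 : ℕ) = 1 := rfl
    rw [this, pow_one]
    conv_lhs => rw [hG']
    push_cast
    rw [hpk]
    ring
  rw [hA] at hT
  have hT4 : IsL1 4 _ := hT.congr_weight (by norm_num)
  have h4 := hT4.eq_of_four
  set Y := 2 * (k : PowerSeries ℤ) * (u : PowerSeries ℤ) * X +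
          3 * ((p : PowerSeries ℤ) * (X * X) + Up p (X' * X')) with hY
  have hc0 : coeff 0 (((3 * k * u ^ 2 : ℤ) : PowerSeries ℤ) + ((27 : ℤ) : PowerSeries ℤ) * Y) =
      3 * k * u ^ 2 + 27 * coeff 0 Y := by
    rw [map_add, coeff_intCast_mul, psIntCast_eq_C, coeff_zero_C, Int.cast_id]
  have hc1 : coeff 1 (((3 * k * u ^ 2 : ℤ) : PowerSeries ℤ) + ((27 : ℤ) : PowerSeries ℤ) * Y) =
      27 * coeff 1 Y := by
    rw [map_add, coeff_intCast_mul, psIntCast_eq_C, coeff_C, if_neg one_ne_zero, zero_add]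
  have h5 := congrArg (coeff 1) h4
  rw [hc1, hc0, coeff_intCast_mul, coeff_E4z] at h5
  simp at h5
  -- 27 y1 = (3 k u^2 + 27 y0) * 240
  have h6 : (3 : ℤ) ∣ (k : ℤ) * u ^ 2 := by
    have h7 : (3 : ℤ) ∣ 80 * ((k : ℤ) * u ^ 2) :=
      ⟨coeff 1 Y - 240 * constantCoeff Y, by linarith⟩
    exact (IsCoprime.dvd_of_dvd_mul_left (by norm_num : IsCoprime (3 : ℤ) 80) h7)
  have hpr : Prime (3 : ℤ) := Int.prime_three
  rcases hpr.dvd_or_dvd h6 with h | h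
  · exact hk3 h
  · exact hu (hpr.dvd_of_dvd_pow h)

end Fermat.Agent.S16lib
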