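import Fermat.Agent.S16.XiLemma

/-!
# S16 (UP): the case `ℓ = 2`, `p ≡ 7 mod 8`, abstract form

The statement is abstract in the two predicates `IsL1` (level one forms with integral
`q`-expansion) and `IsPair` (a form of level `p` together with its `W_p`-transform).
-/

set_option autoImplicit false

open PowerSeries

namespace Fermat.Agent.S16lib

namespace CaseTwo

/-- local copy of the operator `U_p` on power series. -/
noncomputable def U {R : Type*} [Semiring R] (p : ℕ) (A : PowerSeries R) : PowerSeries R :=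
  PowerSeries.mk fun n => PowerSeries.coeff (p * n) A

@[simp] lemma coeff_U {R : Type*} [Semiring R] (p n : ℕ) (A : PowerSeries R) :
    PowerSeries.coeff n (U p A) = PowerSeries.coeff (p * n) A := by
  simp [U]

lemma U_add {R : Type*} [Semiring R] (p : ℕ) (A B : PowerSeries R) :
    U p (A + B) = U p A + U p B := by
  ext n; simp

lemma map_U {R S : Type*} [Semiring R] [Semiring S] (f : R →+* S) (p : ℕ) (A : PowerSeries R) :
    PowerSeries.map f (U p A) = U p (PowerSeries.map f A) := by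
  ext n; simp

lemma U_expand_mul {R : Type*} [CommRing R] (p : ℕ) (hp : p ≠ 0) (A B : PowerSeries R) :
    U p (PowerSeries.expand p hp A * B) = A * U p B := by
  ext n
  rw [coeff_U, PowerSeries.coeff_mul, PowerSeries.coeff_mul]
  have hinj : Function.Injective (fun x : ℕ × ℕ => (p * x.1, p * x.2)) := by
    intro x y h
    simp only [Prod.mk.injEq] at h
    exact Prod.ext (Nat.eq_of_mul_eq_mul_left (Nat.pos_of_ne_zero hp) h.1)
      (Nat.eq_of_mul_eq_mul_left (Nat.pos_of_ne_zero hp) h.2)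
  have hsub : (Finset.HasAntidiagonal.antidiagonal n).map ⟨_, hinj⟩ ⊆ Finset.HasAntidiagonal.antidiagonal (p * n) := by
    intro x hx
    simp only [Finset.mem_map, Finset.HasAntidiagonal.mem_antidiagonal, Function.Embedding.coeFn_mk] at hx
    obtain ⟨y, hy, rfl⟩ := hx
    simp only [Finset.HasAntidiagonal.mem_antidiagonal]
    rw [← hy]; ring
  rw [← Finset.sum_subset hsub]
  · rw [Finset.sum_map]
    refine Finset.sum_congr rfl fun x _ => ?_
    simp
  · intro x hx hx'
    have hnd : ¬ p ∣ x.1 := by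
      rintro ⟨a, ha⟩
      apply hx'
      simp only [Finset.HasAntidiagonal.mem_antidiagonal] at hx
      have hle : a ≤ n := by
        have : p * a ≤ p * n := by omega
        exact Nat.le_of_mul_le_mul_left this (Nat.pos_of_ne_zero hp)
      simp only [Finset.mem_map, Finset.HasAntidiagonal.mem_antidiagonal, Function.Embedding.coeFn_mk]
      refine ⟨(a, n - a), by simp; omega, ?_⟩
      refine Prod.ext ha.symm ?_
      simp only
      rw [Nat.mul_sub]; omega
    rw [PowerSeries.coeff_expand_of_not_dvd p hp _ hnd, zero_mul]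

/-- reduction mod `2` of integral power series. -/
noncomputable abbrev red : PowerSeries ℤ →+* PowerSeries (ZMod 2) :=
  PowerSeries.map (Int.castRingHom (ZMod 2))

lemma two_eq_zero : (2 : PowerSeries (ZMod 2)) = 0 := by
  have h : (2 : ZMod 2) = 0 := by decide
  rw [← map_ofNat (PowerSeries.C (R := ZMod 2)) 2, h, map_zero]

lemma red_eq_of_dvd {A B : PowerSeries ℤ} (h : (2 : PowerSeries ℤ) ∣ A - B) : red A = red B := by
  obtain ⟨c, hc⟩ := h
  have : red A - red B = 0 := by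
    rw [← map_sub, hc, map_mul, map_ofNat, two_eq_zero, zero_mul]
  exact sub_eq_zero.mp this

lemma dvd_coeff_iff (A : PowerSeries ℤ) (n : ℕ) :
    (2 : ℤ) ∣ PowerSeries.coeff n A ↔ PowerSeries.coeff n (red A) = 0 := by
  rw [PowerSeries.coeff_map]
  simp only [eq_intCast]
  exact_mod_cast (ZMod.intCast_zmod_eq_zero_iff_dvd (PowerSeries.coeff n A) 2).symm

/-- The purely formal computation mod `2`. -/
lemma coeff_final {p : ℕ} (hp0 : p ≠ 0) (hp1 : p ≠ 1) (t : ℕ) (d : PowerSeries (ZMod 2))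
    (h0 : PowerSeries.coeff 0 d = 0) (h1 : PowerSeries.coeff 1 d = 1) :
    (∀ n, n ≤ t → PowerSeries.coeff n
      (d ^ t * (PowerSeries.expand p hp0 (d ^ p) + U p (d ^ p))) = 0) ∧
    PowerSeries.coeff (t + 1)
      (d ^ t * (PowerSeries.expand p hp0 (d ^ p) + U p (d ^ p))) = 1 := by
  have hX : (PowerSeries.X : PowerSeries (ZMod 2)) ∣ d := by
    rw [PowerSeries.X_dvd_iff]; simpa using h0
  obtain ⟨e, rfl⟩ := hX
  have he : PowerSeries.constantCoeff e = 1 := by
    have := h1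
    rw [show (1 : ℕ) = 0 + 1 from rfl, PowerSeries.coeff_succ_X_mul] at this
    simpa using this
  set W := PowerSeries.expand p hp0 ((PowerSeries.X * e) ^ p) + U p ((PowerSeries.X * e) ^ p)
    with hW
  have hW0 : PowerSeries.coeff 0 W = 0 := by
    rw [hW, map_add, coeff_U]
    simp [hp0]
  have hW1 : PowerSeries.coeff 1 W = 1 := by
    rw [hW, map_add, coeff_U, PowerSeries.coeff_expand_of_not_dvd p hp0 _ (by simpa using hp1),
      zero_add, mul_one, mul_pow, PowerSeries.coeff_X_pow_mul']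
    simp [he]
  have key : (PowerSeries.X * e) ^ t * W = PowerSeries.X ^ t * (e ^ t * W) := by ring
  rw [key]
  constructor
  · intro n hn
    rw [PowerSeries.coeff_X_pow_mul']
    split_ifs with h
    · have : n = t := le_antisymm hn h
      subst this
      rw [Nat.sub_self, PowerSeries.coeff_zero_eq_constantCoeff_apply, map_mul,
        ← PowerSeries.coeff_zero_eq_constantCoeff_apply W, hW0, mul_zero]
    · rfl
  · rw [PowerSeries.coeff_X_pow_mul', if_pos (Nat.le_succ t), Nat.add_sub_cancel_left,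
      PowerSeries.coeff_mul]
    rw [Finset.Nat.antidiagonal_succ]
    simp [hW0, hW1, he]

end CaseTwo

open CaseTwo in
/-- **Case `ℓ = 2`, `p ≡ 7 mod 8`** in abstract form: there is no pair `(G, -G')` of weight `2`
with `G ≡ G' ≡ 1 mod 8`. -/
theorem case_two_abstract
    (p : ℕ) (hp0 : p ≠ 0) (hp8 : p % 8 = 7)
    (IsL1 : ℤ → PowerSeries ℤ → Prop) (IsPair : ℕ → PowerSeries ℤ → PowerSeries ℤ → Prop)
    (E4 E6 D : PowerSeries ℤ)
    (hrel : E4 ^ 3 - E6 ^ 2 = 1728 * D)
    (h4 : (16 : PowerSeries ℤ) ∣ E4 - 1) (h6 : (8 : PowerSeries ℤ) ∣ E6 - 1)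
    (hD0 : PowerSeries.coeff 0 D = 0) (hD1 : PowerSeries.coeff 1 D = 1)
    (L0 : IsL1 0 1) (L4 : IsL1 4 E4) (L6 : IsL1 6 E6) (L12 : IsL1 12 D)
    (Lmul : ∀ (k k' : ℤ) (A B : PowerSeries ℤ), IsL1 k A → IsL1 k' B → IsL1 (k + k') (A * B))
    (Padd : ∀ (m : ℕ) (A B A' B' : PowerSeries ℤ),
      IsPair m A B → IsPair m A' B' → IsPair m (A + A') (B + B'))
    (Psmul : ∀ (m : ℕ) (c : ℤ) (A B : PowerSeries ℤ), IsPair m A B → IsPair m (c • A) (c • B))
    (Pcancel : ∀ (m : ℕ) (c : ℤ) (A B : PowerSeries ℤ), c ≠ 0 →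
      IsPair m (c • A) (c • B) → IsPair m A B)
    (Pmul : ∀ (m m' : ℕ) (A B A' B' : PowerSeries ℤ),
      IsPair m A B → IsPair m' A' B' → IsPair (m + m') (A * A') (B * B'))
    (Pswap : ∀ (m : ℕ) (A B : PowerSeries ℤ), IsPair m A B → IsPair m B A)
    (PL1 : ∀ (m : ℕ) (Φ : PowerSeries ℤ), IsL1 (2 * (m : ℤ)) Φ →
      IsPair m Φ ((p : ℤ) ^ m • PowerSeries.expand p hp0 Φ))
    (Ptr : ∀ (m : ℕ) (A B : PowerSeries ℤ), 1 ≤ m → IsPair m A B →
      IsL1 (2 * (m : ℤ)) ((p : ℤ) ^ (m - 1) • A + PowerSeries.mk fun n => PowerSeries.coeff (p * n) B))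
    (sturm : ∀ (k : ℕ) (A : PowerSeries ℤ), IsL1 (k : ℤ) A →
      (∀ n : ℕ, 12 * n ≤ k → (2 : ℤ) ∣ PowerSeries.coeff n A) →
      ∀ n : ℕ, (2 : ℤ) ∣ PowerSeries.coeff n A)
    (G G' : PowerSeries ℤ) (hG : IsPair 1 G (-G'))
    (hG8 : (8 : PowerSeries ℤ) ∣ G - 1) (hG'8 : (8 : PowerSeries ℤ) ∣ G' - 1) : False := by
  classical
  obtain ⟨j, hj⟩ : ∃ j, p = 8 * j + 7 := ⟨p / 8, by omega⟩
  have hp1 : p ≠ 1 := by omega
  set V := PowerSeries.expand (R := ℤ) p hp0 with hV
  set P : PowerSeries ℤ := (p : PowerSeries ℤ) with hP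
  have hPj : P = 8 * (j : PowerSeries ℤ) + 7 := by rw [hP, hj]; push_cast; ring
  have hsm : ∀ (m : ℕ) (A : PowerSeries ℤ), ((p : ℤ) ^ m • A) = P ^ m * A := by
    intro m A; rw [zsmul_eq_mul]; push_cast; rfl
  -- powers
  have Lpow : ∀ (k : ℤ) (A : PowerSeries ℤ), IsL1 k A → ∀ n : ℕ, IsL1 ((n : ℤ) * k) (A ^ n) := by
    intro k A h n
    induction n with
    | zero => simpa using L0
    | succ n ih =>
      have := Lmul _ _ _ _ ih h
      rw [pow_succ]
      convert this using 1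
      push_cast; ring
  have P0 : IsPair 0 1 1 := by
    have := PL1 0 1 (by simpa using L0)
    simpa using this
  have Ppow : ∀ (m : ℕ) (A B : PowerSeries ℤ), IsPair m A B →
      ∀ n : ℕ, IsPair (n * m) (A ^ n) (B ^ n) := by
    intro m A B h n
    induction n with
    | zero => simpa using P0
    | succ n ih =>
      have := Pmul _ _ _ _ _ _ ih h
      rw [pow_succ, pow_succ]
      convert this using 1
      ring
  -- the two instances of the ring lemma
  have h2ne : (2 : PowerSeries ℤ) ≠ 0 := by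
    intro h
    have := congrArg (PowerSeries.constantCoeff (R := ℤ)) h
    rw [map_ofNat, map_zero] at this
    norm_num at this
  obtain ⟨X1, hX1, hX1D⟩ := exists_xi h2ne E4 E6 D G hrel h4 h6 hG8
  have hrel' : (P ^ 2 * V E4) ^ 3 - (-(P ^ 3 * V E6)) ^ 2 = 1728 * (P ^ 6 * V D) := by
    have : V (E4 ^ 3 - E6 ^ 2) = V (1728 * D) := by rw [hrel]
    rw [map_sub, map_pow, map_pow, map_mul, map_ofNat] at this
    linear_combination P ^ 6 * this
  have h4' : (16 : PowerSeries ℤ) ∣ P ^ 2 * V E4 - 1 := by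
    obtain ⟨a, ha⟩ := h4
    have : V (E4 - 1) = V (16 * a) := by rw [ha]
    rw [map_sub, map_one, map_mul, map_ofNat] at this
    refine ⟨P ^ 2 * V a + (4 * (j : PowerSeries ℤ) ^ 2 + 7 * j + 3), ?_⟩
    rw [hPj] at *
    linear_combination (8 * (j : PowerSeries ℤ) + 7) ^ 2 * this
  have h6' : (8 : PowerSeries ℤ) ∣ -(P ^ 3 * V E6) - 1 := by
    obtain ⟨a, ha⟩ := h6
    have : V (E6 - 1) = V (8 * a) := by rw [ha]
    rw [map_sub, map_one, map_mul, map_ofNat] at this
    refine ⟨-(P ^ 3 * V a) - (64 * (j : PowerSeries ℤ) ^ 3 + 168 * j ^ 2 + 147 * j + 43), ?_⟩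
    rw [hPj] at *
    linear_combination (-(8 * (j : PowerSeries ℤ) + 7) ^ 3) * this
  obtain ⟨X2, hX2, hX2D⟩ := exists_xi h2ne _ _ _ G' hrel' h4' h6' hG'8
  -- the pair `(X1, X2)`
  have p4 : IsPair 2 E4 (P ^ 2 * V E4) := by
    have := PL1 2 E4 (by simpa using L4)
    rwa [hsm] at this
  have p6 : IsPair 3 E6 (P ^ 3 * V E6) := by
    have := PL1 3 E6 (by simpa using L6)
    rwa [hsm] at this
  have q1 : IsPair 4 (G ^ 4) ((-G') ^ 4) := Ppow 1 _ _ hG 4
  have q2 : IsPair 4 ((2 : ℤ) • (E4 * G ^ 2)) ((2 : ℤ) • ((P ^ 2 * V E4) * (-G') ^ 2)) :=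
    Psmul _ _ _ _ (Pmul 2 2 _ _ _ _ p4 (Ppow 1 _ _ hG 2))
  have q3 : IsPair 4 ((-8 : ℤ) • (E6 * G)) ((-8 : ℤ) • ((P ^ 3 * V E6) * (-G'))) :=
    Psmul _ _ _ _ (Pmul 3 1 _ _ _ _ p6 hG)
  have q4 : IsPair 4 ((5 : ℤ) • (E4 ^ 2)) ((5 : ℤ) • ((P ^ 2 * V E4) ^ 2)) :=
    Psmul _ _ _ _ (Ppow 2 _ _ p4 2)
  have q : IsPair 4 X1 X2 := by
    refine Pcancel 4 256 X1 X2 (by norm_num) ?_
    have := Padd _ _ _ _ _ (Padd _ _ _ _ _ (Padd _ _ _ _ _ q1 q2) q3) q4
    convert this using 1
    · rw [zsmul_eq_mul, zsmul_eq_mul, zsmul_eq_mul, zsmul_eq_mul]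
      push_cast
      linear_combination hX1
    · rw [zsmul_eq_mul, zsmul_eq_mul, zsmul_eq_mul, zsmul_eq_mul]
      push_cast
      linear_combination hX2
  -- the final trace
  set t : ℕ := 3 * p with ht
  have LΦ : IsL1 (2 * ((6 * p : ℕ) : ℤ)) (D ^ p) := by
    have := Lpow 12 D L12 p
    convert this using 1
    push_cast; ring
  have pΦ : IsPair (6 * p) (P ^ (6 * p) * V (D ^ p)) (D ^ p) := by
    have := Pswap _ _ _ (PL1 (6 * p) (D ^ p) LΦ)
    rwa [hsm] at this
  have pfin := Pmul _ _ _ _ _ _ (Ppow 4 _ _ q t) pΦ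
  have Lfin := Ptr _ _ _ (by omega) pfin
  rw [hsm] at Lfin
  set L : PowerSeries ℤ := P ^ (t * 4 + 6 * p - 1) * (X1 ^ t * (P ^ (6 * p) * V (D ^ p))) +
    PowerSeries.mk fun n => PowerSeries.coeff (p * n) (X2 ^ t * D ^ p) with hL
  have hredP : red P = 1 := by
    rw [hPj]
    simp only [map_add, map_mul, map_ofNat, map_natCast]
    have h8 : (8 : PowerSeries (ZMod 2)) = 2 * 4 := by norm_num
    have h7 : (7 : PowerSeries (ZMod 2)) = 2 * 3 + 1 := by norm_num
    rw [h8, h7, two_eq_zero]; ring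
  have hredL : red L = red D ^ t *
      (PowerSeries.expand p hp0 (red D ^ p) + U p (red D ^ p)) := by
    have e1 : red X1 = red D := red_eq_of_dvd hX1D
    have e2 : red X2 = PowerSeries.expand p hp0 (red D) := by
      rw [red_eq_of_dvd hX2D, map_mul, map_pow, hredP, one_pow, one_mul, hV]
      exact PowerSeries.map_expand p hp0 _ _
    have e3 : red (PowerSeries.mk fun n => PowerSeries.coeff (p * n) (X2 ^ t * D ^ p))
        = U p (red (X2 ^ t * D ^ p)) := map_U _ p _
    have e4 : red (V (D ^ p)) = PowerSeries.expand p hp0 (red D ^ p) := by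
      rw [hV, ← map_pow]
      exact PowerSeries.map_expand p hp0 _ _
    have a1 : red (P ^ (t * 4 + 6 * p - 1) * (X1 ^ t * (P ^ (6 * p) * V (D ^ p))))
        = red D ^ t * PowerSeries.expand p hp0 (red D ^ p) := by
      rw [map_mul, map_pow red P, hredP, one_pow, one_mul, map_mul, map_pow red X1, e1, map_mul,
        map_pow red P, hredP, one_pow, one_mul, e4]
    have a2 : red (X2 ^ t * D ^ p) = PowerSeries.expand p hp0 (red D ^ t) * red D ^ p := by
      rw [map_mul, map_pow red X2, map_pow red D, e2, map_pow]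
    rw [hL, map_add, e3, a1, a2, U_expand_mul]
    ring
  have hd0 : PowerSeries.coeff 0 (red D) = 0 := by
    rw [PowerSeries.coeff_map, hD0, map_zero]
  have hd1 : PowerSeries.coeff 1 (red D) = 1 := by
    rw [PowerSeries.coeff_map, hD1, map_one]
  obtain ⟨c1, c2⟩ := coeff_final hp0 hp1 t (red D) hd0 hd1
  have hwt : (2 * ((t * 4 + 6 * p : ℕ) : ℤ)) = ((12 * t : ℕ) : ℤ) := by
    rw [ht]; push_cast; ring
  rw [hwt] at Lfin
  have hall := sturm (12 * t) L Lfin (by
    intro n hn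
    rw [dvd_coeff_iff, hredL]
    exact c1 n (by omega)) (t + 1)
  rw [dvd_coeff_iff, hredL, c2] at hall
  exact one_ne_zero hall

end Fermat.Agent.S16lib
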