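import Fermat.Agent.S16.Weight
import Fermat.Agent.S16.CaseTwoAbs

/-!
# S16 (UP), task FO7: `l = 2`, `p ≡ 7 mod 8`, `G ≡ u mod 8` (helper17's identity, report #189)
-/

set_option autoImplicit false

namespace Fermat.Agent.S16lib

open PowerSeries

/-- **ring lemma** (helper17). -/
theorem xi_lemma {R : Type*} [CommRing R] (h2 : ∀ x : R, 2 * x = 0 → x = 0)
    {e4 e6 d g a b c : R} (h4 : e4 = 1 + 16 * a) (h6 : e6 = 1 + 8 * b) (hg : g = 1 + 8 * c)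
    (hd : 1728 * d = e4 ^ 3 - e6 ^ 2) :
    ∃ ξ y : R, 256 * ξ = g ^ 4 + 2 * e4 * g ^ 2 - 8 * e6 * g + 5 * e4 ^ 2 ∧ ξ = d + 2 * y := by
  subst h4 h6 hg
  set k : R := 27 * d - 12 * a ^ 2 + b ^ 2 - 64 * a ^ 3 with hk
  have h16 : 2 * (2 * (2 * (2 * (3 * a - b - 4 * k)))) = 0 := by
    rw [hk]; linear_combination -hd
  have hbc : 3 * a - b - 4 * k = 0 := h2 _ (h2 _ (h2 _ (h2 _ h16)))
  have hb2 : b = 3 * a - 4 * k := by linear_combination -hbc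
  refine ⟨k + 5 * a ^ 2 + 2 * (c ^ 2 + 4 * c ^ 3 + 8 * c ^ 4 + a * c + 4 * a * c ^ 2 - b * c),
    13 * d - 6 * a ^ 2 - 32 * a ^ 3 + 7 * a ^ 2 - 12 * a * k + 8 * k ^ 2
      + (c ^ 2 + 4 * c ^ 3 + 8 * c ^ 4 + a * c + 4 * a * c ^ 2 - b * c), ?_, ?_⟩
  · linear_combination (-64 : R) * hbc
  · have : k = 27 * d - 12 * a ^ 2 + (3 * a - 4 * k) ^ 2 - 64 * a ^ 3 := by
      conv_lhs => rw [hk]
      rw [← hb2]
    linear_combination this

/-- `8 ∣ p + 1`: `(Ξ, Ξ_b)` is a pair of weight 8 with `Ξ ≡ Δ`, `Ξ_b ≡ V_pΔ mod 2`;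
`t = 3p`, `Φ = Δ^p`: `TR(Ξ^t Φ_b, Ξ_b^t Φ) ≡ Δ^t (V_pΦ + U_pΦ) = q^(t+1) + ⋯ mod 2` has weight
`8t + 12p = 12 t`: contradiction with `IsL1.sturm`. -/
theorem case_two {p : ℕ} [Fact p.Prime] (hp : 8 ∣ p + 1)
    {G : PowerSeries ℤ} {u : ℤ} (hG : IsPair p 1 G (-(Up p G))) (hu : ¬ (2 : ℤ) ∣ u)
    (hc : (2 : PowerSeries ℤ) ^ 3 ∣ G - (u : PowerSeries ℤ)) : False := by
  have hp0 : p ≠ 0 := (Fact.out : p.Prime).ne_zero
  have hp8 : p % 8 = 7 := by omega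
  -- reduction to `u = 1`
  obtain ⟨w, hw⟩ : ∃ w : ℤ, u = 2 * w + 1 := by
    have : u % 2 = 1 := by omega
    exact ⟨u / 2, by omega⟩
  obtain ⟨z, hz⟩ : ∃ z : ℤ, w * (w + 1) = 2 * z := by
    have := Int.even_mul_succ_self w
    obtain ⟨z, hz⟩ := this
    exact ⟨z, by omega⟩
  obtain ⟨c, hc⟩ := hc
  have hG8 : (8 : PowerSeries ℤ) ∣ (u : PowerSeries ℤ) * G - 1 := by
    refine ⟨(u : PowerSeries ℤ) * c + (z : PowerSeries ℤ), ?_⟩
    have hz' : (w : PowerSeries ℤ) * ((w : PowerSeries ℤ) + 1) = 2 * (z : PowerSeries ℤ) := by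
      exact_mod_cast congrArg (Int.cast : ℤ → PowerSeries ℤ) hz
    have hw' : (u : PowerSeries ℤ) = 2 * (w : PowerSeries ℤ) + 1 := by
      exact_mod_cast congrArg (Int.cast : ℤ → PowerSeries ℤ) hw
    have hG' : G = (u : PowerSeries ℤ) + 8 * c := by linear_combination hc
    rw [hG', hw']
    linear_combination 4 * hz'
  have hG'8 : (8 : PowerSeries ℤ) ∣ Up p ((u : PowerSeries ℤ) * G) - 1 := by
    obtain ⟨e, he⟩ := hG8
    refine ⟨Up p e, ?_⟩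
    have h8 : Up p ((8 : PowerSeries ℤ) * e) = 8 * Up p e := by
      have := Up_intCast_mul p 8 e
      simpa using this
    rw [← h8, ← he, Up_sub, Up_one hp0]
  have hG1 : IsPair p 1 ((u : PowerSeries ℤ) * G) (-(Up p ((u : PowerSeries ℤ) * G))) := by
    have := hG.intCast_mul u
    rwa [mul_neg, ← Up_intCast_mul] at this
  refine case_two_abstract p hp0 hp8 IsL1 (IsPair p) E4z E6z Dz Dz_identity.symm
    ⟨15 * sigmaSeries 3, by rw [E4z]; ring⟩ ⟨-63 * sigmaSeries 5, by rw [E6z]; ring⟩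
    coeff_zero_Dz coeff_one_Dz isL1_one isL1_E4z isL1_E6z isL1_Dz
    (fun _ _ _ _ h h' => h.mul h') (fun _ _ _ _ _ h h' => h.add h')
    (fun _ c _ _ h => by
      rw [zsmul_eq_mul, zsmul_eq_mul]; exact h.intCast_mul c)
    (fun _ c _ _ hc h => by
      rw [zsmul_eq_mul, zsmul_eq_mul] at h; exact h.cancel hc)
    (fun _ _ _ _ _ _ h h' => h.mul h') (fun _ _ _ h => h.swap)
    (fun m Φ h => by
      rw [zsmul_eq_mul, ← Vp_eq_expand]
      have := h.pair (p := p)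
      exact_mod_cast this)
    (fun m A B hm h => by
      rw [zsmul_eq_mul]
      have := h.trace hm
      exact_mod_cast this)
    (fun k A h hA n => h.sturm_coeff 2 (fun n hn => hA n (by exact_mod_cast hn)) n)
    _ _ hG1 hG8 hG'8

end Fermat.Agent.S16lib
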