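import Fermat.Agent.S16.CaseGe5
import Fermat.Agent.S16.CaseP
import Fermat.Agent.S16.CaseQ
import Fermat.Agent.S16.CaseThree
import Fermat.Agent.S16.CaseTwo
import Fermat.Prelude.Def_ModularCurve_ModularUnit
import Fermat.Prelude.Thm_ModularForm_sturm_bound_Gamma0
import Fermat.Prelude.Thm_CuspForm_intLattice_fg

/-!
# S16 (UP), task FO8: arithmetic reduction to the cases; the interface (R) <-> (UP)
-/

set_option autoImplicit false

open CongruenceSubgroup UpperHalfPlane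

namespace Fermat.Agent.S16lib

open PowerSeries

/-- all the cases together: `G ∈ M₂(Γ₀(p))` integral, `G ≡ u mod l^s`, `l ∤ u` is impossible for
`s = 1` (`l ≥ 5`, or `l = 3`, `p ≡ 1 mod 3`), `s = 2` (`l = 3`, or `l = 2`, `p ≡ 1 mod 4`),
`s = 3` (`l = 2`). -/
theorem no_unit_congr {p l s : ℕ} [Fact p.Prime] (hp5 : 5 ≤ p) (hl : l.Prime)
    (hs : (5 ≤ l ∧ s = 1) ∨ (l = 3 ∧ p % 3 = 1 ∧ s = 1) ∨ (l = 3 ∧ s = 2) ∨
      (l = 2 ∧ p % 4 = 1 ∧ s = 2) ∨ (l = 2 ∧ s = 3))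
    {G : PowerSeries ℤ} {u : ℤ} (hG : IsPair p 1 G (-(Up p G))) (hu : ¬ (l : ℤ) ∣ u)
    (hc : (l : PowerSeries ℤ) ^ s ∣ G - (u : PowerSeries ℤ)) : False := by
  rcases hs with ⟨h5, rfl⟩ | ⟨rfl, h3, rfl⟩ | ⟨rfl, rfl⟩ | ⟨rfl, h4, rfl⟩ | ⟨rfl, rfl⟩
  · rw [pow_one] at hc
    by_cases hlp : l = p
    · subst hlp
      exact case_eq_p hp5 hG hu hc
    · exact case_ge5 hp5 hl h5 hG hu hc
  · have := case_Q (r := 1) hl (by omega) (by norm_num) hG hu hc
    omega
  · have h3 := case_Q (r := 1) hl (by omega) (by norm_num) hG hu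
      ((pow_dvd_pow _ (by norm_num)).trans hc)
    by_cases h9 : 9 ∣ p + 1
    · exact case_three_nine h9 hG (by simpa using hu) (by simpa using hc)
    · exact case_three_T2 (by simpa using h3) h9 hG (by simpa using hu) (by simpa using hc)
  · have := case_Q (r := 2) hl (by omega) (by norm_num) hG hu hc
    omega
  · have h8 := case_Q (r := 3) hl (by omega) (by norm_num) hG hu hc
    exact case_two (by simpa using h8) hG (by simpa using hu) (by simpa using hc)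

/-- `S₂(Γ₀(2)) = S₂(Γ₀(3)) = 0` (Sturm bound) -/
theorem qCoeff_eq_zero_of_le_three {p : ℕ} [Fact p.Prime] (hp : p ≤ 3)
    (f : CuspForm (Gamma0 p) 2) (n : ℕ) : ModularFormClass.qCoeff f n = 0 := by
  have hp0 : NeZero p := ⟨(Fact.out : p.Prime).ne_zero⟩
  have hidx : (Gamma0 p).index = p + 1 := PairAn.card_quot p
  have h0 : (f : ModularForm (Gamma0 p) 2) = 0 := by
    apply ModularForm.sturm_bound_Gamma0 p
    intro n hn
    rw [hidx] at hn
    have h1 : ((2 : ℤ) * ((p + 1 : ℕ) : ℤ)).toNat / 12 = 0 := by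
      have : ((2 : ℤ) * ((p + 1 : ℕ) : ℤ)).toNat = 2 * (p + 1) := by
        have : ((2 : ℤ) * ((p + 1 : ℕ) : ℤ)) = ((2 * (p + 1) : ℕ) : ℤ) := by push_cast; ring
        rw [this, Int.toNat_natCast]
      rw [this]
      omega
    have h2 : n = 0 := by omega
    subst h2
    exact CuspFormClass.qExpansion_coeff_zero f one_pos
      (P2MW.S_CuspForm_intLattice_fg.W3WsD.hΓ p)
  have h1 : (f : ℍ → ℂ) = ((f : ModularForm (Gamma0 p) 2) : ℍ → ℂ) := rfl
  rw [ModularFormClass.qCoeff, h1, h0]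
  simp [qExpansion_zero]

/-- division of a pair `G ≡ l^w u mod l^(w+s)` by `l^w` -/
theorem IsPair.descent {p l w s : ℕ} [Fact p.Prime] (hl : l ≠ 0) {G : PowerSeries ℤ} {u : ℤ}
    (hG : IsPair p 1 G (-(Up p G)))
    (hc : (l : PowerSeries ℤ) ^ (w + s) ∣ G - (((l : ℤ) ^ w * u : ℤ) : PowerSeries ℤ)) :
    ∃ G₁ : PowerSeries ℤ, IsPair p 1 G₁ (-(Up p G₁)) ∧
      (l : PowerSeries ℤ) ^ s ∣ G₁ - (u : PowerSeries ℤ) := by
  obtain ⟨H, hH⟩ := hc
  refine ⟨(u : PowerSeries ℤ) + (l : PowerSeries ℤ) ^ s * H, ?_, ⟨H, by ring⟩⟩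
  have hGe : G = (((l : ℤ) ^ w : ℤ) : PowerSeries ℤ) *
      ((u : PowerSeries ℤ) + (l : PowerSeries ℤ) ^ s * H) := by
    have : G = (((l : ℤ) ^ w * u : ℤ) : PowerSeries ℤ) + (l : PowerSeries ℤ) ^ (w + s) * H := by
      rw [← hH]; ring
    rw [this]
    push_cast
    ring
  have hU : -(Up p G) = (((l : ℤ) ^ w : ℤ) : PowerSeries ℤ) *
      (-(Up p ((u : PowerSeries ℤ) + (l : PowerSeries ℤ) ^ s * H))) := by
    rw [hGe, Up_intCast_mul]
    ring
  rw [hU] at hG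
  nth_rewrite 1 [hGe] at hG
  exact hG.cancel (pow_ne_zero _ (by exact_mod_cast hl))

/-- arithmetic of the numerator of `(p - 1) / 12` -/
theorem pow_dvd_eisensteinNumerator {p l e v c : ℕ} (hl : l.Prime) (h12 : 12 = l ^ v * c)
    (hc : ¬ l ∣ c) (h : l ^ (e + v) ∣ p - 1) : l ^ e ∣ ModularCurve.eisensteinNumerator p := by
  have hd : Nat.gcd (p - 1) 12 ∣ l ^ v * c := h12 ▸ Nat.gcd_dvd_right _ _
  have hn : ModularCurve.eisensteinNumerator p * Nat.gcd (p - 1) 12 = p - 1 :=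
    Nat.div_mul_cancel (Nat.gcd_dvd_left _ _)
  have h1 : l ^ (e + v) ∣ ModularCurve.eisensteinNumerator p * (l ^ v * c) :=
    h.trans (hn ▸ Nat.mul_dvd_mul_left _ hd)
  have h2 : l ^ e * l ^ v ∣ (ModularCurve.eisensteinNumerator p * c) * l ^ v := by
    rw [← pow_add]
    convert h1 using 1
    ring
  have h3 : l ^ e ∣ ModularCurve.eisensteinNumerator p * c :=
    Nat.dvd_of_mul_dvd_mul_right (pow_pos hl.pos v) h2
  exact (Nat.Coprime.pow_left e ((Nat.Prime.coprime_iff_not_dvd hl).2 hc)).dvd_of_dvd_mul_right h3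

/-- the prime power case, `p ≥ 5` -/
theorem prime_pow_dvd_eisensteinNumerator {p : ℕ} [Fact p.Prime] (hp5 : 5 ≤ p) {l e : ℕ}
    (hl : l.Prime) {G : PowerSeries ℤ} (hG : IsPair p 1 G (-(Up p G)))
    (hc : ((24 * l ^ e : ℕ) : PowerSeries ℤ) ∣ G - (((p - 1 : ℕ) : ℤ) : PowerSeries ℤ)) :
    l ^ e ∣ ModularCurve.eisensteinNumerator p := by
  rcases Nat.eq_zero_or_pos e with rfl | he
  · simp
  have hpp : p.Prime := Fact.out
  -- `v = v_l(12)`, `b = v_l(24)`
  obtain ⟨v, c, b, h12, hcl, h24, hv⟩ : ∃ v c b : ℕ, 12 = l ^ v * c ∧ ¬ l ∣ c ∧ l ^ b ∣ 24 ∧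
      ((5 ≤ l ∧ v = 0 ∧ b = 0) ∨ (l = 3 ∧ v = 1 ∧ b = 1) ∨ (l = 2 ∧ v = 2 ∧ b = 3)) := by
    rcases Nat.lt_or_ge l 5 with h5 | h5
    · have : l = 2 ∨ l = 3 := by
        interval_cases l
        · exact absurd hl (by norm_num)
        · exact absurd hl (by norm_num)
        · exact Or.inl rfl
        · exact Or.inr rfl
        · exact absurd hl (by norm_num)
      rcases this with rfl | rfl
      · exact ⟨2, 3, 3, by norm_num, by norm_num, by norm_num, by simp⟩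
      · exact ⟨1, 4, 1, by norm_num, by norm_num, by norm_num, by simp⟩
    · refine ⟨0, 12, 0, by simp, ?_, by simp, Or.inl ⟨h5, rfl, rfl⟩⟩
      intro h
      have h2 : l ∣ 2 ^ 2 * 3 := by simpa using h
      rcases (Nat.Prime.dvd_mul hl).1 h2 with h | h
      · have := (Nat.prime_dvd_prime_iff_eq hl Nat.prime_two).1 (hl.dvd_of_dvd_pow h)
        omega
      · have := (Nat.prime_dvd_prime_iff_eq hl Nat.prime_three).1 h
        omega
  refine pow_dvd_eisensteinNumerator hl h12 hcl ?_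
  by_contra hnd
  obtain ⟨w, u, hu, hpu⟩ := Nat.exists_eq_pow_mul_and_not_dvd (n := p - 1) (by omega) l hl.ne_one
  have hw : w < e + v := by
    by_contra h
    exact hnd (hpu ▸ Dvd.dvd.mul_right (pow_dvd_pow _ (by omega)) _)
  -- choice of `s`
  obtain ⟨s, hs, hws⟩ : ∃ s, ((5 ≤ l ∧ s = 1) ∨ (l = 3 ∧ p % 3 = 1 ∧ s = 1) ∨ (l = 3 ∧ s = 2) ∨
      (l = 2 ∧ p % 4 = 1 ∧ s = 2) ∨ (l = 2 ∧ s = 3)) ∧ w + s ≤ b + e := by
    rcases hv with ⟨h5, rfl, rfl⟩ | ⟨rfl, rfl, rfl⟩ | ⟨rfl, rfl, rfl⟩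
    · exact ⟨1, Or.inl ⟨h5, rfl⟩, by omega⟩
    · by_cases h3 : p % 3 = 1
      · exact ⟨1, Or.inr (Or.inl ⟨rfl, h3, rfl⟩), by omega⟩
      · refine ⟨2, Or.inr (Or.inr (Or.inl ⟨rfl, rfl⟩)), ?_⟩
        have hw0 : w = 0 := by
          by_contra hw0
          have : 3 ∣ p - 1 := hpu ▸ Dvd.dvd.mul_right (dvd_pow_self _ hw0) _
          omega
        omega
    · by_cases h4 : p % 4 = 1
      · exact ⟨2, Or.inr (Or.inr (Or.inr (Or.inl ⟨rfl, h4, rfl⟩))), by omega⟩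
      · refine ⟨3, Or.inr (Or.inr (Or.inr (Or.inr ⟨rfl, rfl⟩))), ?_⟩
        have hw1 : w ≤ 1 := by
          by_contra hw1
          have : 2 ^ 2 ∣ p - 1 := hpu ▸ Dvd.dvd.mul_right (pow_dvd_pow _ (by omega)) _
          omega
        omega
  have hdvd : (l : PowerSeries ℤ) ^ (w + s) ∣ G - (((l : ℤ) ^ w * (u : ℤ) : ℤ) : PowerSeries ℤ) := by
    have h1 : l ^ (w + s) ∣ 24 * l ^ e :=
      (pow_dvd_pow _ hws).trans (by rw [pow_add]; exact Nat.mul_dvd_mul_right h24 _)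
    have h2 : (l : PowerSeries ℤ) ^ (w + s) ∣ ((24 * l ^ e : ℕ) : PowerSeries ℤ) := by
      obtain ⟨d, hd⟩ := h1
      exact ⟨(d : PowerSeries ℤ), by rw [hd]; push_cast; ring⟩
    have h3 : (((l : ℤ) ^ w * (u : ℤ) : ℤ) : PowerSeries ℤ) = (((p - 1 : ℕ) : ℤ) : PowerSeries ℤ) := by
      rw [hpu]; push_cast; ring
    rw [h3]
    exact h2.trans hc
  obtain ⟨G₁, hG₁, hc₁⟩ := hG.descent hl.ne_zero hdvd
  exact no_unit_congr hp5 hl hs hG₁ (by exact_mod_cast hu) hc₁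

/-- **(UP)**: interface with the formal reduction (R). -/
theorem dvd_eisensteinNumerator_of_congr (p : ℕ) [Fact p.Prime] (M : ℕ)
    (f : CuspForm (Gamma0 p) 2) (a : ℕ → ℤ)
    (ha : ∀ n, ModularFormClass.qCoeff f n = (a n : ℂ))
    (hc : ∀ n, 1 ≤ n → (M : ℤ) ∣ a n - (sigmaP p n : ℤ)) :
    M ∣ ModularCurve.eisensteinNumerator p := by
  have hpp : p.Prime := Fact.out
  rcases Nat.lt_or_ge p 5 with h5 | h5
  · -- `p = 2, 3`: there are no cusp forms
    have hp3 : p ≤ 3 := by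
      interval_cases p
      · omega
      · omega
      · omega
      · omega
      · exact absurd hpp (by norm_num)
    have h1 : a 1 = 0 := by
      have := ha 1
      rw [qCoeff_eq_zero_of_le_three hp3] at this
      exact_mod_cast this.symm
    have h2 := hc 1 le_rfl
    have hs : sigmaP p 1 = 1 := by
      simp [sigmaP, Finset.filter_singleton, hpp.one_lt.ne']
    rw [h1, hs] at h2
    have h3 : (M : ℤ) ∣ 1 := by simpa using h2
    have h4 : M ∣ 1 := by exact_mod_cast h3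
    exact h4.trans (one_dvd _)
  · set A : PowerSeries ℤ := PowerSeries.mk a with hA
    have hpA : IsPair p 1 A (-(Up p A)) := isPair_of_cuspForm f A (fun n => by
      rw [ha n, hA, coeff_mk])
    have hpG := (isPair_eisP (p := p)).sub (hpA.intCast_mul 24)
    have hsnd := hpG.snd_eq
    rw [hsnd] at hpG
    have ha0 : a 0 = 0 := by
      have h0 : ModularFormClass.qCoeff f 0 = 0 :=
        CuspFormClass.qExpansion_coeff_zero f one_pos (P2MW.S_CuspForm_intLattice_fg.W3WsD.hΓ p)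
      have := ha 0
      rw [h0] at this
      exact_mod_cast this.symm
    rw [Nat.dvd_iff_prime_pow_dvd_dvd]
    intro l e hl hle
    refine prime_pow_dvd_eisensteinNumerator h5 hl hpG ?_
    rw [natCast_dvd_iff]
    intro n
    rw [map_sub, map_sub, coeff_intCast_mul, hA, coeff_mk, eisP, coeff_mk, intCast_eq_C_int, coeff_C]
    rcases Nat.eq_zero_or_pos n with rfl | hn
    · simp only [if_true, ha0]
      have : ((p - 1 : ℕ) : ℤ) = (p : ℤ) - 1 := by
        rw [Nat.cast_sub (by omega)]; simp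
      rw [this]
      simp
    · rw [if_neg (by omega), if_neg (by omega), sub_zero]
      have h1 : ((l ^ e : ℕ) : ℤ) ∣ a n - (sigmaP p n : ℤ) :=
        (Int.natCast_dvd_natCast.2 hle).trans (hc n hn)
      obtain ⟨d, hd⟩ := h1
      exact ⟨-d, by push_cast at hd ⊢; linear_combination (-24 : ℤ) * hd⟩

end Fermat.Agent.S16lib
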