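import Fermat.Agent.S16.Reduction
import Fermat.Agent.S16.ShimuraMain
import Fermat.Agent.S16.UpMain

/-!
# S16: final assembly  (R) + (LOW) + (UP)

`Fermat/Agent/S16.lean` is `Fermat.Agent.S16lib.main_result p`.
-/

set_option autoImplicit false
open CuspForm

namespace Fermat.Agent.S16lib

theorem main_result (p : ℕ) [Fact p.Prime] :
    Nat.card (↥(heckeLatticeAlgebra p ∅) ⧸
        Ideal.map ((latticeRestrictHom p ∅).toRingHom.comp (heckeEvalForms p 2))
          (ModularCurve.eisensteinIdeal p)) =
      ModularCurve.eisensteinNumerator p :=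
  reduction p (eisenstein_dvd p)
    (fun l e _ f a ha hc => dvd_eisensteinNumerator_of_congr p (l ^ e) f a ha hc)

end Fermat.Agent.S16lib
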