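import Fermat.Agent.S16.Weight

set_option autoImplicit false

namespace Fermat.Agent.S16lib

open PowerSeries

theorem sigmaP_two_h19 {p : ℕ} (hp5 : 5 ≤ p) : sigmaP p 2 = 3 := by
  have h1 : ¬ p ∣ 1 := fun h => by have := Nat.le_of_dvd one_pos h; omega
  have h2 : ¬ p ∣ 2 := fun h => by have := Nat.le_of_dvd two_pos h; omega
  rw [sigmaP, Nat.Prime.divisors Nat.prime_two, Finset.filter_true_of_mem]
  · simp
  · intro d hd
    simp only [Finset.mem_insert, Finset.mem_singleton] at hd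
    rcases hd with rfl | rfl <;> assumption

theorem sigmaP_one_h19 {p : ℕ} (hp5 : 5 ≤ p) : sigmaP p 1 = 1 := by
  have h1 : ¬ p ∣ 1 := fun h => by have := Nat.le_of_dvd one_pos h; omega
  simp [sigmaP, Finset.filter_singleton, h1]

theorem dvd_succ_of_congr_h19 {p l : ℕ} [Fact p.Prime] (hp5 : 5 ≤ p) (hl : l.Prime) (hl5 : 5 ≤ l)
    {G : PowerSeries ℤ} {u : ℤ} (hG : IsPair p 1 G (-(Up p G))) (hu : ¬ (l : ℤ) ∣ u)
    (hc : (l : PowerSeries ℤ) ∣ G - (u : PowerSeries ℤ)) : l ∣ p + 1 := by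
  have hp : p.Prime := Fact.out
  have hE : IsPair p 1 (eisP p) (-(eisP p)) := isPair_eisP
  have hUE : Up p (eisP p) = eisP p := by
    have := hE.snd_eq
    exact (neg_injective this).symm
  obtain ⟨g, hg⟩ := hc
  have hG' : G = (u : PowerSeries ℤ) + (l : PowerSeries ℤ) * g := by rw [← hg]; ring
  have hUG : Up p G = (u : PowerSeries ℤ) + (l : PowerSeries ℤ) * Up p g := by
    rw [hG', Up_add, Up_intCast hp.ne_zero, Up_natCast_mul]
  have htr := ((hG.mul hE).trace (by omega)).congr_weight (l := 4) (by norm_num)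
  set Y := (p : PowerSeries ℤ) ^ (1 + 1 - 1) * (G * eisP p) + Up p (-(Up p G) * -(eisP p)) with hY
  have hYeq : Y = ((u * ((p : ℤ) + 1) : ℤ) : PowerSeries ℤ) * eisP p +
      ((l : ℤ) : PowerSeries ℤ) * ((p : PowerSeries ℤ) * (g * eisP p) + Up p (Up p g * eisP p)) := by
    have h1 : -(Up p G) * -(eisP p) =
        (u : PowerSeries ℤ) * eisP p + (l : PowerSeries ℤ) * (Up p g * eisP p) := by
      rw [hUG]; ring
    rw [hY, h1, Up_add, Up_intCast_mul, Up_natCast_mul, hUE, hG']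
    push_cast
    ring
  have h4 := htr.eq_of_four
  set Z := (p : PowerSeries ℤ) * (g * eisP p) + Up p (Up p g * eisP p) with hZ
  have c1 : coeff 1 Y = u * ((p : ℤ) + 1) * 24 + l * coeff 1 Z := by
    rw [hYeq, map_add, coeff_intCast_mul, coeff_intCast_mul, eisP, coeff_mk, if_neg one_ne_zero,
      sigmaP_one_h19 hp5]
    push_cast; ring
  have c2 : coeff 2 Y = u * ((p : ℤ) + 1) * 72 + l * coeff 2 Z := by
    rw [hYeq, map_add, coeff_intCast_mul, coeff_intCast_mul, eisP, coeff_mk, if_neg two_ne_zero,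
      sigmaP_two_h19 hp5]
    push_cast; ring
  have d1 : coeff 1 Y = coeff 0 Y * 240 := by
    conv_lhs => rw [h4]
    rw [coeff_intCast_mul, coeff_E4z, if_neg one_ne_zero]
    simp
  have d2 : coeff 2 Y = coeff 0 Y * 2160 := by
    conv_lhs => rw [h4]
    rw [coeff_intCast_mul, coeff_E4z, if_neg two_ne_zero]
    have : ArithmeticFunction.sigma 3 2 = 9 := by
      rw [ArithmeticFunction.sigma_apply, Nat.Prime.divisors Nat.prime_two]
      simp
    rw [this]
    push_cast; ring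
  have hfin : (l : ℤ) ∣ 144 * (u * ((p : ℤ) + 1)) :=
    ⟨coeff 2 Z - 9 * coeff 1 Z, by linear_combination c2 - 9 * c1 - d2 + 9 * d1⟩
  have hlZ := Nat.prime_iff_prime_int.1 hl
  rcases hlZ.dvd_or_dvd hfin with h | h
  · exfalso
    have h' : l ∣ 2 ^ 4 * 3 ^ 2 := by
      have : (l : ℤ) ∣ ((2 ^ 4 * 3 ^ 2 : ℕ) : ℤ) := by simpa using h
      exact_mod_cast this
    rcases (Nat.Prime.dvd_mul hl).1 h' with h2 | h2
    · have := Nat.le_of_dvd (by norm_num) (hl.dvd_of_dvd_pow h2)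
      omega
    · have := Nat.le_of_dvd (by norm_num) (hl.dvd_of_dvd_pow h2)
      omega
  · rcases hlZ.dvd_or_dvd h with h | h
    · exact absurd h hu
    · exact_mod_cast h

end Fermat.Agent.S16lib
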