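import Fermat.Agent.S16.CaseSucc
import Fermat.Agent.S16.CaseStarB

/-!
# S16 (UP), task FO3: the case `l ≥ 5`, `l ≠ p`
-/

set_option autoImplicit false

namespace Fermat.Agent.S16lib

open PowerSeries

/-- `l ≥ 5`: no `G ∈ M₂(Γ₀(p))` with `G ≡ u mod l`, `l ∤ u`.
Proof: the trace of `G · eisP` shows `l ∣ p + 1` (`dvd_succ_of_congr_h19`), and then
`case_ge5_succ` (weight lemma) applies. -/
theorem case_ge5 {p l : ℕ} [Fact p.Prime] (hp5 : 5 ≤ p) (hl : l.Prime) (hl5 : 5 ≤ l)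
    {G : PowerSeries ℤ} {u : ℤ} (hG : IsPair p 1 G (-(Up p G))) (hu : ¬ (l : ℤ) ∣ u)
    (hc : (l : PowerSeries ℤ) ∣ G - (u : PowerSeries ℤ)) : False :=
  case_ge5_succ hl hl5 (dvd_succ_of_congr_h19 hp5 hl hl5 hG hu hc) hG hu hc

end Fermat.Agent.S16lib
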