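import Fermat.Agent.S16.CaseThreeNine

/-!
# S16 (UP): `l` odd, `l ^ r ∣ p + 1`, `G ≡ u mod l ^ r`
(generalisation of `case_three_nine_aux`)
-/

set_option autoImplicit false

namespace Fermat.Agent.S16lib

open PowerSeries

/-- `l^r ∣ p + 1`: `Φ = Δ^p`, `A₁ = TR(G Φ_b, -U_pG Φ)`, `B₁ = T_p Φ`, `A₁ + u B₁ ≡ 0 mod l^r`,
`weight_lemma` gives `l^r ∣ 4^(6p+1) - 4^(6p)`. -/
theorem case_succ {p l r : ℕ} [Fact p.Prime] (hl : l.Prime) (hl2 : l ≠ 2) (hr : r ≠ 0)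
    (hp : l ^ r ∣ p + 1)
    {G : PowerSeries ℤ} {u : ℤ} (hG : IsPair p 1 G (-(Up p G))) (hu : ¬ (l : ℤ) ∣ u)
    (hc : (l : PowerSeries ℤ) ^ r ∣ G - (u : PowerSeries ℤ)) :
    (l : ℤ) ^ r ∣ 3 * 4 ^ (6 * p) := by
  have hp2 : 2 ≤ p := (Fact.out : p.Prime).two_le
  obtain ⟨k, hk⟩ := hp
  obtain ⟨g, hg⟩ := hc
  have hG' : G = (u : PowerSeries ℤ) + (l : PowerSeries ℤ) ^ r * g := by rw [← hg]; ring
  have hp0 : p ≠ 0 := by omega
  have h9 : ∀ A : PowerSeries ℤ, Up p ((l : PowerSeries ℤ) ^ r * A) =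
      (l : PowerSeries ℤ) ^ r * Up p A := fun A => Up_natCast_pow_mul (R := ℤ) p l r A
  have hUG : Up p G = (u : PowerSeries ℤ) + (l : PowerSeries ℤ) ^ r * Up p g := by
    rw [hG', Up_add, Up_intCast hp0, h9]
  set Φ : PowerSeries ℤ := Dz ^ p with hΦdef
  have hΦ : IsL1 (2 * ((6 * p : ℕ) : ℤ)) Φ :=
    (isL1_Dz.pow p).congr_weight (by push_cast; ring)
  have hpair := hΦ.pair' (p := p)
  have htr := (hG.mul hpair).trace (by omega)
  have hB := hΦ.hecke p (by omega)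
  have hB' := hB.intCast_mul (-u)
  set V := Vp p Φ with hV
  -- the congruence
  have hUp : Up p (-(Up p G) * Φ) =
      -((u : PowerSeries ℤ) * Up p Φ) - (l : PowerSeries ℤ) ^ r * Up p (Up p g * Φ) := by
    have h2 := Up_intCast_mul (R := ℤ) p u Φ
    rw [hUG, show -((u : PowerSeries ℤ) + (l : PowerSeries ℤ) ^ r * Up p g) * Φ =
      -((u : PowerSeries ℤ) * Φ) - (l : PowerSeries ℤ) ^ r * (Up p g * Φ) by ring, Up_sub, Up_neg,
      h9, h2]
  have hpk : (p : PowerSeries ℤ) + 1 = (l : PowerSeries ℤ) ^ r * (k : PowerSeries ℤ) := by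
    have := congrArg (fun n : ℕ => (n : PowerSeries ℤ)) hk
    push_cast at this
    exact this
  have hcong : (l : PowerSeries ℤ) ^ r ∣
      ((p : PowerSeries ℤ) ^ (1 + 6 * p - 1) * (G * ((p : PowerSeries ℤ) ^ (6 * p) * V)) +
        Up p (-(Up p G) * Φ)) -
      (((-u : ℤ) : PowerSeries ℤ) * ((p : PowerSeries ℤ) ^ (2 * (6 * p) - 1) * V + Up p Φ)) := by
    refine ⟨(p : PowerSeries ℤ) ^ (6 * p) * (g * ((p : PowerSeries ℤ) ^ (6 * p) * V)) -
      Up p (Up p g * Φ) + (u : PowerSeries ℤ) * (p : PowerSeries ℤ) ^ (2 * (6 * p) - 1) * V *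
        (k : PowerSeries ℤ), ?_⟩
    have e1 : 1 + 6 * p - 1 = 6 * p := by omega
    have e2 : (p : PowerSeries ℤ) ^ (6 * p) * (p : PowerSeries ℤ) ^ (6 * p) =
        (p : PowerSeries ℤ) ^ (2 * (6 * p) - 1) * p := by
      rw [← pow_add, ← pow_succ]
      congr 1
      omega
    rw [hUp, e1, hG']
    push_cast
    linear_combination ((u : PowerSeries ℤ) * V) * e2 +
      ((u : PowerSeries ℤ) * (p : PowerSeries ℤ) ^ (2 * (6 * p) - 1) * V) * hpk
  -- non-vanishing mod l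
  have hcoeff : coeff 1 (((-u : ℤ) : PowerSeries ℤ) *
      ((p : PowerSeries ℤ) ^ (2 * (6 * p) - 1) * V + Up p Φ)) = -u := by
    have h1 : coeff 1 ((p : PowerSeries ℤ) ^ (2 * (6 * p) - 1) * V) = 0 := by
      have : (p : PowerSeries ℤ) ^ (2 * (6 * p) - 1) =
          (((p : ℤ) ^ (2 * (6 * p) - 1) : ℤ) : PowerSeries ℤ) := by push_cast; rfl
      rw [this, coeff_intCast_mul, hV, coeff_Vp, if_neg (by
        intro h
        have := Nat.le_of_dvd one_pos h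
        omega), mul_zero]
    rw [coeff_intCast_mul, map_add, h1, coeff_Up, mul_one, hΦdef, coeff_Dz_pow_self]
    ring
  have hne : ¬ (l : PowerSeries ℤ) ∣
      ((p : PowerSeries ℤ) ^ (1 + 6 * p - 1) * (G * ((p : PowerSeries ℤ) ^ (6 * p) * V)) +
        Up p (-(Up p G) * Φ)) := by
    intro h
    have h3 : (l : PowerSeries ℤ) ∣ (((-u : ℤ) : PowerSeries ℤ) *
      ((p : PowerSeries ℤ) ^ (2 * (6 * p) - 1) * V + Up p Φ)) :=
      (dvd_sub_right h).1 ((dvd_pow_self _ hr).trans hcong)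
    have := natCast_dvd_iff.1 h3 1
    rw [hcoeff] at this
    exact hu (by simpa using this)
  have hfin := weight_lemma_wt (l := l) (r := r) hl hl2 htr hB' hcong hne
  have e3 : (4 : ℤ) ^ (1 + 6 * p) - 4 ^ (6 * p) = 3 * 4 ^ (6 * p) := by
    rw [pow_add]; ring
  rwa [e3] at hfin

/-- `l ≥ 5`, `l ∣ p + 1`. -/
theorem case_ge5_succ {p l : ℕ} [Fact p.Prime] (hl : l.Prime) (hl5 : 5 ≤ l) (hp : l ∣ p + 1)
    {G : PowerSeries ℤ} {u : ℤ} (hG : IsPair p 1 G (-(Up p G))) (hu : ¬ (l : ℤ) ∣ u)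
    (hc : (l : PowerSeries ℤ) ∣ G - (u : PowerSeries ℤ)) : False := by
  have h := case_succ (r := 1) hl (by omega) one_ne_zero (by simpa using hp) hG hu
    (by simpa using hc)
  rw [pow_one] at h
  have h1 : l ∣ 3 * 4 ^ (6 * p) := by exact_mod_cast h
  rcases (Nat.Prime.dvd_mul hl).1 h1 with h2 | h2
  · have := Nat.le_of_dvd (by norm_num) h2
    omega
  · have := Nat.le_of_dvd (by norm_num) (hl.dvd_of_dvd_pow h2)
    omega

end Fermat.Agent.S16lib
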