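import Fermat.Agent.S16.Pair
import Fermat.Prelude.Thm_UpperHalfPlane_qCoeff_heckeU
import Fermat.Prelude.Thm_ModularForm_periodic_heckeU_comp_ofComplex
import Fermat.Prelude.Thm_ModularForm_mdifferentiable_heckeU
import Fermat.Prelude.Thm_ModularForm_isBoundedAtImInfty_heckeU

/-!
# S16 (UP), task AN1: calculus of `HasQ`
-/

set_option autoImplicit false

open UpperHalfPlane ModularForm MatrixGroups CongruenceSubgroup
open scoped Manifold

namespace Fermat.Agent.S16lib

open Fermat.Agent.S20lib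

variable {a b : ℍ → ℂ} {A B : PowerSeries ℂ}

local notation "𝕢" => Function.Periodic.qParam

/-- the series converges on the whole open unit disc -/
theorem HasQ.summable_of_norm_lt (h : HasQ a A) {q : ℂ} (hq : ‖q‖ < 1) :
    Summable (fun m : ℕ => PowerSeries.coeff m A • q ^ m) := by
  rcases eq_or_ne q 0 with rfl | hq0
  · apply summable_of_ne_finset_zero (s := {0})
    intro m hm
    have : m ≠ 0 := by simpa using hm
    simp [this]
  · have h1 := Function.Periodic.im_invQParam_pos_of_norm_lt_one one_pos hq hq0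
    have := (h ⟨Function.Periodic.invQParam 1 q, h1⟩).summable
    simpa [Function.Periodic.qParam_right_inv one_ne_zero hq0] using this

/-- the sum of the series, as a function on `ℂ` -/
noncomputable def qSum (A : PowerSeries ℂ) (q : ℂ) : ℂ := ∑' m : ℕ, PowerSeries.coeff m A • q ^ m

theorem HasQ.eq_qSum (h : HasQ a A) (τ : ℍ) : a τ = qSum A (𝕢 1 τ) :=
  (h τ).tsum_eq.symm

theorem HasQ.hasFPowerSeriesOnBall (h : HasQ a A) :
    HasFPowerSeriesOnBall (qSum A) (.ofScalars ℂ fun m => PowerSeries.coeff m A) 0 1 := by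
  constructor
  · refine le_of_forall_lt_imp_le_of_dense fun r hr ↦ ?_
    lift r to NNReal using hr.ne_top
    apply FormalMultilinearSeries.le_radius_of_summable
    have := (h.summable_of_norm_lt (q := (r : ℂ)) (by simpa using hr)).norm
    simpa [smul_eq_mul, norm_mul, mul_comm, mul_left_comm, mul_assoc] using this
  · simp
  · intro y hy
    rw [← ENNReal.coe_one, Metric.eball_coe, NNReal.coe_one, mem_ball_zero_iff] at hy
    simpa [mul_comm, qSum] using (h.summable_of_norm_lt hy).hasSum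

theorem qSum_zero (A : PowerSeries ℂ) : qSum A 0 = PowerSeries.coeff 0 A := by
  rw [qSum, tsum_eq_single 0]
  · simp
  · intro m hm
    simp [hm]

theorem HasQ.mdiff (h : HasQ a A) : MDiff a := by
  rw [UpperHalfPlane.mdifferentiable_iff]
  have h1 : DifferentiableOn ℂ (qSum A) (Metric.ball 0 1) := by
    have := h.hasFPowerSeriesOnBall.differentiableOn
    simpa [← ENNReal.coe_one, Metric.eball_coe] using this
  have h2 : DifferentiableOn ℂ (qSum A ∘ 𝕢 1) {z : ℂ | 0 < z.im} := by
    apply h1.comp Function.Periodic.differentiable_qParam.differentiableOn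
    intro z hz
    simpa using Function.Periodic.norm_qParam_lt_one one_pos hz
  refine h2.congr fun z hz => ?_
  simp only [Function.comp_apply]
  rw [h.eq_qSum, ofComplex_apply_of_im_pos hz]

theorem HasQ.periodic (h : HasQ a A) (τ : ℍ) : a ((1 : ℝ) +ᵥ τ) = a τ := by
  rw [h.eq_qSum, h.eq_qSum]
  congr 1
  rw [UpperHalfPlane.coe_vadd]
  simp only [Function.Periodic.qParam, Complex.ofReal_one, div_one]
  rw [mul_add, mul_one, Complex.exp_add, Complex.exp_two_pi_mul_I, one_mul]

theorem periodic_comp_ofComplex_of_vadd (h2 : ∀ τ : ℍ, a ((1 : ℝ) +ᵥ τ) = a τ) :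
    Function.Periodic (a ∘ ofComplex) 1 := by
  intro w
  by_cases! hw : 0 < w.im
  · have : 0 < (w + 1).im := by simp [hw]
    simp only [Function.comp_apply, ofComplex_apply_of_im_pos this, ofComplex_apply_of_im_pos hw]
    rw [← h2 ⟨w, hw⟩]
    congr 1
    ext
    simp [add_comm]
  · have : (w + 1).im ≤ 0 := by simpa using hw
    simp [ofComplex_apply_of_im_nonpos this, ofComplex_apply_of_im_nonpos hw]

theorem vadd_of_periodic_comp_ofComplex (h2 : Function.Periodic (a ∘ ofComplex) 1) (τ : ℍ) :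
    a ((1 : ℝ) +ᵥ τ) = a τ := by
  have := h2 (τ : ℂ)
  simp only [Function.comp_apply, ofComplex_apply] at this
  rw [← this]
  congr 1
  have h3 : 0 < ((τ : ℂ) + 1).im := by simpa using τ.im_pos
  rw [ofComplex_apply_of_im_pos h3]
  ext
  simp [add_comm]

theorem HasQ.periodic' (h : HasQ a A) : Function.Periodic (a ∘ ofComplex) 1 :=
  periodic_comp_ofComplex_of_vadd h.periodic

theorem HasQ.bdd (h : HasQ a A) : IsBoundedAtImInfty a :=
  isBoundedAtImInfty_of_hasSum_qExpansion one_pos h

theorem HasQ.tendsto (h : HasQ a A) :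
    Filter.Tendsto a atImInfty (nhds (PowerSeries.coeff 0 A)) := by
  have h1 : ContinuousAt (qSum A) 0 := h.hasFPowerSeriesOnBall.hasFPowerSeriesAt.continuousAt
  have h2 := h1.tendsto.comp (qParam_tendsto_atImInfty one_pos)
  rw [qSum_zero] at h2
  refine h2.congr fun τ => ?_
  simp only [Function.comp_apply]
  rw [h.eq_qSum]

theorem HasQ.isZeroAtImInfty (h : HasQ a A) (h0 : PowerSeries.coeff 0 A = 0) :
    IsZeroAtImInfty a := by
  have := h.tendsto
  rw [h0] at this
  exact this

theorem hasQ_qExpansion' (h1 : MDiff a) (h2 : Function.Periodic (a ∘ ofComplex) 1)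
    (h3 : IsBoundedAtImInfty a) : HasQ a (qExpansion 1 a) :=
  fun τ => hasSum_qExpansion one_pos h2 h1 h3 τ

/-- a holomorphic, 1-periodic function, bounded at `i∞`, has a `q`-expansion -/
theorem hasQ_qExpansion (h1 : MDiff a) (h2 : ∀ τ : ℍ, a ((1 : ℝ) +ᵥ τ) = a τ)
    (h3 : IsBoundedAtImInfty a) : HasQ a (qExpansion 1 a) :=
  hasQ_qExpansion' h1 (periodic_comp_ofComplex_of_vadd h2) h3

theorem HasQ.eq_qExpansion (h : HasQ a A) : A = qExpansion 1 a := by
  ext m
  let _ : FunLike (ℍ → ℂ) ℍ ℂ := ⟨id, fun _ _ h => h⟩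
  exact qExpansion_coeff_unique (F := ℍ → ℂ) a one_pos
    (analyticAt_cuspFunction_zero one_pos h.periodic' h.mdiff h.bdd) h m

theorem HasQ.unique (h : HasQ a A) (h' : HasQ a B) : A = B := by
  rw [h.eq_qExpansion, h'.eq_qExpansion]

theorem HasQ.congr {a' : ℍ → ℂ} (h : HasQ a A) (h' : ∀ τ, a' τ = a τ) : HasQ a' A := by
  have : a' = a := funext h'
  rwa [this]

theorem hasQ_zero : HasQ 0 0 := by
  intro τ
  simp

theorem hasQ_const (c : ℂ) : HasQ (fun _ => c) (PowerSeries.C c) := by
  intro τ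
  have := hasSum_single (f := fun m : ℕ => PowerSeries.coeff m (PowerSeries.C c) • 𝕢 1 τ ^ m) 0
    (fun m hm => by simp [PowerSeries.coeff_C, hm])
  simpa using this

theorem HasQ.add (h : HasQ a A) (h' : HasQ b B) : HasQ (a + b) (A + B) := by
  intro τ
  simpa [add_mul] using (h τ).add (h' τ)

theorem HasQ.neg (h : HasQ a A) : HasQ (-a) (-A) := by
  intro τ
  simpa using (h τ).neg

theorem HasQ.sub (h : HasQ a A) (h' : HasQ b B) : HasQ (a - b) (A - B) := by
  intro τ
  simpa [sub_mul] using (h τ).sub (h' τ)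

theorem HasQ.smul (c : ℂ) (h : HasQ a A) : HasQ (c • a) (PowerSeries.C c * A) := by
  intro τ
  simpa [mul_assoc] using (h τ).mul_left c

theorem HasQ.mul (h : HasQ a A) (h' : HasQ b B) : HasQ (a * b) (A * B) := by
  intro τ
  have h1 := (h τ).summable.norm
  have h2 := (h' τ).summable.norm
  have h3 := summable_norm_sum_mul_antidiagonal_of_summable_norm h1 h2
  have h4 := tsum_mul_tsum_eq_tsum_sum_antidiagonal_of_summable_norm h1 h2
  rw [(h τ).tsum_eq, (h' τ).tsum_eq] at h4
  have h5 : HasSum (fun n : ℕ => ∑ kl ∈ Finset.HasAntidiagonal.antidiagonal n,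
      (PowerSeries.coeff kl.1 A • 𝕢 1 τ ^ kl.1) * (PowerSeries.coeff kl.2 B • 𝕢 1 τ ^ kl.2))
      (a τ * b τ) := by
    rw [h4]
    exact h3.of_norm.hasSum
  rw [Pi.mul_apply]
  convert h5 using 2 with n
  rw [PowerSeries.coeff_mul, Finset.sum_smul]
  refine Finset.sum_congr rfl fun kl hkl => ?_
  rw [Finset.HasAntidiagonal.mem_antidiagonal] at hkl
  rw [← hkl, pow_add]
  simp only [smul_eq_mul]
  ring

theorem HasQ.pow (h : HasQ a A) (n : ℕ) : HasQ (a ^ n) (A ^ n) := by
  induction n with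
  | zero =>
    have := hasQ_const 1
    simp only [map_one] at this
    simpa using this.congr (a' := 1) (fun _ => rfl)
  | succ n ih => simpa [pow_succ] using ih.mul h

/-- `a = 0` iff its `q`-expansion vanishes -/
theorem HasQ.eq_zero (h : HasQ a 0) : a = 0 := by
  funext τ
  have := h τ
  simp only [map_zero, zero_smul] at this
  exact this.unique hasSum_zero

theorem qParam_nat_mul (p : ℕ) (z : ℂ) : 𝕢 1 ((p : ℂ) * z) = 𝕢 1 z ^ p := by
  simp only [Function.Periodic.qParam, Complex.ofReal_one, div_one]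
  rw [← Complex.exp_nat_mul]
  congr 1
  ring

/-- `a(pτ)` has `q`-expansion `V_p A` -/
theorem HasQ.vp {p : ℕ} (hp : p ≠ 0) (h : HasQ a A) :
    HasQ (fun τ => a (heckeDiagMatrix p • τ)) (Vp p A) := by
  intro τ
  have h1 := h (heckeDiagMatrix p • τ)
  rw [coe_heckeDiagMatrix_smul hp, qParam_nat_mul] at h1
  have hinj : Function.Injective (fun m : ℕ => p * m) :=
    fun x y hxy => Nat.eq_of_mul_eq_mul_left (Nat.pos_of_ne_zero hp) hxy
  rw [← hinj.hasSum_iff]
  · convert h1 using 2 with m
    simp only [Function.comp_apply, Vp, PowerSeries.coeff_mk]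
    rw [if_pos (Dvd.intro _ rfl), Nat.mul_div_cancel_left _ (Nat.pos_of_ne_zero hp), pow_mul]
  · intro n hn
    have : ¬ p ∣ n := fun ⟨m, hm⟩ => hn ⟨m, hm.symm⟩
    simp [Vp, this]

/-- `U_p a` has `q`-expansion `U_p A` -/
theorem HasQ.heckeU {p : ℕ} (hp : p ≠ 0) (k : ℤ) (h : HasQ a A) :
    HasQ (ModularForm.heckeU k p a) (Up p A) := by
  have h1 := hasQ_qExpansion' (ModularForm.mdifferentiable_heckeU h.mdiff k p)
    (ModularForm.periodic_heckeU_comp_ofComplex h.periodic' k p)
    (ModularForm.isBoundedAtImInfty_heckeU h.bdd k p)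
  have h2 : qExpansion 1 (ModularForm.heckeU k p a) = Up p A := by
    ext n
    have := UpperHalfPlane.qCoeff_heckeU h.periodic' h.mdiff h.bdd k hp n
    rw [ModularForm.coeffHeckeU_apply] at this
    simp only [ModularFormClass.qCoeff] at this
    rw [this, ← h.eq_qExpansion]
    simp [Up, mul_comm]
  rwa [h2] at h1

/-- `∑_{j<p} a((τ+j)/p)` has `q`-expansion `p U_p A` -/
theorem HasQ.up {p : ℕ} (hp : p ≠ 0) (h : HasQ a A) :
    HasQ (fun τ => ∑ j ∈ Finset.range p, a (heckeMatrix p j • τ))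
      (PowerSeries.C (p : ℂ) * Up p A) := by
  refine ((h.heckeU hp 0).smul (p : ℂ)).congr fun τ => ?_
  have hp' : (p : ℂ) ≠ 0 := by exact_mod_cast hp
  rw [Pi.smul_apply, ModularForm.heckeU_apply 0 hp, smul_eq_mul, mul_inv_cancel_left₀ hp']

/-- level one forms have `q`-expansions -/
theorem IsR.hasQ {k : ℤ} (h : IsR k a) : HasQ a (qExpansion 1 a) :=
  hasQ_qExpansion' h.holo
    (SlashInvariantFormClass.periodic_comp_ofComplex h.toModularForm one_mem_strictPeriods_SL)
    h.bdd

end Fermat.Agent.S16lib
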