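import Fermat.Agent.S24.JFunA

/-!
# S16 library: the Sturm bound "modulo an additive subgroup" in level one

If `f ∈ M_k(SL₂(ℤ))` has its `q`-expansion coefficients `a_i`, `i ≤ k / 12`, in an additive subgroup
`J` of `ℂ`, then all the coefficients lie in `J`.
-/

set_option autoImplicit false

open UpperHalfPlane ModularForm MatrixGroups Filter Topology EisensteinSeries
open Fermat.Agent.S24lib

namespace Fermat.Agent.S16lib

local notation "Δ" => ModularForm.discriminant

/-- integer power series times a series with coefficients (up to `N`) in `J` -/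
theorem coeff_map_mul_mem (J : AddSubgroup ℂ) (P : PowerSeries ℤ) (Q : PowerSeries ℂ) (N : ℕ)
    (hQ : ∀ i ≤ N, Q.coeff i ∈ J) :
    ∀ i ≤ N, ((P.map (Int.castRingHom ℂ)) * Q).coeff i ∈ J := by
  intro i hi
  rw [PowerSeries.coeff_mul]
  refine J.sum_mem fun x hx => ?_
  rw [PowerSeries.coeff_map]
  have h2 : x.2 ≤ N := by
    have := Finset.HasAntidiagonal.mem_antidiagonal.1 hx
    omega
  simpa using J.zsmul_mem (hQ x.2 h2) (P.coeff x.1)

theorem coeff_map_mul_mem' (J : AddSubgroup ℂ) (P : PowerSeries ℤ) (Q : PowerSeries ℂ)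
    (hQ : ∀ i, Q.coeff i ∈ J) (i : ℕ) : ((P.map (Int.castRingHom ℂ)) * Q).coeff i ∈ J :=
  coeff_map_mul_mem J P Q i (fun j _ => hQ j) i le_rfl

/-- the `q`-expansion of `Δ` is `q ∏ (1 - q^n)^24`, an integral power series -/
theorem qExpansion_disc :
    qExpansion 1 Δ =
      (PowerSeries.X * ModularCurve.dedekindEtaUnit).map (Int.castRingHom ℂ) := by
  have h0 : qExpansion 1 Δ = taylor (cuspFunction 1 Δ) := by
    ext n; rfl
  set P : ℂ → ℂ := fun q => ∏' n : ℕ, (1 - q ^ (n + 1)) with hP
  have hPan : AnalyticAt ℂ P 0 :=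
    differentiableOn_tprod_one_sub_pow.analyticAt (Metric.ball_mem_nhds 0 one_pos)
  have hev : cuspFunction 1 Δ =ᶠ[𝓝 0] (fun z => z) * (P ^ 24) := by
    filter_upwards [Metric.ball_mem_nhds (0 : ℂ) one_pos] with z hz
    rw [discriminant_cuspFunction_eqOn hz]
    simp only [hP, Pi.pow_apply, Pi.mul_apply]
    rw [(multipliable_one_sub_pow (by simpa using hz)).tprod_pow]
  rw [h0, taylor_congr hev, taylor_mul (f := fun z => z) analyticAt_id (hPan.pow 24), taylor_id, taylor_pow hPan,
    taylor_tprod, ← map_pow, map_mul, PowerSeries.map_X, ModularCurve.dedekindEtaUnit]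

/-- the integral power series `1 - 504 ∑ σ₅(n) q^n` -/
noncomputable def eis6 : PowerSeries ℤ :=
  PowerSeries.mk fun n => if n = 0 then 1 else -504 * (ArithmeticFunction.sigma 5 n : ℤ)

theorem qExpansion_E4 :
    qExpansion 1 E₄ = ModularCurve.eisenstein4.map (Int.castRingHom ℂ) := by
  rw [← taylor_cusp_E4]
  ext n; rfl

theorem qExpansion_E6 : qExpansion 1 E₆ = eis6.map (Int.castRingHom ℂ) := by
  ext n
  rw [EisensteinSeries.E_qExpansion_coeff _ ⟨3, rfl⟩, PowerSeries.coeff_map, eis6,
    PowerSeries.coeff_mk]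
  split_ifs with h0
  · simp
  · norm_num [show bernoulli 6 = 1 / 42 by decide +kernel]

/-- for every even weight `k ≠ 2` there is a level one form with integral `q`-expansion and constant
term `1` -/
theorem exists_integral_form (k : ℕ) (hk : Even k) (hk2 : k ≠ 2) :
    ∃ (E : ModularForm 𝒮ℒ (k : ℤ)) (P : PowerSeries ℤ),
      qExpansion 1 E = P.map (Int.castRingHom ℂ) ∧ P.coeff 0 = 1 := by
  induction k using Nat.strong_induction_on with | _ k ih =>
  rcases Nat.lt_or_ge k 8 with h8 | h8
  · have : k = 0 ∨ k = 4 ∨ k = 6 := by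
      obtain ⟨m, rfl⟩ := hk
      omega
    rcases this with rfl | rfl | rfl
    · refine ⟨ModularForm.mcast (by simp) (1 : ModularForm 𝒮ℒ 0), 1, ?_, by simp⟩
      rw [ModularForm.qExpansion_mcast, ModularForm.qExpansion_one, map_one]
    · refine ⟨ModularForm.mcast (by simp) E₄, ModularCurve.eisenstein4, ?_, ?_⟩
      · rw [ModularForm.qExpansion_mcast, qExpansion_E4]
      · rw [PowerSeries.coeff_zero_eq_constantCoeff_apply, ModularCurve.constantCoeff_eisenstein4]
    · refine ⟨ModularForm.mcast (by simp) E₆, eis6, ?_, ?_⟩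
      · rw [ModularForm.qExpansion_mcast, qExpansion_E6]
      · simp [eis6]
  · obtain ⟨E, P, hE, hP⟩ := ih (k - 4) (by omega)
      (by obtain ⟨m, rfl⟩ := hk; exact ⟨m - 2, by omega⟩) (by omega)
    refine ⟨ModularForm.mcast (by push_cast [Nat.cast_sub (show 4 ≤ k by omega)]; ring)
      (E₄.mul E), ModularCurve.eisenstein4 * P, ?_, ?_⟩
    · rw [ModularForm.qExpansion_mcast,
        ModularForm.qExpansion_mul one_pos one_mem_strictPeriods_SL, qExpansion_E4, hE, map_mul]
    · rw [PowerSeries.coeff_zero_eq_constantCoeff_apply] at hP ⊢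
      rw [map_mul, ModularCurve.constantCoeff_eisenstein4, hP, one_mul]

/-- division by `Δ`: if `Δ_q * g = h` and `h_i ∈ J` for `i ≤ N + 1` then `g_i ∈ J` for `i ≤ N`. -/
theorem coeff_mem_of_disc_mul (J : AddSubgroup ℂ) (g h : PowerSeries ℂ) (N : ℕ)
    (hgh : h = (PowerSeries.X * ModularCurve.dedekindEtaUnit).map (Int.castRingHom ℂ) * g)
    (hh : ∀ i ≤ N + 1, h.coeff i ∈ J) : ∀ i ≤ N, g.coeff i ∈ J := by
  intro i hi
  have h3 := congrArg (PowerSeries.map (Int.castRingHom ℂ)) ModularCurve.dedekindEtaUnit_mul_inv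
  rw [map_mul, map_one] at h3
  have h4 : ModularCurve.dedekindEtaUnitInv.map (Int.castRingHom ℂ) * h = PowerSeries.X * g := by
    rw [hgh, map_mul, PowerSeries.map_X]
    calc _ = (ModularCurve.dedekindEtaUnit.map (Int.castRingHom ℂ) *
          ModularCurve.dedekindEtaUnitInv.map (Int.castRingHom ℂ)) * (PowerSeries.X * g) := by ring
      _ = _ := by rw [h3, one_mul]
  have h5 := coeff_map_mul_mem J ModularCurve.dedekindEtaUnitInv h (N + 1) hh (i + 1) (by omega)
  rwa [h4, PowerSeries.coeff_succ_X_mul] at h5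

/-- **Sturm bound modulo an additive subgroup, level one.** -/
theorem sturm_mod_levelOne (J : AddSubgroup ℂ) {k : ℕ} (f : ModularForm 𝒮ℒ (k : ℤ))
    (h : ∀ i : ℕ, 12 * i ≤ k → (qExpansion 1 f).coeff i ∈ J) (i : ℕ) :
    (qExpansion 1 f).coeff i ∈ J := by
  induction k using Nat.strong_induction_on generalizing i with | _ k ih =>
  rcases Nat.even_or_odd k with hk | hk
  swap
  · rw [levelOne_odd_weight_eq_zero (by exact_mod_cast hk) f]
    simp [qExpansion_zero]
  by_cases hk2 : k = 2
  · subst hk2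
    have : f = 0 := rank_zero_iff_forall_zero.mp levelOne_weight_two_rank_zero f
    rw [this]
    simp [qExpansion_zero]
  obtain ⟨E, P, hE, hP⟩ := exists_integral_form k hk hk2
  set c := (qExpansion 1 f).coeff 0 with hcdef
  have hc : c ∈ J := h 0 (by omega)
  set f1 : ModularForm 𝒮ℒ (k : ℤ) := f - c • E with hf1
  have hq1 : qExpansion 1 f1 = qExpansion 1 f - c • P.map (Int.castRingHom ℂ) := by
    rw [hf1, ← hE, ← ModularForm.qExpansion_smul one_pos one_mem_strictPeriods_SL]
    exact ModularForm.qExpansion_sub one_pos one_mem_strictPeriods_SL f (c • E)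
  have hcP : ∀ i, (c • P.map (Int.castRingHom ℂ)).coeff i ∈ J := by
    intro i
    rw [PowerSeries.coeff_smul, PowerSeries.coeff_map, smul_eq_mul, mul_comm]
    simpa using J.zsmul_mem hc (P.coeff i)
  have h0 : (qExpansion 1 f1).coeff 0 = 0 := by
    rw [hq1, map_sub, PowerSeries.coeff_smul, PowerSeries.coeff_map, hP]
    simp [hcdef]
  have hfac := qExpansion_eq_qExpansion_discriminant_mul f1 h0
  rw [qExpansion_disc] at hfac
  set g := CuspForm.discriminantEquiv (toCuspForm f1 h0) with hg
  have hgJ : ∀ i, (qExpansion 1 g).coeff i ∈ J := by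
    rcases lt_or_ge k 12 with hk12 | hk12
    · have : g = 0 := rank_zero_iff_forall_zero.mp (levelOne_neg_weight_rank_zero (by omega)) g
      rw [this]
      simp [qExpansion_zero]
    · have hw : (k : ℤ) - 12 = ((k - 12 : ℕ) : ℤ) := by omega
      have := ih (k - 12) (by omega) (ModularForm.mcast hw g)
      simp only [ModularForm.qExpansion_mcast] at this
      refine this fun i hi => ?_
      refine coeff_mem_of_disc_mul J _ _ i hfac (fun j hj => ?_) i le_rfl
      rw [hq1, map_sub]
      exact J.sub_mem (h j (by omega)) (hcP j)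
  have hfin : qExpansion 1 f = qExpansion 1 f1 + c • P.map (Int.castRingHom ℂ) := by
    rw [hq1, sub_add_cancel]
  rw [hfin, map_add, hfac]
  exact J.add_mem (coeff_map_mul_mem' J _ _ hgJ i) (hcP i)

end Fermat.Agent.S16lib
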