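import Fermat.Agent.S16.HasQ
import Fermat.Agent.S16.SturmMod

/-!
# S16 (UP), task AN2: level one forms (`IsL1C`, `IsL1`), `E₄, E₆, Δ`, Sturm bound modulo `N`
-/

set_option autoImplicit false

open UpperHalfPlane ModularForm MatrixGroups CongruenceSubgroup
open scoped Manifold

namespace Fermat.Agent.S16lib

open Fermat.Agent.S20lib

local notation "Δ" => ModularForm.discriminant

section complex

variable {k l : ℤ} {A B : PowerSeries ℂ}

/-- bridge with Mathlib's modular forms and `q`-expansions -/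
theorem isL1C_iff : IsL1C k A ↔ ∃ f : ModularForm 𝒮ℒ k, qExpansion 1 f = A := by
  constructor
  · rintro ⟨a, ha, hq⟩
    refine ⟨ha.toModularForm, ?_⟩
    ext m
    exact (ModularFormClass.qExpansion_coeff_unique (f := ha.toModularForm) one_pos
      one_mem_strictPeriods_SL hq m).symm
  · rintro ⟨f, rfl⟩
    exact ⟨f, isR_coe f, fun τ => by
      simpa only [smul_eq_mul] using
        ModularForm.hasSum_qExpansion f one_pos one_mem_strictPeriods_SL τ⟩

theorem IsL1C.add (h : IsL1C k A) (h' : IsL1C k B) : IsL1C k (A + B) := by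
  obtain ⟨f, rfl⟩ := isL1C_iff.1 h
  obtain ⟨g, rfl⟩ := isL1C_iff.1 h'
  exact isL1C_iff.2 ⟨f + g, ModularForm.qExpansion_add one_pos one_mem_strictPeriods_SL f g⟩

theorem IsL1C.smul (c : ℂ) (h : IsL1C k A) : IsL1C k (PowerSeries.C c * A) := by
  obtain ⟨f, rfl⟩ := isL1C_iff.1 h
  refine isL1C_iff.2 ⟨c • f, ?_⟩
  rw [← PowerSeries.smul_eq_C_mul]
  exact ModularForm.qExpansion_smul one_pos one_mem_strictPeriods_SL c f

theorem IsL1C.mul (h : IsL1C k A) (h' : IsL1C l B) : IsL1C (k + l) (A * B) := by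
  obtain ⟨f, rfl⟩ := isL1C_iff.1 h
  obtain ⟨g, rfl⟩ := isL1C_iff.1 h'
  exact isL1C_iff.2 ⟨f.mul g, ModularForm.qExpansion_mul one_pos one_mem_strictPeriods_SL f g⟩

theorem isL1C_one : IsL1C 0 1 := isL1C_iff.2 ⟨1, ModularForm.qExpansion_one⟩

theorem isL1C_const (c : ℂ) : IsL1C 0 (PowerSeries.C c) := by
  simpa using isL1C_one.smul c

theorem IsL1C.eq_zero_of_neg (hk : k < 0) (h : IsL1C k A) : A = 0 := by
  obtain ⟨f, rfl⟩ := isL1C_iff.1 h
  have : f = 0 := rank_zero_iff_forall_zero.mp (levelOne_neg_weight_rank_zero hk) f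
  rw [this]
  simp [qExpansion_zero]

theorem IsL1C.eq_zero_of_odd (hk : Odd k) (h : IsL1C k A) : A = 0 := by
  obtain ⟨f, rfl⟩ := isL1C_iff.1 h
  rw [levelOne_odd_weight_eq_zero hk f]
  simp [qExpansion_zero]

theorem IsL1C.eq_zero_of_two (h : IsL1C 2 A) : A = 0 := by
  obtain ⟨f, rfl⟩ := isL1C_iff.1 h
  have : f = 0 := rank_zero_iff_forall_zero.mp levelOne_weight_two_rank_zero f
  rw [this]
  simp [qExpansion_zero]

end complex

section integral

variable {k l : ℤ} {A B : PowerSeries ℤ}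

theorem toC_injective : Function.Injective toC :=
  PowerSeries.map_injective _ (RingHom.injective_int _)

theorem isL1_iff : IsL1 k A ↔ ∃ f : ModularForm 𝒮ℒ k, qExpansion 1 f = toC A := isL1C_iff

theorem intCast_eq_C_int (c : ℤ) : (c : PowerSeries ℤ) = PowerSeries.C c := by
  rw [← map_intCast (PowerSeries.C (R := ℤ)) c, Int.cast_id]

theorem toC_intCast_mul (c : ℤ) (A : PowerSeries ℤ) :
    toC ((c : PowerSeries ℤ) * A) = PowerSeries.C (c : ℂ) * toC A := by
  rw [toC, map_mul, intCast_eq_C_int, PowerSeries.map_C]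
  rfl

theorem IsL1.congr_weight (hkl : k = l) (h : IsL1 k A) : IsL1 l A := hkl ▸ h

theorem isL1_zero : IsL1 k 0 := isL1_iff.2 ⟨0, by simp [qExpansion_zero]⟩

theorem IsL1.add (h : IsL1 k A) (h' : IsL1 k B) : IsL1 k (A + B) := by
  have := IsL1C.add h h'
  rwa [← map_add] at this

theorem IsL1.intCast_mul (c : ℤ) (h : IsL1 k A) : IsL1 k ((c : PowerSeries ℤ) * A) := by
  have := IsL1C.smul (c : ℂ) h
  rwa [← toC_intCast_mul] at this

theorem IsL1.neg (h : IsL1 k A) : IsL1 k (-A) := by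
  simpa using h.intCast_mul (-1)

theorem IsL1.sub (h : IsL1 k A) (h' : IsL1 k B) : IsL1 k (A - B) := by
  rw [sub_eq_add_neg]
  exact h.add h'.neg

theorem IsL1.mul (h : IsL1 k A) (h' : IsL1 l B) : IsL1 (k + l) (A * B) := by
  have := IsL1C.mul h h'
  rwa [← map_mul] at this

theorem isL1_one : IsL1 0 1 := by
  have := isL1C_one
  rwa [← map_one (PowerSeries.map (Int.castRingHom ℂ))] at this

theorem IsL1.pow (h : IsL1 k A) (n : ℕ) : IsL1 (n * k) (A ^ n) := by
  induction n with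
  | zero => simpa using isL1_one
  | succ n ih =>
    rw [pow_succ]
    exact (ih.mul h).congr_weight (by push_cast; ring)

/-- constants have weight `0` -/
theorem isL1_intCast (c : ℤ) : IsL1 0 (c : PowerSeries ℤ) := by
  simpa using isL1_one.intCast_mul c

/-- division by a nonzero integer -/
theorem IsL1.cancel {c : ℤ} (hc : c ≠ 0) (h : IsL1 k ((c : PowerSeries ℤ) * A)) : IsL1 k A := by
  have h1 := IsL1C.smul (c : ℂ)⁻¹ h
  have hc' : (c : ℂ) ≠ 0 := by exact_mod_cast hc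
  rwa [toC_intCast_mul, ← mul_assoc, ← map_mul, inv_mul_cancel₀ hc', map_one, one_mul] at h1

theorem IsL1.eq_zero_of_neg (hk : k < 0) (h : IsL1 k A) : A = 0 :=
  toC_injective ((IsL1C.eq_zero_of_neg hk h).trans (map_zero _).symm)

theorem IsL1.eq_zero_of_odd (hk : Odd k) (h : IsL1 k A) : A = 0 :=
  toC_injective ((IsL1C.eq_zero_of_odd hk h).trans (map_zero _).symm)

theorem IsL1.eq_zero_of_two (h : IsL1 2 A) : A = 0 :=
  toC_injective ((IsL1C.eq_zero_of_two h).trans (map_zero _).symm)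

theorem coeff_sigmaSeries (k n : ℕ) :
    PowerSeries.coeff n (sigmaSeries k) = (ArithmeticFunction.sigma k n : ℤ) := by
  rw [sigmaSeries, PowerSeries.coeff_mk]

theorem coeff_ofNat_mul (c : ℕ) [c.AtLeastTwo] (n : ℕ) (A : PowerSeries ℤ) :
    PowerSeries.coeff n ((OfNat.ofNat c : PowerSeries ℤ) * A) =
      (OfNat.ofNat c : ℤ) * PowerSeries.coeff n A := by
  have : (OfNat.ofNat c : PowerSeries ℤ) = PowerSeries.C (OfNat.ofNat c : ℤ) := by
    rw [← intCast_eq_C_int]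
    simp
  rw [this, PowerSeries.coeff_C_mul]

theorem coeff_E4z (n : ℕ) : PowerSeries.coeff n E4z =
    if n = 0 then 1 else 240 * (ArithmeticFunction.sigma 3 n : ℤ) := by
  rw [E4z, map_add, coeff_ofNat_mul, coeff_sigmaSeries, PowerSeries.coeff_one]
  split_ifs with h
  · simp [h]
  · simp

theorem coeff_E6z (n : ℕ) : PowerSeries.coeff n E6z =
    if n = 0 then 1 else -504 * (ArithmeticFunction.sigma 5 n : ℤ) := by
  rw [E6z, map_sub, coeff_ofNat_mul, coeff_sigmaSeries, PowerSeries.coeff_one]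
  split_ifs with h
  · simp [h]
  · simp

theorem E4z_eq : E4z = ModularCurve.eisenstein4 := by
  ext n
  rw [coeff_E4z, ModularCurve.eisenstein4, PowerSeries.coeff_mk]
  split_ifs with h
  · rfl
  · simp [ArithmeticFunction.sigma_apply]

theorem E6z_eq : E6z = eis6 := by
  ext n
  rw [coeff_E6z, eis6, PowerSeries.coeff_mk]

theorem coeff_zero_E4z : PowerSeries.coeff 0 E4z = 1 := by simp [coeff_E4z]

theorem coeff_zero_E6z : PowerSeries.coeff 0 E6z = 1 := by simp [coeff_E6z]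

theorem isL1_E4z : IsL1 4 E4z := isL1_iff.2 ⟨E₄, by rw [E4z_eq]; exact qExpansion_E4⟩

theorem isL1_E6z : IsL1 6 E6z := isL1_iff.2 ⟨E₆, by rw [E6z_eq]; exact qExpansion_E6⟩

theorem isL1_Dz : IsL1 12 Dz :=
  isL1_iff.2 ⟨(CuspForm.discriminant : ModularForm 𝒮ℒ 12), qExpansion_disc⟩

theorem Dz_identity : 1728 * Dz = E4z ^ 3 - E6z ^ 2 := by
  apply toC_injective
  have e1 : toC (1728 * Dz) = (1728 : ℂ) • toC Dz := by
    have := toC_intCast_mul 1728 Dz
    rw [PowerSeries.smul_eq_C_mul]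
    simpa using this
  rw [e1, toC, toC, map_sub, map_pow, map_pow, E4z_eq, E6z_eq, ← qExpansion_E4, ← qExpansion_E6, Dz,
    ← qExpansion_disc]
  have h1 : qExpansion 1 (E₄.pow 3) = qExpansion 1 E₄ ^ 3 :=
    ModularForm.qExpansion_pow one_pos one_mem_strictPeriods_SL E₄ 3
  have h2 : qExpansion 1 (E₆.pow 2) = qExpansion 1 E₆ ^ 2 :=
    ModularForm.qExpansion_pow one_pos one_mem_strictPeriods_SL E₆ 2
  have h3 := ModularForm.qExpansion_sub one_pos one_mem_strictPeriods_SL (E₄.pow 3) (E₆.pow 2)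
  have h4 := ModularForm.qExpansion_smul one_pos one_mem_strictPeriods_SL (1728 : ℂ)
    CuspForm.discriminant
  rw [CuspForm.coe_discriminant] at h4
  rw [← h1, ← h2, ← h3, ← h4]
  congr 1
  funext z
  have := discriminant_eq_E₄_cube_sub_E₆_sq z
  rw [coe_pow, coe_pow]
  simp only [Pi.sub_apply, Pi.smul_apply, Pi.pow_apply, smul_eq_mul, this]
  ring

theorem coeff_zero_Dz : PowerSeries.coeff 0 Dz = 0 := by simp [Dz]

theorem coeff_one_Dz : PowerSeries.coeff 1 Dz = 1 := by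
  rw [Dz, show (1 : ℕ) = 0 + 1 from rfl, PowerSeries.coeff_succ_X_mul,
    PowerSeries.coeff_zero_eq_constantCoeff_apply, ModularCurve.constantCoeff_dedekindEtaUnit]

theorem Dz_ne_zero : Dz ≠ 0 := by
  intro h
  have := coeff_one_Dz
  rw [h] at this
  simp at this

/-- a level one form with vanishing constant term is `Δ` times a level one form -/
theorem IsL1.exists_Dz_mul (h : IsL1 k A) (h0 : PowerSeries.coeff 0 A = 0) :
    ∃ A' : PowerSeries ℤ, IsL1 (k - 12) A' ∧ A = Dz * A' := by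
  obtain ⟨f, hf⟩ := isL1_iff.1 h
  have h0' : (qExpansion 1 f).coeff 0 = 0 := by
    rw [hf, PowerSeries.coeff_map, h0, map_zero]
  have hfac := qExpansion_eq_qExpansion_discriminant_mul f h0'
  rw [qExpansion_disc, hf] at hfac
  obtain ⟨A1, hA1⟩ : PowerSeries.X ∣ A := by
    rw [PowerSeries.X_dvd_iff, ← PowerSeries.coeff_zero_eq_constantCoeff_apply, h0]
  have hA' : A = Dz * (ModularCurve.dedekindEtaUnitInv * A1) := by
    rw [Dz, hA1]
    calc _ = (ModularCurve.dedekindEtaUnit * ModularCurve.dedekindEtaUnitInv) *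
          (PowerSeries.X * A1) := by rw [ModularCurve.dedekindEtaUnit_mul_inv, one_mul]
      _ = _ := by ring
  refine ⟨ModularCurve.dedekindEtaUnitInv * A1,
    isL1_iff.2 ⟨CuspForm.discriminantEquiv (toCuspForm f h0'), ?_⟩, hA'⟩
  have hne : toC Dz ≠ 0 := by
    rw [Ne, ← map_zero (PowerSeries.map (Int.castRingHom ℂ)), toC_injective.eq_iff]
    exact Dz_ne_zero
  apply mul_left_cancel₀ hne
  rw [toC, toC, ← map_mul, ← hA']
  exact hfac.symm

theorem IsL1.eq_zero_of_lt_twelve (hk : k < 12) (h : IsL1 k A) (h0 : PowerSeries.coeff 0 A = 0) :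
    A = 0 := by
  obtain ⟨A', hA', rfl⟩ := h.exists_Dz_mul h0
  rw [hA'.eq_zero_of_neg (by omega), mul_zero]

theorem coeff_intCast_mul (c : ℤ) (n : ℕ) (A : PowerSeries ℤ) :
    PowerSeries.coeff n ((c : PowerSeries ℤ) * A) = c * PowerSeries.coeff n A := by
  rw [intCast_eq_C_int, PowerSeries.coeff_C_mul]

/-- in weight `< 12` a level one form is determined by its constant term -/
theorem IsL1.eq_mul_of_lt_twelve {E : PowerSeries ℤ} (hk : k < 12) (h : IsL1 k A)
    (hE : IsL1 k E) (hE0 : PowerSeries.coeff 0 E = 1) :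
    A = ((PowerSeries.coeff 0 A : ℤ) : PowerSeries ℤ) * E := by
  have := (h.sub (hE.intCast_mul (PowerSeries.coeff 0 A))).eq_zero_of_lt_twelve hk (by
    rw [map_sub, coeff_intCast_mul, hE0, mul_one, sub_self])
  exact sub_eq_zero.1 this

/-- `M₀(SL₂ℤ) = ℂ` -/
theorem IsL1.eq_of_zero (h : IsL1 0 A) : A = ((PowerSeries.coeff 0 A : ℤ) : PowerSeries ℤ) := by
  simpa using h.eq_mul_of_lt_twelve (by norm_num) isL1_one (by simp)

/-- `M₄(SL₂ℤ) = ℂ E₄` -/
theorem IsL1.eq_of_four (h : IsL1 4 A) :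
    A = ((PowerSeries.coeff 0 A : ℤ) : PowerSeries ℤ) * E4z :=
  h.eq_mul_of_lt_twelve (by norm_num) isL1_E4z coeff_zero_E4z

/-- `M₆(SL₂ℤ) = ℂ E₆` -/
theorem IsL1.eq_of_six (h : IsL1 6 A) :
    A = ((PowerSeries.coeff 0 A : ℤ) : PowerSeries ℤ) * E6z :=
  h.eq_mul_of_lt_twelve (by norm_num) isL1_E6z coeff_zero_E6z

/-- `M₈(SL₂ℤ) = ℂ E₄²` -/
theorem IsL1.eq_of_eight (h : IsL1 8 A) :
    A = ((PowerSeries.coeff 0 A : ℤ) : PowerSeries ℤ) * E4z ^ 2 :=
  h.eq_mul_of_lt_twelve (by norm_num) ((isL1_E4z.pow 2).congr_weight (by norm_num)) (by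
    have := coeff_zero_E4z
    rw [PowerSeries.coeff_zero_eq_constantCoeff_apply] at this ⊢
    rw [map_pow, this, one_pow])

/-- `M₁₀(SL₂ℤ) = ℂ E₄E₆` -/
theorem IsL1.eq_of_ten (h : IsL1 10 A) :
    A = ((PowerSeries.coeff 0 A : ℤ) : PowerSeries ℤ) * (E4z * E6z) :=
  h.eq_mul_of_lt_twelve (by norm_num) ((isL1_E4z.mul isL1_E6z).congr_weight (by norm_num)) (by
    have h4 := coeff_zero_E4z
    have h6 := coeff_zero_E6z
    rw [PowerSeries.coeff_zero_eq_constantCoeff_apply] at h4 h6 ⊢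
    rw [map_mul, h4, h6, one_mul])

/-- for even `k ≥ 4` (and `k = 0`) there is an integral level one form with constant term `1` -/
theorem exists_isL1_coeff_zero_eq_one (hk : Even k) (hk4 : 4 ≤ k) :
    ∃ E : PowerSeries ℤ, IsL1 k E ∧ PowerSeries.coeff 0 E = 1 := by
  obtain ⟨n, rfl⟩ := Int.eq_ofNat_of_zero_le (by omega : 0 ≤ k)
  obtain ⟨E, P, hE, hP⟩ := exists_integral_form n (by exact_mod_cast hk) (by omega)
  exact ⟨P, isL1_iff.2 ⟨E, hE⟩, hP⟩

/-- the additive subgroup `N ℤ` of `ℂ` -/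
def mulZ (N : ℤ) : AddSubgroup ℂ :=
  (AddSubgroup.zmultiples N).map (Int.castAddHom ℂ)

theorem intCast_mem_mulZ {N a : ℤ} : (a : ℂ) ∈ mulZ N ↔ N ∣ a := by
  rw [mulZ, AddSubgroup.mem_map]
  constructor
  · rintro ⟨x, hx, hxa⟩
    have : x = a := by
      have hxa' : (x : ℂ) = (a : ℂ) := hxa
      exact_mod_cast hxa'
    rw [← this]
    exact Int.mem_zmultiples_iff.1 hx
  · intro h
    exact ⟨a, Int.mem_zmultiples_iff.2 h, rfl⟩

/-- (V), coefficientwise -/
theorem IsL1.sturm_coeff (N : ℤ) (h : IsL1 k A)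
    (hA : ∀ n : ℕ, 12 * (n : ℤ) ≤ k → N ∣ PowerSeries.coeff n A) (n : ℕ) :
    N ∣ PowerSeries.coeff n A := by
  rcases lt_or_ge k 0 with hk | hk
  · rw [h.eq_zero_of_neg hk]
    simp
  obtain ⟨k, rfl⟩ := Int.eq_ofNat_of_zero_le hk
  obtain ⟨f, hf⟩ := isL1_iff.1 h
  have := sturm_mod_levelOne (mulZ N) f (fun i hi => by
    rw [hf, PowerSeries.coeff_map]
    exact intCast_mem_mulZ.2 (hA i (by exact_mod_cast hi))) n
  rw [hf, PowerSeries.coeff_map] at this
  exact intCast_mem_mulZ.1 this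

theorem intCast_dvd_iff_coeff {N : ℤ} {A : PowerSeries ℤ} :
    (N : PowerSeries ℤ) ∣ A ↔ ∀ n, N ∣ PowerSeries.coeff n A := by
  constructor
  · rintro ⟨B, rfl⟩ n
    rw [coeff_intCast_mul]
    exact dvd_mul_right _ _
  · intro h
    choose c hc using h
    exact ⟨PowerSeries.mk c, by ext n; rw [coeff_intCast_mul, PowerSeries.coeff_mk, hc n]⟩

/-- **(V)** Sturm bound modulo `N` in level one. -/
theorem IsL1.sturm (N : ℤ) (h : IsL1 k A)
    (hA : ∀ n : ℕ, 12 * (n : ℤ) ≤ k → N ∣ PowerSeries.coeff n A) :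
    (N : PowerSeries ℤ) ∣ A :=
  intCast_dvd_iff_coeff.2 (h.sturm_coeff N hA)

end integral

end Fermat.Agent.S16lib
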