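import Mathlib
import Fermat.Prelude.Def_ModularForm_HeckeOperator
import Fermat.Prelude.Def_ModularCurve_X0
import Fermat.Agent.S20.LevelOne

/-!
# S16 library, part (UP): the "pair calculus" (definitions only)

Design (helper15 trace-only calculus + helper17 identity; reports #178, #189, #199, #213):
all of part (UP) is formal algebra in `PowerSeries ℤ` on top of two predicates

* `IsL1 k A`      : `A ∈ ℤ[[q]]` is the `q`-expansion of a level one modular form of weight `k`;
* `IsPair p m A B`: `A, B ∈ ℤ[[q]]` are the `q`-expansions of `F` and of its Fricke transform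
                    `F|W_p`, for some modular form `F` of weight `2m` on `Γ₀(p)`.
-/

set_option autoImplicit false

open UpperHalfPlane ModularForm MatrixGroups CongruenceSubgroup
open scoped Manifold

namespace Fermat.Agent.S16lib

open Fermat.Agent.S20lib

noncomputable section

/-- `U_p` on formal power series: `a_n(U_p A) = a_{pn}(A)`. -/
def Up {R : Type*} [Semiring R] (p : ℕ) (A : PowerSeries R) : PowerSeries R :=
  PowerSeries.mk fun n => PowerSeries.coeff (p * n) A

/-- `V_p` on formal power series: `(V_p A)(q) = A(q^p)`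
(`= PowerSeries.expand p hp A` for `p ≠ 0`, see `Vp_eq_expand`). -/
def Vp {R : Type*} [Semiring R] (p : ℕ) (A : PowerSeries R) : PowerSeries R :=
  PowerSeries.mk fun n => if p ∣ n then PowerSeries.coeff (n / p) A else 0

/-- integral power series seen as complex power series -/
abbrev toC (A : PowerSeries ℤ) : PowerSeries ℂ := PowerSeries.map (Int.castRingHom ℂ) A

/-- `a(τ) = ∑ A_m q^m` on the whole upper half plane, `q = exp(2πiτ)`. -/
def HasQ (a : ℍ → ℂ) (A : PowerSeries ℂ) : Prop :=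
  ∀ τ : ℍ, HasSum (fun m : ℕ => PowerSeries.coeff m A • Function.Periodic.qParam 1 τ ^ m) (a τ)

/-- `A` is the `q`-expansion of a level one modular form of weight `k` (complex coefficients). -/
def IsL1C (k : ℤ) (A : PowerSeries ℂ) : Prop :=
  ∃ a : ℍ → ℂ, IsR k a ∧ HasQ a A

/-- `A ∈ ℤ[[q]]` is the `q`-expansion of a level one modular form of weight `k`. -/
def IsL1 (k : ℤ) (A : PowerSeries ℤ) : Prop := IsL1C k (toC A)

/-- The Fricke transform of weight `2m` and level `p`: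
`(frk p m F)(z) = p^m (F|_{2m} S)(p z) = p^m (p z)^{-2m} F(-1/(p z))`. -/
def frk (p m : ℕ) (F : ℍ → ℂ) : ℍ → ℂ := fun z =>
  (p : ℂ) ^ m * (F ∣[(2 * m : ℤ)] ModularGroup.S) (heckeDiagMatrix p • z)

/-- complex version of `IsPair` -/
def IsPairC (p m : ℕ) (A B : PowerSeries ℂ) : Prop :=
  ∃ F : ℍ → ℂ, (∀ g : SL(2, ℤ), g ∈ Gamma0 p → F ∣[(2 * m : ℤ)] g = F) ∧
    HasQ F A ∧ HasQ (frk p m F) B

/-- `A, B ∈ ℤ[[q]]` are the `q`-expansions of `F` and `F|W_p` for a form `F` of weight `2m` on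
`Γ₀(p)`. -/
def IsPair (p m : ℕ) (A B : PowerSeries ℤ) : Prop := IsPairC p m (toC A) (toC B)

/-- `∑ σ_k(n) q^n` -/
def sigmaSeries (k : ℕ) : PowerSeries ℤ :=
  PowerSeries.mk fun n => (ArithmeticFunction.sigma k n : ℤ)

/-- `E₄ = 1 + 240 ∑ σ₃(n) q^n` -/
def E4z : PowerSeries ℤ := 1 + 240 * sigmaSeries 3

/-- `E₆ = 1 - 504 ∑ σ₅(n) q^n` -/
def E6z : PowerSeries ℤ := 1 - 504 * sigmaSeries 5

/-- `Δ = q ∏ (1 - q^n)^24` -/
def Dz : PowerSeries ℤ := PowerSeries.X * ModularCurve.dedekindEtaUnit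

/-- `σ'(n) = ∑_{d ∣ n, p ∤ d} d` -/
def sigmaP (p n : ℕ) : ℕ := ∑ d ∈ n.divisors with ¬ p ∣ d, d

/-- `24 e' = (p - 1) + 24 ∑ σ'(n) q^n`, the `q`-expansion of `p E₂(pz) - E₂(z)`. -/
def eisP (p : ℕ) : PowerSeries ℤ :=
  PowerSeries.mk fun n => if n = 0 then (p : ℤ) - 1 else 24 * (sigmaP p n : ℤ)

/-- the function `p E₂(pz) - E₂(z)` -/
def eisFun (p : ℕ) : ℍ → ℂ := fun z =>
  (p : ℂ) * EisensteinSeries.E2 (heckeDiagMatrix p • z) - EisensteinSeries.E2 z

end

end Fermat.Agent.S16lib
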