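import Fermat.Agent.S16.HasQ
import Fermat.Agent.S20.Transfer
import Fermat.Agent.S20.CombIndex

/-!
# S16 (UP), task AN3: the analytic content of the pair calculus (complex coefficients)
-/

set_option autoImplicit false

open UpperHalfPlane ModularForm MatrixGroups CongruenceSubgroup
open scoped Manifold

namespace Fermat.Agent.S16lib

open Fermat.Agent.S20lib

variable {p m n : ℕ} {A B A' B' : PowerSeries ℂ}

theorem frk_add (p m : ℕ) (F F' : ℍ → ℂ) : frk p m (F + F') = frk p m F + frk p m F' := by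
  funext z
  simp only [frk, SlashAction.add_slash, Pi.add_apply, mul_add]

theorem frk_smul (p m : ℕ) (c : ℂ) (F : ℍ → ℂ) : frk p m (c • F) = c • frk p m F := by
  funext z
  simp only [frk, ModularForm.SL_smul_slash, Pi.smul_apply, smul_eq_mul]
  ring

theorem frk_mul (p m n : ℕ) (F F' : ℍ → ℂ) :
    frk p (m + n) (F * F') = frk p m F * frk p n F' := by
  funext z
  have hk : (2 * ((m + n : ℕ) : ℤ)) = 2 * (m : ℤ) + 2 * (n : ℤ) := by push_cast; ring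
  simp only [frk, hk, ModularForm.mul_slash_SL2, Pi.mul_apply, pow_add]
  ring

theorem IsPairC.add (h : IsPairC p m A B) (h' : IsPairC p m A' B') :
    IsPairC p m (A + A') (B + B') := by
  obtain ⟨F, h1, h2, h3⟩ := h
  obtain ⟨F', h1', h2', h3'⟩ := h'
  refine ⟨F + F', fun g hg => ?_, h2.add h2', ?_⟩
  · rw [SlashAction.add_slash, h1 g hg, h1' g hg]
  · rw [frk_add]; exact h3.add h3'

theorem IsPairC.smul (c : ℂ) (h : IsPairC p m A B) :
    IsPairC p m (PowerSeries.C c * A) (PowerSeries.C c * B) := by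
  obtain ⟨F, h1, h2, h3⟩ := h
  refine ⟨c • F, fun g hg => ?_, h2.smul c, ?_⟩
  · rw [ModularForm.SL_smul_slash, h1 g hg]
  · rw [frk_smul]; exact h3.smul c

theorem IsPairC.mul (h : IsPairC p m A B) (h' : IsPairC p n A' B') :
    IsPairC p (m + n) (A * A') (B * B') := by
  obtain ⟨F, h1, h2, h3⟩ := h
  obtain ⟨F', h1', h2', h3'⟩ := h'
  have hk : (2 * ((m + n : ℕ) : ℤ)) = 2 * (m : ℤ) + 2 * (n : ℤ) := by push_cast; ring
  refine ⟨F * F', fun g hg => ?_, h2.mul h2', ?_⟩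
  · rw [hk, ModularForm.mul_slash_SL2, h1 g hg, h1' g hg]
  · rw [frk_mul]; exact h3.mul h3'

/-- **P5** a level one form `Φ` of weight `2m`: `Φ|W_p = p^m V_p Φ`. -/
theorem IsL1C.pairC [Fact p.Prime] (h : IsL1C (2 * m) A) :
    IsPairC p m A (PowerSeries.C ((p : ℂ) ^ m) * Vp p A) := by
  obtain ⟨a, h1, h2⟩ := h
  refine ⟨a, fun g _ => h1.inv g, h2, ?_⟩
  have : frk p m a = ((p : ℂ) ^ m) • (fun τ => a (heckeDiagMatrix p • τ)) := by
    funext z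
    simp only [frk, h1.inv, Pi.smul_apply, smul_eq_mul]
  rw [this]
  exact (h2.vp (Fact.out : p.Prime).ne_zero).smul _

theorem PairAn.denom_SL (γ : SL(2, ℤ)) (τ : ℍ) :
    denom (γ : GL (Fin 2) ℝ) τ = (γ 1 0 : ℂ) * τ + (γ 1 1 : ℂ) := by
  simp [denom]

theorem PairAn.slash_T_pow_apply (k : ℤ) (f : ℍ → ℂ) (j : ℕ) (τ : ℍ) :
    (f ∣[k] (ModularGroup.T ^ j : SL(2, ℤ))) τ = f ((ModularGroup.T ^ j : SL(2, ℤ)) • τ) := by
  rw [ModularForm.SL_slash_apply, PairAn.denom_SL, ← zpow_natCast, ModularGroup.coe_T_zpow]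
  simp


theorem PairAn.diag_smul_heckeMatrix_smul {p : ℕ} (hp : p ≠ 0) (j : ℕ) (τ : ℍ) :
    heckeDiagMatrix p • heckeMatrix p j • τ = (ModularGroup.T ^ j : SL(2, ℤ)) • τ := by
  apply UpperHalfPlane.ext
  have hp' : (p : ℂ) ≠ 0 := by exact_mod_cast hp
  rw [coe_heckeDiagMatrix_smul hp, coe_heckeMatrix_smul hp, ← zpow_natCast,
    ModularGroup.coe_T_zpow_smul_eq]
  field_simp
  simp

/-- the coset representatives -/
noncomputable def PairAn.cosetRep (p : ℕ) : Option (Fin p) → SL(2, ℤ) ⧸ Gamma0 p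
  | none => ((1 : SL(2, ℤ)) : SL(2, ℤ) ⧸ Gamma0 p)
  | some j => (((ModularGroup.S * ModularGroup.T ^ (j : ℕ))⁻¹ : SL(2, ℤ)) : SL(2, ℤ) ⧸ Gamma0 p)

theorem PairAn.S_mul_T_pow_inv (j : ℕ) :
    (((ModularGroup.S * ModularGroup.T ^ j)⁻¹ : SL(2, ℤ)) : Matrix (Fin 2) (Fin 2) ℤ) =
      !![(j : ℤ), 1; -1, 0] := by
  rw [Matrix.SpecialLinearGroup.coe_inv, Matrix.SpecialLinearGroup.coe_mul, ← zpow_natCast,
    ModularGroup.coe_T_zpow, ModularGroup.coe_S]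
  simp [Matrix.adjugate_fin_two]

theorem PairAn.repr_surjective (p : ℕ) [Fact p.Prime] : Function.Surjective (PairAn.cosetRep p) := by
  intro x
  induction x using QuotientGroup.induction_on with
  | H g =>
    by_cases hc : (p : ℤ) ∣ g 1 0
    · refine ⟨none, ?_⟩
      rw [PairAn.cosetRep, mk_eq_mk_iff]
      simpa using hc
    · -- choose `j` with `g00 + j g10 ≡ 0`
      have hc' : ((g 1 0 : ℤ) : ZMod p) ≠ 0 := by
        rwa [Ne, ZMod.intCast_zmod_eq_zero_iff_dvd]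
      set t : ZMod p := -((g 0 0 : ℤ) : ZMod p) / ((g 1 0 : ℤ) : ZMod p) with ht
      refine ⟨some ⟨t.val, ZMod.val_lt t⟩, ?_⟩
      rw [PairAn.cosetRep, mk_eq_mk_iff]
      have e0 : ((ModularGroup.S * ModularGroup.T ^ t.val)⁻¹ : SL(2, ℤ)) 0 0 = (t.val : ℤ) := by
        have := congrFun (congrFun (PairAn.S_mul_T_pow_inv t.val) 0) 0
        simpa using this
      have e1 : ((ModularGroup.S * ModularGroup.T ^ t.val)⁻¹ : SL(2, ℤ)) 1 0 = -1 := by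
        have := congrFun (congrFun (PairAn.S_mul_T_pow_inv t.val) 1) 0
        simpa using this
      rw [e0, e1, ← ZMod.intCast_zmod_eq_zero_iff_dvd]
      push_cast
      rw [ZMod.natCast_zmod_val, ht]
      field_simp
      ring


theorem PairAn.card_quot (p : ℕ) [Fact p.Prime] : Nat.card (SL(2, ℤ) ⧸ Gamma0 p) = p + 1 := by
  have hp : p.Prime := Fact.out
  have h := index_Gamma0_mul_prime 1 p hp
  have h1 : Gamma0 1 = ⊤ := by
    ext γ
    simp [Gamma0_mem, eq_iff_true_of_subsingleton]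
  rw [one_mul, h1, Subgroup.index_top, mul_one, if_neg (by simpa using hp.one_lt.ne')] at h
  exact h

theorem PairAn.repr_bijective (p : ℕ) [Fact p.Prime] : Function.Bijective (PairAn.cosetRep p) :=
  (PairAn.repr_surjective p).bijective_of_nat_card_le (by rw [PairAn.card_quot]; simp)

theorem PairAn.finite_quot (p : ℕ) [Fact p.Prime] : Finite (SL(2, ℤ) ⧸ Gamma0 p) :=
  Nat.finite_of_card_ne_zero (by rw [PairAn.card_quot]; omega)

/-- (local) `Fintype` structure on the coset space -/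
@[instance_reducible] noncomputable def PairAn.fintypeQuot (p : ℕ) [Fact p.Prime] : Fintype (SL(2, ℤ) ⧸ Gamma0 p) :=
  haveI := PairAn.finite_quot p
  Fintype.ofFinite _

attribute [local instance] PairAn.fintypeQuot

theorem PairAn.sum_liftFun [Fact p.Prime] {k : ℤ} {F : ℍ → ℂ} (hF : ∀ g ∈ Gamma0 p, F ∣[k] g = F) :
    ∑ x : SL(2, ℤ) ⧸ Gamma0 p, liftFun (Gamma0 p) k F x =
      F + ∑ j ∈ Finset.range p, (F ∣[k] ModularGroup.S) ∣[k] (ModularGroup.T ^ j) := by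
  rw [← (Equiv.ofBijective _ (PairAn.repr_bijective p)).sum_comp, Fintype.sum_option]
  congr 1
  · simp only [Equiv.ofBijective_apply, PairAn.cosetRep]
    rw [liftFun_mk hF]
    simp
  · rw [Finset.sum_range]
    refine Finset.sum_congr rfl fun j _ => ?_
    simp only [Equiv.ofBijective_apply, PairAn.cosetRep]
    rw [liftFun_mk hF, inv_inv, SlashAction.slash_mul]

theorem PairAn.sum_liftFun_slash [Fact p.Prime] {k : ℤ} {F : ℍ → ℂ} (hF : ∀ g ∈ Gamma0 p, F ∣[k] g = F)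
    (γ : SL(2, ℤ)) :
    (∑ x : SL(2, ℤ) ⧸ Gamma0 p, liftFun (Gamma0 p) k F x) ∣[k] γ =
      ∑ x : SL(2, ℤ) ⧸ Gamma0 p, liftFun (Gamma0 p) k F x := by
  rw [SlashAction.sum_slash]
  simp only [liftFun_equiv hF]
  exact Equiv.sum_comp (MulAction.toPerm γ⁻¹ : Equiv.Perm (SL(2, ℤ) ⧸ Gamma0 p))
    (fun x => liftFun (Gamma0 p) k F x)


/-- **P6 (TR)** `p^m Tr(F) = p^m F + ∑_j (F|W)((τ+j)/p)` is a level one form. -/
theorem IsPairC.trace [Fact p.Prime] (h : IsPairC p m A B) :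
    IsL1C (2 * m) (PowerSeries.C ((p : ℂ) ^ m) * A + PowerSeries.C (p : ℂ) * Up p B) := by
  obtain ⟨F, h1, h2, h3⟩ := h
  have hp : p ≠ 0 := (Fact.out : p.Prime).ne_zero
  set g : ℍ → ℂ := ((p : ℂ) ^ m) • F +
    fun τ => ∑ j ∈ Finset.range p, frk p m F (heckeMatrix p j • τ) with hg
  have hQ : HasQ g (PowerSeries.C ((p : ℂ) ^ m) * A + PowerSeries.C (p : ℂ) * Up p B) :=
    (h2.smul _).add (h3.up hp)
  have hg' : g = ((p : ℂ) ^ m) •
      ∑ x : SL(2, ℤ) ⧸ Gamma0 p, liftFun (Gamma0 p) (2 * m) F x := by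
    rw [PairAn.sum_liftFun h1, hg, smul_add]
    congr 1
    funext τ
    simp only [frk, Pi.smul_apply, Finset.sum_apply, smul_eq_mul, Finset.mul_sum]
    refine Finset.sum_congr rfl fun j _ => ?_
    rw [PairAn.diag_smul_heckeMatrix_smul hp, PairAn.slash_T_pow_apply]
  refine ⟨g, ⟨hQ.mdiff, fun γ => ?_, hQ.bdd⟩, hQ⟩
  rw [hg', ModularForm.SL_smul_slash, PairAn.sum_liftFun_slash h1]


/-- the conjugate of `γ ∈ Γ₀(p)` by the Fricke matrix -/
def PairAn.frkConj (p : ℕ) (γ : SL(2, ℤ)) (c' : ℤ) (hc : γ 1 0 = p * c') : SL(2, ℤ) :=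
  ⟨!![γ 1 1, -c'; -(p * γ 0 1), γ 0 0], by
    have := γ.det_coe
    rw [Matrix.det_fin_two] at this
    rw [Matrix.det_fin_two_of]
    rw [hc] at this
    linear_combination this⟩

theorem PairAn.frkConj_mem (p : ℕ) (γ : SL(2, ℤ)) (c' : ℤ) (hc : γ 1 0 = p * c') :
    PairAn.frkConj p γ c' hc ∈ Gamma0 p := by
  rw [Gamma0_mem]
  simp [PairAn.frkConj]

theorem PairAn.frk_matrix_comm {p : ℕ} (hp : p ≠ 0) (γ : SL(2, ℤ)) (c' : ℤ) (hc : γ 1 0 = p * c') :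
    ((ModularGroup.S : SL(2, ℤ)) : GL (Fin 2) ℝ) * heckeDiagMatrix p * (γ : GL (Fin 2) ℝ) =
      (PairAn.frkConj p γ c' hc : GL (Fin 2) ℝ) * (((ModularGroup.S : SL(2, ℤ)) : GL (Fin 2) ℝ) *
        heckeDiagMatrix p) := by
  apply Units.ext
  have hc' : ((γ 1 0 : ℤ) : ℝ) = p * c' := by rw [hc]; push_cast; ring
  have hS : (((ModularGroup.S : SL(2, ℤ)) : GL (Fin 2) ℝ) : Matrix (Fin 2) (Fin 2) ℝ) =
      !![0, -1; 1, 0] := by
    ext i j
    fin_cases i <;> fin_cases j <;> simp [ModularGroup.coe_S]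
  have hγ : ∀ γ : SL(2, ℤ), ((γ : GL (Fin 2) ℝ) : Matrix (Fin 2) (Fin 2) ℝ) =
      !![((γ 0 0 : ℤ) : ℝ), ((γ 0 1 : ℤ) : ℝ); ((γ 1 0 : ℤ) : ℝ), ((γ 1 1 : ℤ) : ℝ)] := by
    intro γ
    ext i j
    fin_cases i <;> fin_cases j <;> simp
  have hγ' : ((PairAn.frkConj p γ c' hc : GL (Fin 2) ℝ) : Matrix (Fin 2) (Fin 2) ℝ) =
      !![((γ 1 1 : ℤ) : ℝ), -(c' : ℝ); -((p : ℝ) * ((γ 0 1 : ℤ) : ℝ)), ((γ 0 0 : ℤ) : ℝ)] := by
    rw [hγ]
    have e00 : (PairAn.frkConj p γ c' hc) 0 0 = γ 1 1 := rfl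
    have e01 : (PairAn.frkConj p γ c' hc) 0 1 = -c' := rfl
    have e10 : (PairAn.frkConj p γ c' hc) 1 0 = -(p * γ 0 1) := rfl
    have e11 : (PairAn.frkConj p γ c' hc) 1 1 = γ 0 0 := rfl
    rw [e00, e01, e10, e11]
    push_cast
    rfl
  rw [Units.val_mul, Units.val_mul, Units.val_mul, Units.val_mul, hS, hγ γ, hγ',
    val_heckeDiagMatrix hp, hc']
  ext i j
  fin_cases i <;> fin_cases j <;> simp [Matrix.mul_apply, Fin.sum_univ_two] <;> ring

theorem frk_eq {p : ℕ} (hp : p ≠ 0) (m : ℕ) (F : ℍ → ℂ) :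
    frk p m F = ((p : ℂ) ^ m * ((p : ℂ) ^ ((2 * m : ℤ) - 1))⁻¹) •
      (F ∣[(2 * m : ℤ)] (((ModularGroup.S : SL(2, ℤ)) : GL (Fin 2) ℝ) * heckeDiagMatrix p)) := by
  funext z
  have hp' : (p : ℂ) ≠ 0 := by exact_mod_cast hp
  rw [Pi.smul_apply, SlashAction.slash_mul, slash_heckeDiagMatrix_apply _ hp, frk, smul_eq_mul,
    ← ModularForm.SL_slash]
  have : (p : ℂ) ^ ((2 * m : ℤ) - 1) ≠ 0 := zpow_ne_zero _ hp'
  field_simp

theorem frk_slash {p : ℕ} (hp : p ≠ 0) (m : ℕ) {F : ℍ → ℂ}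
    (hF : ∀ g : SL(2, ℤ), g ∈ Gamma0 p → F ∣[(2 * m : ℤ)] g = F) (g : SL(2, ℤ))
    (hg : g ∈ Gamma0 p) : frk p m F ∣[(2 * m : ℤ)] g = frk p m F := by
  obtain ⟨c', hc⟩ : (p : ℤ) ∣ g 1 0 := by
    rwa [Gamma0_mem, ZMod.intCast_zmod_eq_zero_iff_dvd] at hg
  rw [frk_eq hp, ModularForm.SL_smul_slash, ModularForm.SL_slash, ← SlashAction.slash_mul,
    PairAn.frk_matrix_comm hp g c' hc, SlashAction.slash_mul, ← ModularForm.SL_slash,
    hF _ (PairAn.frkConj_mem p g c' hc)]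


theorem PairAn.coe_S_smul (z : ℍ) : ((ModularGroup.S • z : ℍ) : ℂ) = (-(z : ℂ))⁻¹ := by
  rw [UpperHalfPlane.modular_S_smul]

theorem frk_apply {p : ℕ} (hp : p ≠ 0) (m : ℕ) (F : ℍ → ℂ) (z : ℍ) :
    frk p m F z = (p : ℂ) ^ m *
      (F (ModularGroup.S • heckeDiagMatrix p • z) * ((p : ℂ) * z) ^ (-(2 * m : ℤ))) := by
  rw [frk, ModularForm.SL_slash_apply, PairAn.denom_SL, coe_heckeDiagMatrix_smul hp]
  simp [ModularGroup.coe_S]

theorem frk_frk {p : ℕ} (hp : p ≠ 0) (m : ℕ) (F : ℍ → ℂ) : frk p m (frk p m F) = F := by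
  funext z
  have hp' : (p : ℂ) ≠ 0 := by exact_mod_cast hp
  have hz : (z : ℂ) ≠ 0 := z.ne_zero
  have hpt : ModularGroup.S • heckeDiagMatrix p • ModularGroup.S • heckeDiagMatrix p • z = z := by
    apply UpperHalfPlane.ext
    rw [PairAn.coe_S_smul, coe_heckeDiagMatrix_smul hp, PairAn.coe_S_smul, coe_heckeDiagMatrix_smul hp]
    field_simp
  rw [frk_apply hp, frk_apply hp, hpt, PairAn.coe_S_smul, coe_heckeDiagMatrix_smul hp]
  have h1 : ((p : ℂ) * (-((p : ℂ) * z))⁻¹) ^ (-(2 * m : ℤ)) * ((p : ℂ) * z) ^ (-(2 * m : ℤ)) =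
      ((p : ℂ) ^ m * (p : ℂ) ^ m)⁻¹ := by
    rw [← mul_zpow]
    have : (p : ℂ) * (-((p : ℂ) * z))⁻¹ * ((p : ℂ) * z) = -(p : ℂ) := by
      field_simp
    rw [this, zpow_neg, zpow_mul, zpow_natCast]
    congr 1
    rw [← mul_pow]
    congr 1
    norm_num
    ring
  have h2 : (p : ℂ) ^ m ≠ 0 := pow_ne_zero _ hp'
  calc _ = F z * ((p : ℂ) ^ m * (p : ℂ) ^ m) *
        (((p : ℂ) * (-((p : ℂ) * z))⁻¹) ^ (-(2 * m : ℤ)) * ((p : ℂ) * z) ^ (-(2 * m : ℤ))) := by ring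
    _ = F z := by rw [h1]; field_simp


/-- **P4** the Fricke involution: `(F|W)|W = F` (even weight). -/
theorem IsPairC.swap [Fact p.Prime] (h : IsPairC p m A B) : IsPairC p m B A := by
  obtain ⟨F, h1, h2, h3⟩ := h
  have hp : p ≠ 0 := (Fact.out : p.Prime).ne_zero
  refine ⟨frk p m F, frk_slash hp m h1, h3, ?_⟩
  rw [frk_frk hp]
  exact h2

end Fermat.Agent.S16lib
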