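import Fermat.Agent.S16.PairAn
import Fermat.Agent.S16.L1
import Fermat.Agent.S20.Transfer
import Fermat.Prelude.Def_FLTPrelim_Modularity

/-!
# S16 (UP), task AN4: the two sources of pairs of weight 2:
the Eisenstein series `p E₂(pz) - E₂(z)` (**P9**) and cusp forms (**P10**)
-/

set_option autoImplicit false

open UpperHalfPlane ModularForm MatrixGroups CongruenceSubgroup
open scoped Manifold

namespace Fermat.Agent.S16lib

open Fermat.Agent.S20lib

variable {p : ℕ}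

/-- weight 2: `F|W = -U_p F` (complex version; from `IsPairC.swap`, `IsPairC.trace`,
`IsL1C.eq_zero_of_two`). -/
theorem IsPairC.snd_eq [Fact p.Prime] {A B : PowerSeries ℂ} (h : IsPairC p 1 A B) :
    B = -(Up p A) := by
  have h1 := h.swap.trace
  have h2 : IsL1C 2 (PowerSeries.C ((p : ℂ) ^ 1) * B + PowerSeries.C (p : ℂ) * Up p A) := by
    simpa using h1
  have h3 := h2.eq_zero_of_two
  have hp : (p : ℂ) ≠ 0 := by exact_mod_cast (Fact.out : p.Prime).ne_zero
  have hC : PowerSeries.C (p : ℂ) ≠ 0 := by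
    intro h0
    apply hp
    have := congrArg (PowerSeries.coeff 0) h0
    simpa using this
  rw [pow_one, ← mul_add] at h3
  have h4 := (mul_eq_zero.mp h3).resolve_left hC
  exact eq_neg_of_add_eq_zero_left h4

/-- the `q`-expansion of `E₂` -/
noncomputable def E2ser : PowerSeries ℂ :=
  PowerSeries.mk fun m : ℕ => if m = 0 then 1 else -24 * (ArithmeticFunction.sigma 1 m : ℂ)

theorem hasQ_E2 : HasQ EisensteinSeries.E2 E2ser := by
  intro τ
  simpa only [Function.Periodic.qParam, Complex.ofReal_one, div_one, E2ser,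
    PowerSeries.coeff_mk] using EisensteinSeries.hasSum_qExpansion_E2 (z := τ)

theorem sigma_one_eq_sigmaP (hp : p.Prime) (n : ℕ) :
    ArithmeticFunction.sigma 1 n
      = sigmaP p n + if p ∣ n then p * ArithmeticFunction.sigma 1 (n / p) else 0 := by
  rw [ArithmeticFunction.sigma_one_apply, sigmaP,
    ← Finset.sum_filter_not_add_sum_filter n.divisors (fun d => p ∣ d)]
  congr 1
  split_ifs with h
  · obtain ⟨m, rfl⟩ := h
    rw [Nat.mul_div_cancel_left _ hp.pos, ArithmeticFunction.sigma_one_apply, Finset.mul_sum]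
    rcases Nat.eq_zero_or_pos m with rfl | hm
    · simp
    symm
    apply Finset.sum_bij (fun d _ => p * d)
    · intro d hd
      rw [Nat.mem_divisors] at hd
      rw [Finset.mem_filter, Nat.mem_divisors]
      exact ⟨⟨Nat.mul_dvd_mul_left p hd.1, Nat.mul_ne_zero hp.ne_zero hd.2⟩, Dvd.intro _ rfl⟩
    · intro a _ b _ hab
      exact Nat.eq_of_mul_eq_mul_left hp.pos hab
    · intro d hd
      rw [Finset.mem_filter, Nat.mem_divisors] at hd
      obtain ⟨⟨hd1, hd2⟩, e, rfl⟩ := hd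
      refine ⟨e, ?_, rfl⟩
      rw [Nat.mem_divisors]
      exact ⟨(Nat.mul_dvd_mul_iff_left hp.pos).mp hd1, hm.ne'⟩
    · intro _ _; rfl
  · apply Finset.sum_eq_zero
    intro d hd
    rw [Finset.mem_filter, Nat.mem_divisors] at hd
    exact absurd (hd.2.trans hd.1.1) h

theorem toC_eisP (hp : p.Prime) :
    toC (eisP p) = PowerSeries.C (p : ℂ) * Vp p E2ser - E2ser := by
  ext n
  simp only [toC, eisP, PowerSeries.coeff_map, PowerSeries.coeff_mk, map_sub,
    PowerSeries.coeff_C_mul, Vp, E2ser]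
  rcases Nat.eq_zero_or_pos n with rfl | hn
  · simp
  have hn0 : n ≠ 0 := hn.ne'
  have key := sigma_one_eq_sigmaP hp n
  rw [if_neg hn0, if_neg hn0]
  by_cases h : p ∣ n
  · have h2 : n / p ≠ 0 := by
      obtain ⟨m, rfl⟩ := h
      rw [Nat.mul_div_cancel_left _ hp.pos]
      rintro rfl
      simp at hn0
    rw [if_pos h, if_neg h2]
    rw [if_pos h] at key
    rw [key]
    simp only [eq_intCast]
    push_cast
    ring
  · rw [if_neg h]
    rw [if_neg h] at key
    rw [key]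
    simp only [eq_intCast]
    push_cast
    ring

theorem hasQ_eisFun (hp : p.Prime) : HasQ (eisFun p) (toC (eisP p)) := by
  rw [toC_eisP hp]
  exact ((hasQ_E2.vp hp.ne_zero).smul (p : ℂ)).sub hasQ_E2

theorem E2_smul (g : SL(2, ℤ)) (z : ℍ) :
    EisensteinSeries.E2 (g • z) = denom g z ^ 2 * EisensteinSeries.E2 z
      - (1 / (2 * riemannZeta 2)) * (2 * Real.pi * Complex.I * (g 1 0 : ℂ)) * denom g z := by
  have h := congrFun (EisensteinSeries.E2_slash_action g) z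
  rw [SL_slash_apply] at h
  simp only [Pi.sub_apply, Pi.smul_apply, EisensteinSeries.D2, smul_eq_mul] at h
  have hd : denom g z ≠ 0 := denom_ne_zero _ z
  rw [zpow_neg, zpow_ofNat] at h
  field_simp at h
  field_simp
  linear_combination h

/-- conjugate of `g ∈ Γ₀(p)` by `diag(p,1)` -/
theorem exists_conj_diag (hp : p ≠ 0) (g : SL(2, ℤ)) (hg : g ∈ Gamma0 p) :
    ∃ g' : SL(2, ℤ), (g 1 0 = p * g' 1 0) ∧ ∀ z : ℍ,
      heckeDiagMatrix p • (g • z) = g' • (heckeDiagMatrix p • z) ∧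
      denom g' ((heckeDiagMatrix p • z : ℍ) : ℂ) = denom g z := by
  rw [Gamma0_mem] at hg
  obtain ⟨c, hc⟩ : (p : ℤ) ∣ g 1 0 := (ZMod.intCast_zmod_eq_zero_iff_dvd _ _).mp hg
  have hdet : g 0 0 * g 1 1 - g 0 1 * g 1 0 = 1 := by
    have := g.det_coe
    rwa [Matrix.det_fin_two] at this
  obtain ⟨g', h00, h01, h10, h11⟩ : ∃ g' : SL(2, ℤ), g' 0 0 = g 0 0 ∧ g' 0 1 = p * g 0 1 ∧
      g' 1 0 = c ∧ g' 1 1 = g 1 1 := by
    refine ⟨⟨!![g 0 0, p * g 0 1; c, g 1 1], ?_⟩, ?_⟩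
    · rw [Matrix.det_fin_two_of]
      rw [hc] at hdet
      linear_combination hdet
    · simp
  refine ⟨g', by rw [h10, hc], fun z => ?_⟩
  have hden : denom g' ((heckeDiagMatrix p • z : ℍ) : ℂ) = denom g z := by
    rw [ModularGroup.denom_apply, ModularGroup.denom_apply, coe_heckeDiagMatrix_smul hp, hc,
      h10, h11]
    push_cast
    ring
  refine ⟨?_, hden⟩
  apply UpperHalfPlane.ext
  have h1 := denom_ne_zero g z
  have h2 := denom_ne_zero g' (heckeDiagMatrix p • z : ℍ)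
  rw [coe_heckeDiagMatrix_smul hp, UpperHalfPlane.coe_specialLinearGroup_apply,
    UpperHalfPlane.coe_specialLinearGroup_apply, coe_heckeDiagMatrix_smul hp]
  rw [ModularGroup.denom_apply] at h1 h2
  rw [coe_heckeDiagMatrix_smul hp] at h2
  simp only [algebraMap_int_eq, eq_intCast, Complex.ofReal_intCast]
  rw [h00, h01, h10, h11] 
  rw [h10, h11] at h2
  rw [hc] at h1 ⊢
  push_cast at h1 h2 ⊢
  field_simp

theorem eisFun_slash (hp : p ≠ 0) (g : SL(2, ℤ)) (hg : g ∈ Gamma0 p) :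
    eisFun p ∣[(2 : ℤ)] g = eisFun p := by
  obtain ⟨g', hc, hg'⟩ := exists_conj_diag hp g hg
  ext z
  obtain ⟨h1, h2⟩ := hg' z
  have hd : denom g z ≠ 0 := denom_ne_zero _ z
  rw [SL_slash_apply, eisFun, eisFun, h1, E2_smul, E2_smul, h2, hc, zpow_neg, zpow_ofNat]
  push_cast
  field_simp
  ring

theorem S_smul_diag (hp : p ≠ 0) (z : ℍ) :
    heckeDiagMatrix p • (ModularGroup.S • (heckeDiagMatrix p • z)) = ModularGroup.S • z := by
  apply UpperHalfPlane.ext
  have hpc : (p : ℂ) ≠ 0 := by exact_mod_cast hp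
  have hz : (z : ℂ) ≠ 0 := ne_zero z
  rw [coe_heckeDiagMatrix_smul hp, UpperHalfPlane.modular_S_smul, UpperHalfPlane.modular_S_smul]
  simp only [coe_heckeDiagMatrix_smul hp]
  field_simp

theorem frk_eisFun (hp : p ≠ 0) : frk p 1 (eisFun p) = -eisFun p := by
  ext z
  have hpc : (p : ℂ) ≠ 0 := by exact_mod_cast hp
  have hz : (z : ℂ) ≠ 0 := ne_zero z
  have h2 : ((2 * (1 : ℕ) : ℤ)) = 2 := by norm_num
  rw [frk, h2, SL_slash_apply, Pi.neg_apply]
  rw [eisFun, S_smul_diag hp, E2_smul, E2_smul, ModularGroup.denom_S, ModularGroup.denom_S,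
    coe_heckeDiagMatrix_smul hp, eisFun, zpow_neg, zpow_ofNat]
  simp only [ModularGroup.S]
  field_simp
  simp
  ring

theorem frk_eq_smul (hp : p ≠ 0) (m : ℕ) (F : ℍ → ℂ) :
    frk p m F = ((p : ℂ) ^ m * ((p : ℂ) ^ ((2 * m : ℤ) - 1))⁻¹) •
      ((F ∣[(2 * m : ℤ)] ModularGroup.S) ∣[(2 * m : ℤ)] heckeDiagMatrix p) := by
  ext z
  have hpc : (p : ℂ) ≠ 0 := by exact_mod_cast hp
  rw [Pi.smul_apply, slash_heckeDiagMatrix_apply _ hp, frk, smul_eq_mul]
  have : (p : ℂ) ^ ((2 * m : ℤ) - 1) ≠ 0 := zpow_ne_zero _ hpc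
  field_simp

theorem heckeDiagMatrix_one_zero' (p : ℕ) :
    ((heckeDiagMatrix p : GL (Fin 2) ℝ) : Matrix (Fin 2) (Fin 2) ℝ) 1 0 = 0 := by
  rcases eq_or_ne p 0 with rfl | hp
  · simp
  · rw [val_heckeDiagMatrix hp]; rfl

theorem S_T_pow_S_inv_mem (p : ℕ) :
    ModularGroup.S * ModularGroup.T ^ p * ModularGroup.S⁻¹ ∈ Gamma0 p := by
  rw [Gamma0_mem]
  have : ((ModularGroup.S * ModularGroup.T ^ p * ModularGroup.S⁻¹ : SL(2, ℤ)) 1 0 : ℤ) = -p := by
    rw [← zpow_natCast, Matrix.SpecialLinearGroup.coe_mul, Matrix.SpecialLinearGroup.coe_mul,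
      ModularGroup.coe_T_zpow, Matrix.SpecialLinearGroup.coe_inv, ModularGroup.coe_S,
      Matrix.adjugate_fin_two_of, Matrix.mul_apply, Fin.sum_univ_two, Matrix.mul_apply,
      Matrix.mul_apply, Fin.sum_univ_two, Fin.sum_univ_two]
    simp
  rw [this]
  simp

theorem slash_S_T_pow {k : ℤ} {F : ℍ → ℂ} (hinv : ∀ g : SL(2, ℤ), g ∈ Gamma0 p → F ∣[k] g = F) :
    (F ∣[k] ModularGroup.S) ∣[k] (ModularGroup.T ^ p) = F ∣[k] ModularGroup.S := by
  conv_rhs => rw [← hinv _ (S_T_pow_S_inv_mem p)]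
  rw [← SlashAction.slash_mul, ← SlashAction.slash_mul]
  congr 1
  group

theorem frk_periodic (hp : p ≠ 0) {m : ℕ} {F : ℍ → ℂ}
    (hinv : ∀ g : SL(2, ℤ), g ∈ Gamma0 p → F ∣[(2 * m : ℤ)] g = F) (τ : ℍ) :
    frk p m F ((1 : ℝ) +ᵥ τ) = frk p m F τ := by
  have h1 : heckeDiagMatrix p • ((1 : ℝ) +ᵥ τ) = ModularGroup.T ^ p • (heckeDiagMatrix p • τ) := by
    apply UpperHalfPlane.ext
    rw [coe_heckeDiagMatrix_smul hp, ← zpow_natCast, UpperHalfPlane.modular_T_zpow_smul,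
      UpperHalfPlane.coe_vadd, UpperHalfPlane.coe_vadd, coe_heckeDiagMatrix_smul hp]
    push_cast
    ring
  rw [frk, frk, h1]
  congr 1
  have h2 := congrFun (slash_S_T_pow hinv) (heckeDiagMatrix p • τ)
  rw [SL_slash_apply] at h2
  rw [← h2, ← zpow_natCast, ModularGroup.denom_apply, ModularGroup.coe_T_zpow]
  simp

theorem hasQ_frk (hp : p ≠ 0) {m : ℕ} {F : ℍ → ℂ} (hF : MDiff F)
    (hinv : ∀ g : SL(2, ℤ), g ∈ Gamma0 p → F ∣[(2 * m : ℤ)] g = F)
    (hb : IsBoundedAtImInfty (F ∣[(2 * m : ℤ)] ModularGroup.S)) :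
    HasQ (frk p m F) (qExpansion 1 (frk p m F)) := by
  refine hasQ_qExpansion ?_ (frk_periodic hp hinv) ?_
  · rw [frk_eq_smul hp]
    exact ((hF.slash _ _).slash _ _).const_smul _
  · rw [frk_eq_smul hp]
    exact (hb.slash _ (heckeDiagMatrix_one_zero' p)).const_smul_left _

/-- **P9** `F = p E₂(pz) - E₂(z)` is a form of weight 2 on `Γ₀(p)` with `F|W = -F`. -/
theorem isPair_eisP [Fact p.Prime] : IsPair p 1 (eisP p) (-(eisP p)) := by
  have hp := (Fact.out : p.Prime)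
  refine ⟨eisFun p, ?_, hasQ_eisFun hp, ?_⟩
  · intro g hg
    have h2 : ((2 * (1 : ℕ) : ℤ)) = 2 := by norm_num
    rw [h2]
    exact eisFun_slash hp.ne_zero g hg
  · rw [frk_eisFun hp.ne_zero]
    have : toC (-(eisP p)) = -toC (eisP p) := map_neg _ _
    rw [this]
    exact (hasQ_eisFun hp).neg

theorem toC_neg_Up (p : ℕ) (A : PowerSeries ℤ) : toC (-(Up p A)) = -(Up p (toC A)) := by
  ext n
  simp [toC, Up]

/-- **P10** cusp forms of weight 2 on `Γ₀(p)` with integral `q`-expansion. -/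
theorem isPair_of_cuspForm [Fact p.Prime] (f : CuspForm (Gamma0 p) 2) (A : PowerSeries ℤ)
    (hA : ∀ n, ModularFormClass.qCoeff f n = ((PowerSeries.coeff n A : ℤ) : ℂ)) :
    IsPair p 1 A (-(Up p A)) := by
  have hp := (Fact.out : p.Prime)
  have h2 : ((2 * (1 : ℕ) : ℤ)) = 2 := by norm_num
  have hinv : ∀ g : SL(2, ℤ), g ∈ Gamma0 p → (f : ℍ → ℂ) ∣[(2 * (1 : ℕ) : ℤ)] g = f := by
    rw [h2]
    exact slash_eq_of_mem f
  have hper : ∀ τ : ℍ, f ((1 : ℝ) +ᵥ τ) = f τ := by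
    intro τ
    have hT : ModularGroup.T ∈ Gamma0 p := by
      rw [Gamma0_mem]
      simp [ModularGroup.T]
    have h3 := congrFun (hinv _ hT) τ
    rw [SL_slash_apply, ModularGroup.denom_apply, UpperHalfPlane.modular_T_smul] at h3
    simpa [ModularGroup.T] using h3
  have hb : IsBoundedAtImInfty (f : ℍ → ℂ) := by
    have := (CuspFormClass.zero_at_infty_slash f (1 : SL(2, ℤ))).isBoundedAtImInfty
    simpa using this
  have hQ : HasQ f (qExpansion 1 f) := hasQ_qExpansion (CuspFormClass.holo f) hper hb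
  have hAeq : toC A = qExpansion 1 f := by
    ext n
    have := hA n
    rw [ModularFormClass.qCoeff] at this
    rw [this]
    simp [toC]
  have hbS : IsBoundedAtImInfty ((f : ℍ → ℂ) ∣[(2 * (1 : ℕ) : ℤ)] ModularGroup.S) := by
    rw [h2]
    exact (CuspFormClass.zero_at_infty_slash f ModularGroup.S).isBoundedAtImInfty
  have hpair : IsPairC p 1 (toC A) (qExpansion 1 (frk p 1 f)) :=
    ⟨f, hinv, hAeq ▸ hQ, hasQ_frk hp.ne_zero (CuspFormClass.holo f) hinv hbS⟩
  have h4 := hpair.snd_eq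
  rw [IsPair, toC_neg_Up, ← h4]
  exact hpair

end Fermat.Agent.S16lib
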