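import Fermat.Agent.S16.UpVp
import Fermat.Agent.S16.PairEis

/-!
# S16 (UP), task FO1: the pair calculus over `ℤ` (wrappers around `PairAn.lean`, `L1.lean`)
-/

set_option autoImplicit false

namespace Fermat.Agent.S16lib

open PowerSeries

variable {p m n : ℕ} {A B A' B' : PowerSeries ℤ}

theorem IsPair.add (h : IsPair p m A B) (h' : IsPair p m A' B') :
    IsPair p m (A + A') (B + B') := by
  unfold IsPair at *
  rw [toC, toC, map_add, map_add]
  exact IsPairC.add h h'

theorem IsPair.intCast_mul (c : ℤ) (h : IsPair p m A B) :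
    IsPair p m ((c : PowerSeries ℤ) * A) ((c : PowerSeries ℤ) * B) := by
  unfold IsPair at *
  have h1 : ∀ X : PowerSeries ℤ, toC ((c : PowerSeries ℤ) * X) = C (c : ℂ) * toC X := by
    intro X
    rw [toC, map_mul, ← toC_intCast]
  rw [h1, h1]
  exact IsPairC.smul _ h

theorem IsPair.neg (h : IsPair p m A B) : IsPair p m (-A) (-B) := by
  have := h.intCast_mul (-1)
  simpa using this

theorem IsPair.sub (h : IsPair p m A B) (h' : IsPair p m A' B') :
    IsPair p m (A - A') (B - B') := by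
  rw [sub_eq_add_neg, sub_eq_add_neg]
  exact h.add h'.neg

/-- **P2** division by a nonzero integer -/
theorem IsPair.cancel {c : ℤ} (hc : c ≠ 0)
    (h : IsPair p m ((c : PowerSeries ℤ) * A) ((c : PowerSeries ℤ) * B)) : IsPair p m A B := by
  unfold IsPair at *
  have h1 : ∀ X : PowerSeries ℤ, toC ((c : PowerSeries ℤ) * X) = C (c : ℂ) * toC X := by
    intro X
    rw [toC, map_mul, ← toC_intCast]
  rw [h1, h1] at h
  have h2 := IsPairC.smul ((c : ℂ)⁻¹) h
  have hc' : (c : ℂ) ≠ 0 := by exact_mod_cast hc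
  have h3 : ∀ X : PowerSeries ℂ, C ((c : ℂ)⁻¹) * (C (c : ℂ) * X) = X := by
    intro X
    rw [← mul_assoc, ← map_mul, inv_mul_cancel₀ hc', map_one, one_mul]
  rwa [h3, h3] at h2

/-- **P3** -/
theorem IsPair.mul (h : IsPair p m A B) (h' : IsPair p n A' B') :
    IsPair p (m + n) (A * A') (B * B') := by
  unfold IsPair at *
  rw [toC, toC, map_mul, map_mul]
  exact IsPairC.mul h h'

theorem IsPair.congr_weight (hmn : m = n) (h : IsPair p m A B) : IsPair p n A B := hmn ▸ h

/-- **P4** -/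
theorem IsPair.swap [Fact p.Prime] (h : IsPair p m A B) : IsPair p m B A :=
  IsPairC.swap h

/-- **P5** -/
theorem IsL1.pair [Fact p.Prime] (h : IsL1 (2 * m) A) :
    IsPair p m A ((p : PowerSeries ℤ) ^ m * Vp p A) := by
  unfold IsPair
  have h1 : toC ((p : PowerSeries ℤ) ^ m * Vp p A) = C ((p : ℂ) ^ m) * Vp p (toC A) := by
    rw [toC, map_mul, map_pow, ← toC_Vp, map_pow, ← toC_natCast]
  rw [h1]
  exact IsL1C.pairC h

/-- **P5'** -/
theorem IsL1.pair' [Fact p.Prime] (h : IsL1 (2 * m) A) :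
    IsPair p m ((p : PowerSeries ℤ) ^ m * Vp p A) A :=
  h.pair.swap

theorem isPair_one [Fact p.Prime] : IsPair p 0 1 1 := by
  have h : IsL1 (2 * (0 : ℕ)) 1 := by simpa using isL1_one
  have := h.pair (p := p)
  rwa [pow_zero, one_mul, Vp_one (Fact.out : p.Prime).ne_zero] at this

theorem IsPair.pow [Fact p.Prime] (h : IsPair p m A B) (t : ℕ) :
    IsPair p (t * m) (A ^ t) (B ^ t) := by
  induction t with
  | zero => simpa using isPair_one
  | succ t ih =>
    rw [pow_succ, pow_succ]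
    exact (ih.mul h).congr_weight (by ring)

/-- **P6 (TR)** -/
theorem IsPair.trace [Fact p.Prime] (hm : 1 ≤ m) (h : IsPair p m A B) :
    IsL1 (2 * m) ((p : PowerSeries ℤ) ^ (m - 1) * A + Up p B) := by
  have h1 := IsPairC.trace h
  have hp : ((p : ℕ) : ℤ) ≠ 0 := by exact_mod_cast (Fact.out : p.Prime).ne_zero
  apply IsL1.cancel hp
  unfold IsL1
  have h2 : toC ((((p : ℕ) : ℤ) : PowerSeries ℤ) * ((p : PowerSeries ℤ) ^ (m - 1) * A + Up p B)) =
      C ((p : ℂ) ^ m) * toC A + C (p : ℂ) * Up p (toC B) := by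
    obtain ⟨k, rfl⟩ : ∃ k, m = k + 1 := ⟨m - 1, by omega⟩
    rw [Nat.add_sub_cancel, Int.cast_natCast, mul_add, ← mul_assoc, ← pow_succ', toC, map_add,
      map_mul, map_mul, map_pow, ← toC_Up, map_pow, ← toC_natCast]
  rw [h2]
  exact h1

/-- weight 2: `F|W = -U_p F` -/
theorem IsPair.snd_eq [Fact p.Prime] (h : IsPair p 1 A B) : B = -(Up p A) := by
  have h1 := (h.swap.trace le_rfl)
  have h2 : IsL1 2 ((p : PowerSeries ℤ) ^ (1 - 1) * B + Up p A) := by simpa using h1
  have h3 := h2.eq_zero_of_two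
  rw [Nat.sub_self, pow_zero, one_mul] at h3
  exact eq_neg_of_add_eq_zero_left h3

/-- weight 2: `U_p² = 1` -/
theorem IsPair.Up_Up [Fact p.Prime] (h : IsPair p 1 A B) : Up p (Up p A) = A := by
  have h1 := h.snd_eq
  have h2 := h.swap.snd_eq
  rw [h1, Up_neg, neg_neg] at h2
  exact h2.symm

/-- the Hecke operator `T_q` on level one forms of weight `2m` -/
theorem IsL1.hecke (q : ℕ) [Fact q.Prime] (hm : 1 ≤ m) (h : IsL1 (2 * m) A) :
    IsL1 (2 * m) ((q : PowerSeries ℤ) ^ (2 * m - 1) * Vp q A + Up q A) := by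
  have h1 := (h.pair' (p := q)).trace hm
  rw [← mul_assoc, ← pow_add] at h1
  rwa [show m - 1 + m = 2 * m - 1 by omega] at h1

end Fermat.Agent.S16lib
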