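import Fermat.Statements.S16
import Fermat.Agent.S23lib.QExp
import Fermat.Agent.S23
import Fermat.Agent.S16.Pair

/-!
# S16, part (R): formal reduction

`T/I ≅ ℤ / ev(ker π)`, and the duality `L ≅ Hom(T, ℤ)` turning a congruence
`M ∣ ev(ker π)` into a cusp form congruent to the Eisenstein series modulo `M`.
(helper1)
-/

set_option autoImplicit false
open CuspForm CongruenceSubgroup ModularFormClass Module

namespace Fermat.Agent.S16lib

open Fermat.Agent.S49 Fermat.Agent.S23lib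
open P2MW.S_CuspForm_intLattice_fg.W3WsD

/-- abstract card lemma -/
theorem card_quot_of_surj {A T : Type*} [CommRing A] [CommRing T] (π : A →+* T)
    (hπ : Function.Surjective π) (ev : A →+* ℤ) (n : ℕ)
    (hlow : ∀ Q, π Q = 0 → (n : ℤ) ∣ ev Q) (hup : ∃ Q, π Q = 0 ∧ ev Q = n) :
    Nat.card (T ⧸ Ideal.map π (RingHom.ker ev)) = n := by
  set I := Ideal.map π (RingHom.ker ev) with hI
  let φ : ℤ →+* T ⧸ I := Int.castRingHom _
  have hφs : Function.Surjective φ := by
    intro x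
    obtain ⟨t, rfl⟩ := Ideal.Quotient.mk_surjective x
    obtain ⟨P, rfl⟩ := hπ t
    refine ⟨ev P, ?_⟩
    have h1 : P - ((ev P : ℤ) : A) ∈ RingHom.ker ev := by
      rw [RingHom.mem_ker, map_sub, map_intCast]; simp
    have h2 : π (P - ((ev P : ℤ) : A)) ∈ I := Ideal.mem_map_of_mem _ h1
    have h3 : Ideal.Quotient.mk I (π (P - ((ev P : ℤ) : A))) = 0 :=
      Ideal.Quotient.eq_zero_iff_mem.mpr h2
    rw [map_sub, map_sub, sub_eq_zero, map_intCast, map_intCast] at h3
    simpa [φ] using h3.symm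
  have hker : RingHom.ker φ = Ideal.span {(n : ℤ)} := by
    ext m
    rw [RingHom.mem_ker, Ideal.mem_span_singleton]
    have h0 : φ m = Ideal.Quotient.mk I (π ((m : ℤ) : A)) := by
      simp [φ]
    rw [h0, Ideal.Quotient.eq_zero_iff_mem, hI, Ideal.mem_map_iff_of_surjective π hπ]
    constructor
    · rintro ⟨Q, hQ, hQm⟩
      have h1 := hlow (((m : ℤ) : A) - Q) (by rw [map_sub, hQm, sub_self])
      rw [map_sub, RingHom.mem_ker.mp hQ, sub_zero, map_intCast] at h1
      simpa using h1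
    · rintro ⟨c, rfl⟩
      obtain ⟨Q, hQ0, hQn⟩ := hup
      refine ⟨(((n : ℤ) * c : ℤ) : A) - Q * ((c : ℤ) : A), ?_, ?_⟩
      · rw [RingHom.mem_ker, map_sub, map_mul, hQn, map_intCast, map_intCast]; simp
      · rw [map_sub, map_mul, hQ0, zero_mul, sub_zero]
  have e1 : (ℤ ⧸ RingHom.ker φ) ≃+* T ⧸ I := RingHom.quotientKerEquivOfSurjective hφs
  rw [← Nat.card_congr e1.toEquiv, hker, Nat.card_congr (Int.quotientSpanNatEquivZMod n).toEquiv,
    Nat.card_zmod]

theorem filter_not_dvd_divisors_mul {l : ℕ} (hl : l.Prime) (m : ℕ) :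
    (l * m).divisors.filter (fun d => ¬ l ∣ d) = m.divisors.filter (fun d => ¬ l ∣ d) := by
  ext d
  simp only [Finset.mem_filter, Nat.mem_divisors, ne_eq, mul_eq_zero, hl.ne_zero, false_or]
  constructor
  · rintro ⟨⟨h1, h2⟩, h3⟩
    exact ⟨⟨((hl.coprime_iff_not_dvd.mpr h3).symm).dvd_of_dvd_mul_left h1, h2⟩, h3⟩
  · rintro ⟨⟨h1, h2⟩, h3⟩
    exact ⟨⟨Dvd.dvd.mul_left h1 l, h2⟩, h3⟩

theorem sum_filter_dvd_divisors {M : Type*} [AddCommMonoid M] {l : ℕ} (hl : l.Prime) (n : ℕ)
    (g : ℕ → M) :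
    ∑ d ∈ n.divisors with l ∣ d, g d =
      if l ∣ n then ∑ d ∈ (n / l).divisors, g (l * d) else 0 := by
  split_ifs with h
  · obtain ⟨m, rfl⟩ := h
    rw [Nat.mul_div_cancel_left _ hl.pos]
    symm
    apply Finset.sum_bij (fun d _ => l * d)
    · intro d hd
      simp only [Finset.mem_filter, Nat.mem_divisors, ne_eq, mul_eq_zero, hl.ne_zero, false_or,
        dvd_mul_right, and_true] at hd ⊢
      exact ⟨Nat.mul_dvd_mul_left l hd.1, hd.2⟩
    · intro a _ b _ hab
      exact Nat.eq_of_mul_eq_mul_left hl.pos hab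
    · intro d hd
      simp only [Finset.mem_filter, Nat.mem_divisors, ne_eq, mul_eq_zero, hl.ne_zero,
        false_or] at hd
      obtain ⟨⟨h1, h2⟩, c, rfl⟩ := hd
      exact ⟨c, by
        simp only [Nat.mem_divisors, ne_eq]
        exact ⟨Nat.dvd_of_mul_dvd_mul_left hl.pos h1, h2⟩, rfl⟩
    · intro _ _; rfl
  · apply Finset.sum_eq_zero
    intro d hd
    simp only [Finset.mem_filter, Nat.mem_divisors] at hd
    exact absurd (hd.2.trans hd.1.1) h

theorem sum_divisors_prime_mul {M : Type*} [AddCommMonoid M] {l : ℕ} (hl : l.Prime) (m : ℕ)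
    (g : ℕ → M) :
    ∑ d ∈ (l * m).divisors, g d + (if l ∣ m then ∑ d ∈ (m / l).divisors, g (l * d) else 0) =
      ∑ d ∈ m.divisors, g d + ∑ d ∈ m.divisors, g (l * d) := by
  rw [← sum_filter_dvd_divisors hl m g,
    ← Finset.sum_filter_add_sum_filter_not (l * m).divisors (fun d => l ∣ d) g,
    filter_not_dvd_divisors_mul hl, sum_filter_dvd_divisors hl (l * m) g, if_pos (dvd_mul_right _ _),
    Nat.mul_div_cancel_left _ hl.pos,
    ← Finset.sum_filter_add_sum_filter_not m.divisors (fun d => l ∣ d) g]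
  abel

theorem sigmaP_eq_sum (p n : ℕ) : sigmaP p n = ∑ d ∈ n.divisors, if p ∣ d then 0 else d := by
  rw [sigmaP, Finset.sum_filter]
  apply Finset.sum_congr rfl
  intro d _
  by_cases h : p ∣ d <;> simp [h]

theorem sigmaP_one (p : ℕ) [hp : Fact p.Prime] : sigmaP p 1 = 1 := by
  rw [sigmaP_eq_sum]
  simp [hp.out.one_lt.ne']

theorem sigmaP_self_mul (p m : ℕ) [hp : Fact p.Prime] : sigmaP p (p * m) = sigmaP p m := by
  rw [sigmaP, sigmaP, filter_not_dvd_divisors_mul hp.out]

theorem sigmaP_prime_mul (p : ℕ) [hp : Fact p.Prime] {l : ℕ} (hl : l.Prime) (hlp : l ≠ p) (m : ℕ) :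
    sigmaP p (l * m) + l * (if l ∣ m then sigmaP p (m / l) else 0) = (1 + l) * sigmaP p m := by
  have key : ∀ d, (if p ∣ l * d then 0 else l * d) = l * (if p ∣ d then 0 else d) := by
    intro d
    have : p ∣ l * d ↔ p ∣ d := by
      constructor
      · intro h
        rcases (hp.out.dvd_mul).mp h with h | h
        · exact absurd ((Nat.prime_dvd_prime_iff_eq hp.out hl).mp h).symm hlp
        · exact h
      · intro h; exact Dvd.dvd.mul_left h l
    by_cases h : p ∣ d <;> simp [this, h]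
  have := sum_divisors_prime_mul hl m (fun d => if p ∣ d then 0 else d)
  simp only [key, ← Finset.mul_sum, ← sigmaP_eq_sum] at this
  rw [mul_ite, mul_zero, this]; ring

theorem sigmaP_eq (p n : ℕ) [hp : Fact p.Prime] :
    (sigmaP p n : ℤ) = ArithmeticFunction.sigma 1 n -
      (if p ∣ n then (p : ℤ) * ArithmeticFunction.sigma 1 (n / p) else 0) := by
  have h1 : ArithmeticFunction.sigma 1 n = (∑ d ∈ n.divisors with p ∣ d, d) + sigmaP p n := by
    rw [ArithmeticFunction.sigma_one_apply, sigmaP,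
      Finset.sum_filter_add_sum_filter_not n.divisors (fun d => p ∣ d) (fun d => d)]
  rw [sum_filter_dvd_divisors hp.out n (fun d => d)] at h1
  rw [h1]
  split_ifs with h
  · rw [ArithmeticFunction.sigma_one_apply, ← Finset.mul_sum]; push_cast; ring
  · simp

theorem exists_smul_mem_range {R M N : Type*} [CommRing R] [IsDomain R] [AddCommGroup M]
    [AddCommGroup N] [Module R M]
    [Module R N] [Module.Finite R N] (Φ : M →ₗ[R] N)
    (hΦ : Function.Injective Φ) (hr : finrank R N ≤ finrank R M) (y : N) :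
    ∃ m : R, m ≠ 0 ∧ m • y ∈ LinearMap.range Φ := by
  have h1 := Submodule.finrank_quotient_add_finrank (LinearMap.range Φ)
  rw [LinearMap.finrank_range_of_inj hΦ] at h1
  have h2 : finrank R (N ⧸ LinearMap.range Φ) = 0 := by omega
  rw [finrank_eq_zero_iff_isTorsion] at h2
  obtain ⟨a, ha⟩ := @h2 (Submodule.Quotient.mk y)
  refine ⟨a.1, nonZeroDivisors.ne_zero a.2, ?_⟩
  have : (a : R) • (Submodule.Quotient.mk y : N ⧸ LinearMap.range Φ) = 0 := ha
  rwa [← Submodule.Quotient.mk_smul, Submodule.Quotient.mk_eq_zero] at this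

theorem heckeEvalForms_surjective (N : ℕ) [NeZero N] (k : ℤ) :
    Function.Surjective (heckeEvalForms N k) := by
  rintro ⟨t, ht⟩
  induction ht using Algebra.adjoin_induction with
  | mem x hx =>
    rcases hx with ⟨ℓ, hℓ, hℓN, -, rfl⟩ | ⟨q, hqN, hq, -, rfl⟩
    · refine ⟨ModularCurve.heckeGen ⟨ℓ, hℓ⟩, ?_⟩
      rw [heckeEvalForms_heckeGen_of_not_dvd (ℓ := ⟨ℓ, hℓ⟩) hℓN]
      rfl
    · refine ⟨ModularCurve.heckeGen ⟨q, hq⟩, ?_⟩
      rw [heckeEvalForms_heckeGen_of_dvd (q := ⟨q, hq⟩) hqN]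
      rfl
  | algebraMap r =>
    exact ⟨MvPolynomial.C r, by rw [heckeEvalForms_C]; rfl⟩
  | add x y hx hy ihx ihy =>
    obtain ⟨P, hP⟩ := ihx
    obtain ⟨Q, hQ⟩ := ihy
    exact ⟨P + Q, by rw [map_add, hP, hQ]; rfl⟩
  | mul x y hx hy ihx ihy =>
    obtain ⟨P, hP⟩ := ihx
    obtain ⟨Q, hQ⟩ := ihy
    exact ⟨P * Q, by rw [map_mul, hP, hQ]; rfl⟩

variable {N : ℕ}

theorem exists_coeffZ (f : ↥(intLattice N 2)) (n : ℕ) : ∃ m : ℤ, qCoeff ⇑f.1 n = (m : ℂ) :=
  (mem_intLattice_iff f.1).mp f.2 n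

/-- the `n`-th `q`-coefficient on the integral lattice, as an integer -/
noncomputable def coeffZ (N : ℕ) (n : ℕ) : ↥(intLattice N 2) →ₗ[ℤ] ℤ :=
  AddMonoidHom.toIntLinearMap
    { toFun := fun f => Classical.choose (exists_coeffZ f n)
      map_zero' := by
        have h := Classical.choose_spec (exists_coeffZ (0 : ↥(intLattice N 2)) n)
        have h0 : qCoeff ⇑((0 : ↥(intLattice N 2)) : CuspForm (Gamma0 N) 2) n = 0 := qCoeff_zero' n
        have h1 := h0.symm.trans h
        exact_mod_cast h1.symm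
      map_add' := fun f g => by
        have h := Classical.choose_spec (exists_coeffZ (f + g) n)
        have hf := Classical.choose_spec (exists_coeffZ f n)
        have hg := Classical.choose_spec (exists_coeffZ g n)
        have h0 : qCoeff ⇑((f + g : ↥(intLattice N 2)) : CuspForm (Gamma0 N) 2) n =
            qCoeff ⇑f.1 n + qCoeff ⇑g.1 n := qCoeff_add f.1 g.1 n
        have h1 := h.symm.trans (h0.trans (congrArg₂ (· + ·) hf hg))
        exact_mod_cast h1 }

theorem coeffZ_spec (f : ↥(intLattice N 2)) (n : ℕ) :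
    qCoeff ⇑f.1 n = (coeffZ N n f : ℂ) :=
  Classical.choose_spec (exists_coeffZ f n)

variable [NeZero N]

/-- the pairing `(t, f) ↦ a₁(t f)` -/
noncomputable def pairing (N : ℕ) [NeZero N] :
    ↥(heckeLatticeAlgebra N ∅) →ₗ[ℤ] ↥(intLattice N 2) →ₗ[ℤ] ℤ :=
  LinearMap.mk₂ ℤ (fun t f => coeffZ N 1 (t.1 f))
    (fun t s f => by
      show coeffZ N 1 ((t.1 + s.1) f) = _
      rw [LinearMap.add_apply, map_add])
    (fun c t f => by
      show coeffZ N 1 ((c • t.1) f) = _
      rw [LinearMap.smul_apply, map_smul])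
    (fun t f g => by rw [map_add, map_add])
    (fun c t f => by rw [map_smul, map_smul])

@[simp] theorem pairing_apply (t : ↥(heckeLatticeAlgebra N ∅)) (f : ↥(intLattice N 2)) :
    pairing N t f = coeffZ N 1 (t.1 f) := rfl

theorem latticeRestrictHom_apply (t : ↥(heckeAlgebra N 2 ∅)) (f : ↥(intLattice N 2)) :
    (((latticeRestrictHom N ∅ t).1 f : ↥(intLattice N 2)) : CuspForm (Gamma0 N) 2) = t.1 f.1 := rfl

theorem pairing_flip_injective : Function.Injective (pairing N).flip := by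
  rw [injective_iff_map_eq_zero]
  intro f hf
  apply Subtype.ext
  apply eq_zero_of_forall_a1
  intro t ht
  have h1 : pairing N (latticeRestrictHom N ∅ ⟨t, ht⟩) f = 0 := by
    rw [← LinearMap.flip_apply, hf]; rfl
  rw [pairing_apply] at h1
  rw [a1_apply]
  have h2 := coeffZ_spec ((latticeRestrictHom N ∅ ⟨t, ht⟩).1 f) 1
  rw [h1, latticeRestrictHom_apply] at h2
  simpa using h2

theorem pairing_injective : Function.Injective (pairing N) := by
  rw [injective_iff_map_eq_zero]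
  intro t ht
  apply Subtype.ext
  apply LinearMap.ext
  intro f
  show t.1 f = 0
  apply pairing_flip_injective
  rw [map_zero]
  apply LinearMap.ext
  intro s
  rw [LinearMap.flip_apply, pairing_apply, LinearMap.zero_apply]
  have h1 : s.1 (t.1 f) = t.1 (s.1 f) := by
    have h0 : ∀ a b : ↥(heckeLatticeAlgebra N ∅), (a * b).1 = a.1 * b.1 := fun _ _ => rfl
    have h3 : (s * t).1 f = (t * s).1 f := by rw [mul_comm]
    rw [h0, h0] at h3
    exact h3
  have h2 : pairing N t (s.1 f) = 0 := by rw [ht, LinearMap.zero_apply]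
  rw [h1]
  exact h2

theorem finrank_eq : finrank ℤ ↥(heckeLatticeAlgebra N ∅) = finrank ℤ ↥(intLattice N 2) := by
  have := intLattice.moduleFinite N
  have := intLattice.moduleFree N
  apply le_antisymm
  · have := LinearMap.finrank_le_finrank_of_injective (pairing_injective (N := N))
    rwa [finrank_linearMap ℤ ℤ, finrank_self, mul_one] at this
  · have := LinearMap.finrank_le_finrank_of_injective (pairing_flip_injective (N := N))
    rwa [finrank_linearMap ℤ ℤ, finrank_self, mul_one] at this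

set_option maxHeartbeats 1000000 in
/-- `L ≅ Hom(T, ℤ)`: surjectivity up to torsion. -/
theorem exists_form_of_functional_aux (φ : ↥(heckeLatticeAlgebra N ∅) →ₗ[ℤ] ℤ) :
    ∃ (m : ℤ) (f : ↥(intLattice N 2)), m ≠ 0 ∧
      ∀ t : ↥(heckeLatticeAlgebra N ∅), coeffZ N 1 (t.1 f) = m * φ t := by
  have hfin : finrank ℤ (↥(heckeLatticeAlgebra N ∅) →ₗ[ℤ] ℤ) ≤ finrank ℤ ↥(intLattice N 2) := by
    rw [finrank_linearMap ℤ ℤ, finrank_self, mul_one, finrank_eq]
  obtain ⟨m, hm0, hmem⟩ := exists_smul_mem_range (pairing N).flip pairing_flip_injective hfin φ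
  obtain ⟨f, hf⟩ := LinearMap.mem_range.mp hmem
  refine ⟨m, f, hm0, fun t => ?_⟩
  have h1 : (pairing N).flip f t = (m • φ) t := by rw [hf]
  rw [LinearMap.flip_apply, pairing_apply, LinearMap.smul_apply, smul_eq_mul] at h1
  exact h1

set_option maxHeartbeats 1000000 in
/-- `L ≅ Hom(T, ℤ)`: surjectivity. -/
theorem exists_form_of_functional (φ : ↥(heckeLatticeAlgebra N ∅) →ₗ[ℤ] ℤ) :
    ∃ f : ↥(intLattice N 2), ∀ t : ↥(heckeLatticeAlgebra N ∅), coeffZ N 1 (t.1 f) = φ t := by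
  obtain ⟨m, f, hm0, hf'⟩ := exists_form_of_functional_aux φ
  have hmC : (m : ℂ) ≠ 0 := by exact_mod_cast hm0
  set g : CuspForm (Gamma0 N) 2 := (m : ℂ)⁻¹ • f.1 with hg
  have key : ∀ t (ht : t ∈ heckeAlgebra N 2 ∅),
      a1 N (t g) = ((φ (latticeRestrictHom N ∅ ⟨t, ht⟩) : ℤ) : ℂ) := by
    intro t ht
    rw [hg, map_smul, map_smul, a1_apply]
    have h2 := coeffZ_spec ((latticeRestrictHom N ∅ ⟨t, ht⟩).1 f) 1
    rw [hf', latticeRestrictHom_apply] at h2
    rw [h2]
    push_cast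
    rw [smul_eq_mul]
    field_simp
  have hgL : g ∈ intLattice N 2 := mem_intLattice_of_forall_a1 g fun t ht => ⟨_, key t ht⟩
  refine ⟨⟨g, hgL⟩, fun t => ?_⟩
  obtain ⟨⟨s, hs⟩, rfl⟩ := latticeRestrictHom_surjective N ∅ t
  have h2 := coeffZ_spec ((latticeRestrictHom N ∅ ⟨s, hs⟩).1 ⟨g, hgL⟩) 1
  rw [latticeRestrictHom_apply] at h2
  have h3 := key s hs
  rw [a1_apply] at h3
  have h4 := h3.symm.trans h2
  exact_mod_cast h4.symm

section Main

variable (p : ℕ) [hp : Fact p.Prime]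

/-- `π : ℤ[X_ℓ] → T` -/
noncomputable def piHom : ModularCurve.HeckeAlg →+* ↥(heckeLatticeAlgebra p ∅) :=
  (latticeRestrictHom p ∅).toRingHom.comp (heckeEvalForms p 2)

theorem piHom_surjective : Function.Surjective (piHom p) :=
  (latticeRestrictHom_surjective p ∅).comp (heckeEvalForms_surjective p 2)

theorem piHom_apply (Q : ModularCurve.HeckeAlg) :
    piHom p Q = latticeRestrictHom p ∅ (heckeEvalForms p 2 Q) := rfl

/-- `ev : ℤ[X_ℓ] → ℤ` -/
noncomputable def evHom : ModularCurve.HeckeAlg →+* ℤ :=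
  (MvPolynomial.aeval (ModularCurve.eisensteinSystem p)).toRingHom

omit hp in
theorem evHom_apply (Q : ModularCurve.HeckeAlg) :
    evHom p Q = MvPolynomial.aeval (ModularCurve.eisensteinSystem p) Q := rfl

omit hp in
theorem eisensteinIdeal_eq : ModularCurve.eisensteinIdeal p = RingHom.ker (evHom p) := rfl

theorem coeffZ_gen_of_dvd {q : Nat.Primes} (h : (q : ℕ) ∣ p) (f : ↥(intLattice p 2)) (n : ℕ) :
    coeffZ p n ((piHom p (ModularCurve.heckeGen q)).1 f) = coeffZ p (q * n) f := by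
  rw [piHom_apply, heckeEvalForms_heckeGen_of_dvd h]
  have h1 := coeffZ_spec ((latticeRestrictHom p ∅
    (heckeAlgebra.U q.2 h (Set.notMem_empty _))).1 f) n
  rw [latticeRestrictHom_apply,
    heckeAlgebra.coe_U, qCoeff_heckeULin q.2 h, coeffZ_spec] at h1
  exact_mod_cast h1.symm

theorem coeffZ_gen_of_not_dvd {l : Nat.Primes} (h : ¬ (l : ℕ) ∣ p) (f : ↥(intLattice p 2))
    (n : ℕ) :
    coeffZ p n ((piHom p (ModularCurve.heckeGen l)).1 f) =
      coeffZ p (l * n) f + (l : ℤ) * (if (l : ℕ) ∣ n then coeffZ p (n / l) f else 0) := by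
  rw [piHom_apply, heckeEvalForms_heckeGen_of_not_dvd h]
  have h1 := coeffZ_spec ((latticeRestrictHom p ∅
    (heckeAlgebra.T l.2 h (Set.notMem_empty _))).1 f) n
  rw [latticeRestrictHom_apply,
    heckeAlgebra.coe_T, qCoeff_heckeTLin l.2 h, coeffZ_spec, coeffZ_spec] at h1
  split_ifs at h1 ⊢ <;> exact_mod_cast h1.symm

omit hp in
theorem evHom_gen_of_dvd {q : Nat.Primes} (h : (q : ℕ) ∣ p) :
    evHom p (ModularCurve.heckeGen q) = 1 := by
  rw [evHom_apply, ModularCurve.aeval_heckeGen, ModularCurve.eisensteinSystem_of_dvd h]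

omit hp in
theorem evHom_gen_of_not_dvd {l : Nat.Primes} (h : ¬ (l : ℕ) ∣ p) :
    evHom p (ModularCurve.heckeGen l) = 1 + (l : ℕ) := by
  rw [evHom_apply, ModularCurve.aeval_heckeGen, ModularCurve.eisensteinSystem_of_not_dvd h]

theorem mul_val_apply (t u : ↥(heckeLatticeAlgebra p ∅)) (g : ↥(intLattice p 2)) :
    (t * u).1 g = t.1 (u.1 g) := rfl

theorem one_val_apply (g : ↥(intLattice p 2)) :
    (1 : ↥(heckeLatticeAlgebra p ∅)).1 g = g := rfl

set_option maxHeartbeats 1000000 in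
theorem coeff_congr (M : ℕ) (lam : ↥(heckeLatticeAlgebra p ∅) →+* ZMod M)
    (hlam : ∀ Q, lam (piHom p Q) = ((evHom p Q : ℤ) : ZMod M)) :
    ∀ (n : ℕ), 1 ≤ n → ∀ (g : ↥(intLattice p 2)) (c : ZMod M),
      (∀ t : ↥(heckeLatticeAlgebra p ∅), ((coeffZ p 1 (t.1 g) : ℤ) : ZMod M) = lam t * c) →
      ((coeffZ p n g : ℤ) : ZMod M) = (sigmaP p n : ZMod M) * c := by
  intro n
  induction n using Nat.strong_induction_on with
  | _ n ih =>
    intro hn1 g c hg
    rcases Nat.lt_or_ge n 2 with hn | hn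
    · obtain rfl : n = 1 := by omega
      have := hg 1
      rw [one_val_apply, map_one, one_mul] at this
      rw [this, sigmaP_one]; simp
    · have hn1 : n ≠ 1 := by omega
      set l := n.minFac with hldef
      have hl : l.Prime := Nat.minFac_prime hn1
      obtain ⟨m, hm⟩ : l ∣ n := Nat.minFac_dvd n
      have hmpos : 0 < m := by
        rcases Nat.eq_zero_or_pos m with h0 | h0
        · subst h0; omega
        · exact h0
      have hmlt : m < n := by
        have h2 := hl.two_le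
        nlinarith
      let lP : Nat.Primes := ⟨l, hl⟩
      set u := piHom p (ModularCurve.heckeGen lP) with hu
      by_cases hlp : l ∣ p
      · have hlp' : l = p := (Nat.prime_dvd_prime_iff_eq hl hp.out).mp hlp
        have hlu : lam u = 1 := by
          rw [hu, hlam, evHom_gen_of_dvd p (q := lP) hlp]
          simp
        have h1 := ih m hmlt hmpos (u.1 g) c (fun t => by
          rw [← mul_val_apply, hg, map_mul, hlu, mul_one])
        rw [hu, coeffZ_gen_of_dvd p (q := lP) hlp] at h1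
        rw [hm, h1, hlp', sigmaP_self_mul]
      · have hlp' : l ≠ p := fun h => hlp (h ▸ dvd_rfl)
        have hlu : lam u = 1 + (l : ZMod M) := by
          rw [hu, hlam, evHom_gen_of_not_dvd p (l := lP) hlp]
          simp [lP]
        have h1 := ih m hmlt hmpos (u.1 g) ((1 + (l : ZMod M)) * c) (fun t => by
          rw [← mul_val_apply, hg, map_mul, hlu, mul_assoc])
        rw [hu, coeffZ_gen_of_not_dvd p (l := lP) hlp] at h1
        have h2 := congrArg (fun x : ℕ => (x : ZMod M)) (sigmaP_prime_mul p hl hlp' m)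
        have hlPl : ((lP : ℕ)) = l := rfl
        rw [hlPl] at h1
        rw [hm]
        by_cases hlm : l ∣ m
        · have h3 := ih (m / l) (lt_of_le_of_lt (Nat.div_le_self _ _) hmlt)
            (Nat.div_pos (Nat.le_of_dvd hmpos hlm) hl.pos) g c hg
          rw [if_pos hlm] at h1 h2
          push_cast at h1 h2
          rw [h3] at h1
          linear_combination h1 - c * h2
        · rw [if_neg hlm] at h1 h2
          push_cast at h1 h2
          linear_combination h1 - c * h2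

set_option maxHeartbeats 1000000 in
theorem exists_form_of_dvd (M : ℕ) (hM : ∀ Q, piHom p Q = 0 → (M : ℤ) ∣ evHom p Q) :
    ∃ (f : CuspForm (Gamma0 p) 2) (a : ℕ → ℤ), (∀ n, qCoeff f n = (a n : ℂ)) ∧
      ∀ n, 1 ≤ n → (M : ℤ) ∣ a n - (sigmaP p n : ℤ) := by
  let evM : ModularCurve.HeckeAlg →+* ZMod M := (Int.castRingHom (ZMod M)).comp (evHom p)
  have hker : RingHom.ker (piHom p) ≤ RingHom.ker evM := by
    intro Q hQ
    rw [RingHom.mem_ker] at hQ ⊢
    show ((evHom p Q : ℤ) : ZMod M) = 0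
    exact (ZMod.intCast_zmod_eq_zero_iff_dvd _ _).mpr (hM Q hQ)
  let lam : ↥(heckeLatticeAlgebra p ∅) →+* ZMod M :=
    RingHom.liftOfSurjective (piHom p) (piHom_surjective p) ⟨evM, hker⟩
  have hlam : ∀ Q, lam (piHom p Q) = ((evHom p Q : ℤ) : ZMod M) := fun Q =>
    RingHom.liftOfRightInverse_comp_apply (piHom p) _ _ ⟨evM, hker⟩ Q
  obtain ⟨φ, hφ⟩ := Module.projective_lifting_property
    (Int.castAddHom (ZMod M)).toIntLinearMap lam.toAddMonoidHom.toIntLinearMap
    (ZMod.intCast_surjective)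
  have hφ' : ∀ t, ((φ t : ℤ) : ZMod M) = lam t := fun t =>
    congrArg (fun ψ : ↥(heckeLatticeAlgebra p ∅) →ₗ[ℤ] ZMod M => ψ t) hφ
  obtain ⟨f, hf⟩ := exists_form_of_functional φ
  refine ⟨f.1, fun n => coeffZ p n f, fun n => coeffZ_spec f n, fun n hn => ?_⟩
  have h1 := coeff_congr p M lam hlam n hn f 1 (fun t => by rw [hf, hφ', mul_one])
  rw [mul_one] at h1
  have h2 : ((coeffZ p n f - (sigmaP p n : ℤ) : ℤ) : ZMod M) = 0 := by
    push_cast; rw [h1, sub_self]
  exact (ZMod.intCast_zmod_eq_zero_iff_dvd _ _).mp h2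

set_option maxHeartbeats 1000000 in
theorem reduction
    (LOW : ∀ Q : ModularCurve.HeckeAlg, CuspForm.heckeEvalForms p 2 Q = 0 →
      ((ModularCurve.eisensteinNumerator p : ℕ) : ℤ) ∣
        MvPolynomial.aeval (ModularCurve.eisensteinSystem p) Q)
    (UP : ∀ (l e : ℕ), l.Prime → ∀ (f : CuspForm (Gamma0 p) 2) (a : ℕ → ℤ),
      (∀ n, qCoeff f n = (a n : ℂ)) →
      (∀ n, 1 ≤ n → ((l ^ e : ℕ) : ℤ) ∣ a n - (sigmaP p n : ℤ)) →
      l ^ e ∣ ModularCurve.eisensteinNumerator p) :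
    Nat.card (↥(heckeLatticeAlgebra p ∅) ⧸
        Ideal.map ((latticeRestrictHom p ∅).toRingHom.comp (heckeEvalForms p 2))
          (ModularCurve.eisensteinIdeal p)) =
      ModularCurve.eisensteinNumerator p := by
  set n := ModularCurve.eisensteinNumerator p with hn
  have hlow : ∀ Q, piHom p Q = 0 → (n : ℤ) ∣ evHom p Q := by
    intro Q hQ
    apply LOW Q
    apply (latticeRestrictHom_bijective p ∅ (Fermat.Agent.S23.result p)).1
    rw [map_zero]
    exact hQ
  have hevs : Function.Surjective (evHom p) := fun m => ⟨MvPolynomial.C m, by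
    rw [evHom_apply, MvPolynomial.aeval_C]; rfl⟩
  -- the ideal `ev (ker π)`
  obtain ⟨g, hg⟩ := IsPrincipalIdealRing.principal (Ideal.map (evHom p) (RingHom.ker (piHom p)))
  have hJ : Ideal.map (evHom p) (RingHom.ker (piHom p)) = Ideal.span {(g.natAbs : ℤ)} := by
    rw [Int.span_natAbs]; exact hg
  set M := g.natAbs with hMdef
  have hM : ∀ Q, piHom p Q = 0 → (M : ℤ) ∣ evHom p Q := by
    intro Q hQ
    rw [← Ideal.mem_span_singleton, ← hJ]
    exact Ideal.mem_map_of_mem _ (RingHom.mem_ker.mpr hQ)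
  obtain ⟨Q₀, hQ₀, hQ₀M⟩ : ∃ Q, piHom p Q = 0 ∧ evHom p Q = M := by
    have : (M : ℤ) ∈ Ideal.map (evHom p) (RingHom.ker (piHom p)) := by
      rw [hJ]; exact Ideal.mem_span_singleton_self _
    obtain ⟨Q, hQ, hQM⟩ := (Ideal.mem_map_iff_of_surjective _ hevs).mp this
    exact ⟨Q, RingHom.mem_ker.mp hQ, hQM⟩
  have hnM : n ∣ M := by
    have := hlow Q₀ hQ₀
    rw [hQ₀M] at this
    exact_mod_cast this
  have hMn : M ∣ n := by
    rw [Nat.dvd_iff_prime_pow_dvd_dvd]
    intro l e hl hle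
    obtain ⟨f, a, ha, hc⟩ := exists_form_of_dvd p (l ^ e) (fun Q hQ =>
      (Int.natCast_dvd_natCast.mpr hle).trans (hM Q hQ))
    exact UP l e hl f a ha hc
  have hMeq : M = n := Nat.dvd_antisymm hMn hnM
  exact card_quot_of_surj (piHom p) (piHom_surjective p) (evHom p) n hlow
    ⟨Q₀, hQ₀, by rw [hQ₀M, hMeq]⟩

end Main

end Fermat.Agent.S16lib
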