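import Fermat.Agent.S16.Potential
import Fermat.Prelude.Def_ModularCurve_ModularUnit

/-!
# S16 (B): the Shimura class `γ ↦ d(γ) mod μ₁₂` and its integral parabolic lift
-/

set_option autoImplicit false

open Module ModularGroup ModularCurve.Period CongruenceSubgroup ModularCurve
open scoped MatrixGroups

namespace Fermat.Agent.S16lib

section Entries

lemma SL_mul_00 (A B : SL(2, ℤ)) : (A * B) 0 0 = A 0 0 * B 0 0 + A 0 1 * B 1 0 := by
  simp [Matrix.SpecialLinearGroup.coe_mul, Matrix.mul_apply, Fin.sum_univ_two]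

lemma SL_mul_10 (A B : SL(2, ℤ)) : (A * B) 1 0 = A 1 0 * B 0 0 + A 1 1 * B 1 0 := by
  simp [Matrix.SpecialLinearGroup.coe_mul, Matrix.mul_apply, Fin.sum_univ_two]

lemma SL_mul_11 (A B : SL(2, ℤ)) : (A * B) 1 1 = A 1 0 * B 0 1 + A 1 1 * B 1 1 := by
  simp [Matrix.SpecialLinearGroup.coe_mul, Matrix.mul_apply, Fin.sum_univ_two]

lemma SL_inv_10 (A : SL(2, ℤ)) : (A⁻¹) 1 0 = - A 1 0 := by
  simp [Matrix.SpecialLinearGroup.coe_inv, Matrix.adjugate_fin_two]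

lemma SL_inv_11 (A : SL(2, ℤ)) : (A⁻¹) 1 1 = A 0 0 := by
  simp [Matrix.SpecialLinearGroup.coe_inv, Matrix.adjugate_fin_two]

lemma S_entries : (S : SL(2, ℤ)) 0 0 = 0 ∧ (S : SL(2, ℤ)) 0 1 = -1 ∧ (S : SL(2, ℤ)) 1 0 = 1 ∧
    (S : SL(2, ℤ)) 1 1 = 0 := by
  simp [coe_S]

lemma ST_entries : (S * T : SL(2, ℤ)) 0 0 = 0 ∧ (S * T : SL(2, ℤ)) 0 1 = -1 ∧
    (S * T : SL(2, ℤ)) 1 0 = 1 ∧ (S * T : SL(2, ℤ)) 1 1 = 1 := by
  decide

end Entries

section Lam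

variable (p : ℕ) [Fact p.Prime]

lemma eisensteinNumerator_pos : 0 < eisensteinNumerator p := by
  have hp : 1 < p := (Fact.out : p.Prime).one_lt
  unfold eisensteinNumerator
  exact Nat.div_pos (Nat.le_of_dvd (by omega) (Nat.gcd_dvd_left _ _))
    (Nat.gcd_pos_of_pos_right _ (by norm_num))

instance eisensteinNumerator_neZero : NeZero (eisensteinNumerator p) :=
  ⟨(eisensteinNumerator_pos p).ne'⟩

omit [Fact p.Prime] in
lemma eisensteinNumerator_dvd_of_dvd_twelve_mul (k : ℤ) (h : ((p - 1 : ℕ) : ℤ) ∣ 12 * k) :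
    (eisensteinNumerator p : ℤ) ∣ k := by
  have hD : 0 < Nat.gcd (p - 1) 12 := Nat.gcd_pos_of_pos_right _ (by norm_num)
  have hcop : Nat.Coprime ((p - 1) / Nat.gcd (p - 1) 12) (12 / Nat.gcd (p - 1) 12) :=
    Nat.coprime_div_gcd_div_gcd hD
  have e1 : (p - 1) / Nat.gcd (p - 1) 12 * Nat.gcd (p - 1) 12 = p - 1 :=
    Nat.div_mul_cancel (Nat.gcd_dvd_left _ _)
  have e2 : 12 / Nat.gcd (p - 1) 12 * Nat.gcd (p - 1) 12 = 12 :=
    Nat.div_mul_cancel (Nat.gcd_dvd_right _ _)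
  unfold eisensteinNumerator
  set D := Nat.gcd (p - 1) 12
  set n := (p - 1) / D
  set e := 12 / D
  have h' : ((n : ℤ) * D) ∣ ((e : ℤ) * k) * D := by
    have a1 : ((p - 1 : ℕ) : ℤ) = (n : ℤ) * D := by exact_mod_cast e1.symm
    have a2 : (12 : ℤ) = (e : ℤ) * D := by exact_mod_cast e2.symm
    rw [a1, a2] at h
    convert h using 1
    ring
  have hD' : (D : ℤ) ≠ 0 := by exact_mod_cast hD.ne'
  have h'' : (n : ℤ) ∣ (e : ℤ) * k := (mul_dvd_mul_iff_right hD').1 h'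
  exact (Nat.isCoprime_iff_coprime.2 hcop).dvd_of_dvd_mul_left h''

theorem exists_lam : ∃ lam : (ZMod p)ˣ →* Multiplicative (ZMod (eisensteinNumerator p)),
    Function.Surjective lam ∧ ∀ x : (ZMod p)ˣ, x ^ 12 = 1 → lam x = 1 := by
  obtain ⟨g, hg⟩ := IsCyclic.exists_generator (α := (ZMod p)ˣ)
  have hord : orderOf g = p - 1 := by
    rw [orderOf_eq_card_of_forall_mem_zpowers hg, Nat.card_eq_fintype_card, ZMod.card_units]
  set g' : Multiplicative (ZMod (eisensteinNumerator p)) := Multiplicative.ofAdd 1 with hg'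
  have hord' : orderOf g' = eisensteinNumerator p := by
    rw [hg', orderOf_ofAdd_eq_addOrderOf, ZMod.addOrderOf_one]
  have hdvd : orderOf g' ∣ orderOf g := by
    rw [hord, hord']; exact eisensteinNumerator_dvd p
  refine ⟨monoidHomOfForallMemZpowers hg hdvd, ?_, ?_⟩
  · intro y
    refine ⟨g ^ (Multiplicative.toAdd y).val, ?_⟩
    rw [map_pow, monoidHomOfForallMemZpowers_apply_gen, hg', ← ofAdd_nsmul]
    simp
  · intro x hx
    obtain ⟨k, rfl⟩ := Subgroup.mem_zpowers_iff.1 (hg x)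
    rw [map_zpow, monoidHomOfForallMemZpowers_apply_gen, ← orderOf_dvd_iff_zpow_eq_one, hord']
    apply eisensteinNumerator_dvd_of_dvd_twelve_mul
    rw [← hord, orderOf_dvd_iff_zpow_eq_one, mul_comm, zpow_mul]
    exact_mod_cast hx

end Lam

section Log

variable {p : ℕ} [Fact p.Prime] {n : ℕ} (lam : (ZMod p)ˣ →* Multiplicative (ZMod n))

/-- the logarithm, extended by zero -/
noncomputable def Lg (x : ZMod p) : ZMod n :=
  if h : x = 0 then 0 else Multiplicative.toAdd (lam (Units.mk0 x h))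

lemma Lg_of_ne {x : ZMod p} (h : x ≠ 0) : Lg lam x = Multiplicative.toAdd (lam (Units.mk0 x h)) :=
  dif_neg h

lemma Lg_unit (u : (ZMod p)ˣ) : Lg lam (u : ZMod p) = Multiplicative.toAdd (lam u) := by
  rw [Lg_of_ne lam u.ne_zero]
  congr 2
  ext; rfl

lemma Lg_mul {x y : ZMod p} (hx : x ≠ 0) (hy : y ≠ 0) : Lg lam (x * y) = Lg lam x + Lg lam y := by
  rw [Lg_of_ne lam hx, Lg_of_ne lam hy, Lg_of_ne lam (mul_ne_zero hx hy), ← toAdd_mul, ← map_mul]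
  congr 2
  ext; rfl

lemma Lg_one : Lg lam (1 : ZMod p) = 0 := by
  have := Lg_mul lam (one_ne_zero : (1 : ZMod p) ≠ 0) one_ne_zero
  rw [mul_one] at this
  linear_combination -this

variable (h12 : ∀ x : (ZMod p)ˣ, x ^ 12 = 1 → lam x = 1)
include h12

lemma Lg_of_pow {x : ZMod p} (hx : x ^ 12 = 1) : Lg lam x = 0 := by
  have h0 : x ≠ 0 := by
    rintro rfl
    simp at hx
  rw [Lg_of_ne lam h0, h12]
  · rfl
  · ext; simpa using hx

lemma Lg_eq_of_pow {x y : ZMod p} (hx : x ≠ 0) (hy : y ≠ 0) (h : x ^ 12 = y ^ 12) :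
    Lg lam x = Lg lam y := by
  have e : x = y * (x / y) := by field_simp
  have h1 : Lg lam (x / y) = 0 := by
    apply Lg_of_pow lam h12
    rw [div_pow, h, div_self (pow_ne_zero _ hy)]
  rw [e, Lg_mul lam hy (div_ne_zero hx hy), h1, add_zero]

lemma Lg_neg (x : ZMod p) : Lg lam (-x) = Lg lam x := by
  by_cases hx : x = 0
  · simp [hx]
  · exact Lg_eq_of_pow lam h12 (neg_ne_zero.2 hx) hx (by ring)

omit h12 in
lemma Lg_of_mul_eq_one {x y : ZMod p} (h : x * y = 1) : Lg lam x = - Lg lam y := by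
  have hx : x ≠ 0 := left_ne_zero_of_mul_eq_one h
  have hy : y ≠ 0 := right_ne_zero_of_mul_eq_one h
  have := Lg_mul lam hx hy
  rw [h, Lg_one] at this
  linear_combination -this

/-- the explicit potential mod `n` -/
noncomputable def vbar (g : SL(2, ℤ)) : ZMod n :=
  if ((g 1 0 : ℤ) : ZMod p) = 0 then Lg lam ((g 1 1 : ℤ) : ZMod p)
  else - Lg lam ((g 1 0 : ℤ) : ZMod p)

omit h12 in
lemma det_zmod (g : SL(2, ℤ)) :
    ((g 0 0 : ℤ) : ZMod p) * ((g 1 1 : ℤ) : ZMod p)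
      - ((g 0 1 : ℤ) : ZMod p) * ((g 1 0 : ℤ) : ZMod p) = 1 := by
  have h := g.det_coe
  rw [Matrix.det_fin_two] at h
  have := congrArg (Int.cast : ℤ → ZMod p) h
  push_cast at this
  exact this

omit h12 in
lemma vbar_of_mem {γ : SL(2, ℤ)} (hγ : γ ∈ Gamma0 p) :
    vbar lam γ = Lg lam ((γ 1 1 : ℤ) : ZMod p) := by
  rw [vbar, if_pos (Gamma0_mem.1 hγ)]

omit h12 in
lemma vbar_T_mul (g : SL(2, ℤ)) : vbar lam (T * g) = vbar lam g := by
  have h10 : (T * g) 1 0 = g 1 0 := by simp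
  have h11 : (T * g) 1 1 = g 1 1 := by simp
  simp only [vbar, h10, h11]

omit h12 in
lemma vbar_mul_mem {γ : SL(2, ℤ)} (hγ : γ ∈ Gamma0 p) (g : SL(2, ℤ)) :
    vbar lam (g * γ) = vbar lam g + vbar lam γ := by
  have hc : ((γ 1 0 : ℤ) : ZMod p) = 0 := Gamma0_mem.1 hγ
  have h10 : (g * γ) 1 0 = g 1 0 * γ 0 0 + g 1 1 * γ 1 0 := SL_mul_10 g γ
  have h11 : (g * γ) 1 1 = g 1 0 * γ 0 1 + g 1 1 * γ 1 1 := SL_mul_11 g γ
  have dγ := det_zmod (p := p) γ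
  rw [hc, mul_zero, sub_zero] at dγ
  have ha : ((γ 0 0 : ℤ) : ZMod p) ≠ 0 := left_ne_zero_of_mul_eq_one dγ
  have hd : ((γ 1 1 : ℤ) : ZMod p) ≠ 0 := right_ne_zero_of_mul_eq_one dγ
  rw [vbar_of_mem lam hγ]
  simp only [vbar, h10, h11]
  push_cast
  rw [hc, mul_zero, add_zero]
  by_cases hg : ((g 1 0 : ℤ) : ZMod p) = 0
  · have dg := det_zmod (p := p) g
    rw [hg, mul_zero, sub_zero] at dg
    rw [if_pos (by rw [hg, zero_mul]), if_pos hg, hg, zero_mul, zero_add,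
      Lg_mul lam (right_ne_zero_of_mul_eq_one dg) hd]
  · rw [if_neg (mul_ne_zero hg ha), if_neg hg, Lg_mul lam hg ha, Lg_of_mul_eq_one lam dγ]
    ring

lemma vbar_neg (g : SL(2, ℤ)) : vbar lam (-g) = vbar lam g := by
  have h10 : (-g) 1 0 = - g 1 0 := by simp
  have h11 : (-g) 1 1 = - g 1 1 := by simp
  simp only [vbar, h10, h11]
  push_cast
  simp only [neg_eq_zero, Lg_neg lam h12]

lemma vbar_eq_of_pow (g : SL(2, ℤ))
    (h : ((g 0 0 : ℤ) : ZMod p) ^ 12 = ((g 1 0 : ℤ) : ZMod p) ^ 12) :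
    vbar lam g = vbar lam (S⁻¹ * g) := by
  have h10 : (S⁻¹ * g) 1 0 = - g 0 0 := by
    rw [SL_mul_10, SL_inv_10, SL_inv_11, S_entries.1, S_entries.2.2.1]; ring
  have dg := det_zmod (p := p) g
  have hc : ((g 1 0 : ℤ) : ZMod p) ≠ 0 := by
    intro hc
    rw [hc, zero_pow (by norm_num)] at h
    have ha := pow_eq_zero_iff (by norm_num) |>.1 h
    rw [ha, hc] at dg
    simp at dg
  have ha : ((g 0 0 : ℤ) : ZMod p) ≠ 0 := by
    intro ha
    rw [ha, zero_pow (by norm_num)] at h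
    exact hc (pow_eq_zero_iff (by norm_num) |>.1 h.symm)
  simp only [vbar, h10]
  push_cast
  rw [if_neg hc, if_neg (neg_ne_zero.2 ha), Lg_neg lam h12, Lg_eq_of_pow lam h12 ha hc h]

lemma vbar_fixed_S (g : SL(2, ℤ))
    (h : ((S * g : SL(2, ℤ)) : SL(2, ℤ) ⧸ Gamma0 p) = g) : vbar lam g = vbar lam (S⁻¹ * g) := by
  apply vbar_eq_of_pow lam h12
  rw [QuotientGroup.eq, Gamma0_mem] at h
  have e : ((S * g)⁻¹ * g) 1 0 = -(g 0 0 ^ 2 + g 1 0 ^ 2) := by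
    rw [SL_mul_10, SL_inv_10, SL_inv_11, SL_mul_10, SL_mul_00, S_entries.1, S_entries.2.1,
      S_entries.2.2.1, S_entries.2.2.2]
    ring
  rw [e] at h
  push_cast at h
  set a := ((g 0 0 : ℤ) : ZMod p)
  set c := ((g 1 0 : ℤ) : ZMod p)
  linear_combination (-(a ^ 10 - a ^ 8 * c ^ 2 + a ^ 6 * c ^ 4 - a ^ 4 * c ^ 6 + a ^ 2 * c ^ 8
    - c ^ 10)) * h

lemma vbar_fixed_ST (g : SL(2, ℤ))
    (h : ((S * T * g : SL(2, ℤ)) : SL(2, ℤ) ⧸ Gamma0 p) = g) :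
    vbar lam g = vbar lam (S⁻¹ * g) := by
  apply vbar_eq_of_pow lam h12
  rw [QuotientGroup.eq, Gamma0_mem] at h
  have e : ((S * T * g)⁻¹ * g) 1 0 = -(g 0 0 ^ 2 + g 0 0 * g 1 0 + g 1 0 ^ 2) := by
    rw [SL_mul_10, SL_inv_10, SL_inv_11, SL_mul_10, SL_mul_00, ST_entries.1, ST_entries.2.1,
      ST_entries.2.2.1, ST_entries.2.2.2]
    ring
  rw [e] at h
  push_cast at h
  set a := ((g 0 0 : ℤ) : ZMod p)
  set c := ((g 1 0 : ℤ) : ZMod p)
  linear_combination (-(a - c) * (a ^ 9 + a ^ 6 * c ^ 3 + a ^ 3 * c ^ 6 + c ^ 9)) * h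

/-- **The Shimura class lifts to an integral parabolic homomorphism.** -/
theorem exists_shimura_lift [NeZero n] :
    ∃ ψ ∈ parabolicHoms ℂ (Gamma0 p) ℂ, ∀ γ : Gamma0 p,
      ∃ m : ℤ, ψ (Additive.ofMul γ) = m ∧
        ((m : ℤ) : ZMod n) = Lg lam (((γ : SL(2, ℤ)) 1 1 : ℤ) : ZMod p) := by
  have : NeZero p := ⟨(Fact.out : p.Prime).ne_zero⟩
  obtain ⟨ψ, hψ, h⟩ := exists_integral_parabolic p n (vbar lam) (vbar_T_mul lam)
    (fun γ hγ g => vbar_mul_mem lam hγ g) (vbar_neg lam h12) (vbar_fixed_S lam h12)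
    (vbar_fixed_ST lam h12)
  refine ⟨ψ, hψ, fun γ => ?_⟩
  obtain ⟨m, e, f⟩ := h γ
  exact ⟨m, e, by rw [f, vbar_of_mem lam γ.2]⟩

end Log

end Fermat.Agent.S16lib
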