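import Fermat.Agent.S16.Shimura
import Fermat.Agent.S23lib.Stable
import Fermat.Statements.S16

/-!
# S16 (B): Hecke transfer on `periodHomPair` and the Eisenstein property of the Shimura class
-/

set_option autoImplicit false

namespace Fermat.Agent.S16lib

open UpperHalfPlane CongruenceSubgroup Matrix.SpecialLinearGroup
open ModularCurve ModularCurve.Period
open scoped MatrixGroups ModularForm Manifold
open P2MW.S_ModularForm_heckeT_slash_eq_self_of_mem_Gamma0.ModularForm.HeckeSlashInvariance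
open Fermat.Agent.S23lib

noncomputable section

section Pair

variable {N : ℕ}

theorem periodMap_hecke_J {J' : Type*} [Fintype J'] (α : J' → GL (Fin 2) ℝ)
    (hdet : ∀ j, 0 < (α j).det.val)
    (hJ : ∃ ρ : Equiv.Perm J', ∀ j, ∃ ε ∈ Gamma0 N, jc (α j) = mapGL ℝ ε * α (ρ j))
    (hE : ∀ f : CuspForm (Gamma0 N) 2, ∃ F, HasEquivariantPrimitive N f F)
    (f g : CuspForm (Gamma0 N) 2) (ht : ⇑g = ∑ j, (⇑f) ∣[(2 : ℤ)] α j)
    (γ : Gamma0 N) (π : Equiv.Perm J') (γ' : J' → Gamma0 N)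
    (hmul : ∀ j, α j * mapGL ℝ (γ : SL(2, ℤ)) = mapGL ℝ (γ' j : SL(2, ℤ)) * α (π j)) :
    periodMap N g (Additive.ofMul (jConjGamma0 N γ))
      = ∑ j, periodMap N f (Additive.ofMul (jConjGamma0 N (γ' j))) := by
  obtain ⟨ρ, hρ⟩ := hJ
  refine periodMap_hecke (fun j => jc (α j)) (fun j => by rw [det_jc]; exact hdet j) hE f g ?_
    (jConjGamma0 N γ) π (fun j => jConjGamma0 N (γ' j)) ?_
  · rw [ht, ← Equiv.sum_comp ρ]
    refine Finset.sum_congr rfl fun j _ => ?_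
    obtain ⟨ε, hε, he⟩ := hρ j
    rw [he, SlashAction.slash_mul,
      SlashInvariantFormClass.slash_action_eq f _ (Subgroup.mem_map_of_mem (mapGL ℝ) hε)]
  · intro j
    rw [jConjGamma0_coe, jConjGamma0_coe, ← jc_mapGL, ← jc_mapGL, ← jc_mul, ← jc_mul, hmul]

variable [NeZero N]

theorem pair_apply (f g : CuspForm (Gamma0 N) 2) (γ : Gamma0 N) :
    periodHomPair N (f, g) (Additive.ofMul γ)
      = (periodMap N f (Additive.ofMul γ) + periodMap N f (Additive.ofMul (jConjGamma0 N γ)))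
        + (periodMap N g (Additive.ofMul γ) - periodMap N g (Additive.ofMul (jConjGamma0 N γ))) := by
  rw [Fermat.Agent.S21lib.periodHomPair_apply]
  rfl

theorem pair_hecke {J' : Type*} [Fintype J'] (α : J' → GL (Fin 2) ℝ)
    (hdet : ∀ j, 0 < (α j).det.val)
    (hJ : ∃ ρ : Equiv.Perm J', ∀ j, ∃ ε ∈ Gamma0 N, jc (α j) = mapGL ℝ ε * α (ρ j))
    (f₁ f₂ g₁ g₂ : CuspForm (Gamma0 N) 2) (ht₁ : ⇑g₁ = ∑ j, (⇑f₁) ∣[(2 : ℤ)] α j)
    (ht₂ : ⇑g₂ = ∑ j, (⇑f₂) ∣[(2 : ℤ)] α j)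
    (γ : Gamma0 N) (π : Equiv.Perm J') (γ' : J' → Gamma0 N)
    (hmul : ∀ j, α j * mapGL ℝ (γ : SL(2, ℤ)) = mapGL ℝ (γ' j : SL(2, ℤ)) * α (π j)) :
    periodHomPair N (g₁, g₂) (Additive.ofMul γ)
      = ∑ j, periodHomPair N (f₁, f₂) (Additive.ofMul (γ' j)) := by
  have hE : ∀ f : CuspForm (Gamma0 N) 2, ∃ F, HasEquivariantPrimitive N f F :=
    Fermat.Agent.S21lib.exists_hasEquivariantPrimitive
  simp only [pair_apply]
  rw [periodMap_hecke α hdet hE f₁ g₁ ht₁ γ π γ' hmul,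
    periodMap_hecke α hdet hE f₂ g₂ ht₂ γ π γ' hmul,
    periodMap_hecke_J α hdet hJ hE f₁ g₁ ht₁ γ π γ' hmul,
    periodMap_hecke_J α hdet hJ hE f₂ g₂ ht₂ γ π γ' hmul]
  simp only [Finset.sum_add_distrib, Finset.sum_sub_distrib]

end Pair

section Eis

variable {p : ℕ} [Fact p.Prime] {n : ℕ} (lam : (ZMod p)ˣ →* Multiplicative (ZMod n))

/-- `ψ` is integral and congruent to `c` times the Shimura class. -/
def IsEis (c : ZMod n) (ψ : Additive (Gamma0 p) →+ ℂ) : Prop :=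
  ∀ γ : Gamma0 p, ∃ m : ℤ, ψ (Additive.ofMul γ) = m ∧
    ((m : ℤ) : ZMod n) = c * Lg lam (((γ : SL(2, ℤ)) 1 1 : ℤ) : ZMod p)

variable {lam}

theorem IsEis.sum {c : ZMod n} {ψ : Additive (Gamma0 p) →+ ℂ} (h : IsEis lam c ψ)
    {J' : Type*} [Fintype J'] (γ' : J' → Gamma0 p) :
    ∃ m : ℤ, ∑ j, ψ (Additive.ofMul (γ' j)) = m ∧
      ((m : ℤ) : ZMod n) = c * ∑ j, Lg lam (((γ' j : SL(2, ℤ)) 1 1 : ℤ) : ZMod p) := by
  choose m hm1 hm2 using fun j => h (γ' j)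
  refine ⟨∑ j, m j, ?_, ?_⟩
  · push_cast
    exact Finset.sum_congr rfl fun j _ => hm1 j
  · push_cast
    rw [Finset.mul_sum]
    exact Finset.sum_congr rfl fun j _ => hm2 j


/-- lower right entry of the Hecke representative, mod `p` -/
def repD (ℓ p : ℕ) (x : OnePoint (ZMod ℓ)) : ZMod p := x.elim 1 (fun _ => (ℓ : ZMod p))

theorem repD_mul {ℓ : ℕ} (hℓ : ℓ ≠ 0) (x y : OnePoint (ZMod ℓ)) (γ γ' : SL(2, ℤ))
    (h : heckeRep ℓ x * mapGL ℝ γ = mapGL ℝ γ' * heckeRep ℓ y)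
    (hc : ((γ' 1 0 : ℤ) : ZMod p) = 0) :
    repD ℓ p x * ((γ 1 1 : ℤ) : ZMod p) = ((γ' 1 1 : ℤ) : ZMod p) * repD ℓ p y := by
  have h11 := congrArg (fun M : GL (Fin 2) ℝ => (M : Matrix (Fin 2) (Fin 2) ℝ) 1 1) h
  simp only [Units.val_mul, Matrix.mul_apply, Fin.sum_univ_two] at h11
  induction x using OnePoint.rec with
  | infty =>
    induction y using OnePoint.rec with
    | infty =>
      simp [heckeRep_infty, ModularForm.val_heckeDiagMatrix hℓ] at h11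
      have h' : γ 1 1 = γ' 1 1 := by exact_mod_cast h11
      simp [repD, h']
    | coe j =>
      simp [heckeRep_infty, heckeRep_coe, ModularForm.val_heckeDiagMatrix hℓ,
        ModularForm.val_heckeMatrix hℓ] at h11
      have h' : γ 1 1 = γ' 1 0 * (j.val : ℤ) + γ' 1 1 * ℓ := by
        exact_mod_cast h11
      have := congrArg (Int.cast : ℤ → ZMod p) h'
      push_cast at this
      rw [hc, zero_mul, zero_add] at this
      simpa [repD] using this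
  | coe i =>
    induction y using OnePoint.rec with
    | infty =>
      simp [heckeRep_infty, heckeRep_coe, ModularForm.val_heckeDiagMatrix hℓ,
        ModularForm.val_heckeMatrix hℓ] at h11
      have h' : (ℓ : ℤ) * γ 1 1 = γ' 1 1 := by exact_mod_cast h11
      have := congrArg (Int.cast : ℤ → ZMod p) h'
      push_cast at this
      simpa [repD] using this
    | coe j =>
      simp [heckeRep_coe, ModularForm.val_heckeMatrix hℓ] at h11
      have h' : (ℓ : ℤ) * γ 1 1 = γ' 1 0 * (j.val : ℤ) + γ' 1 1 * ℓ := by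
        exact_mod_cast h11
      have := congrArg (Int.cast : ℤ → ZMod p) h'
      push_cast at this
      rw [hc, zero_mul, zero_add] at this
      simpa [repD] using this

lemma d_ne_zero (γ : Gamma0 p) : (((γ : SL(2, ℤ)) 1 1 : ℤ) : ZMod p) ≠ 0 := by
  have dγ := det_zmod (p := p) (γ : SL(2, ℤ))
  rw [Gamma0_mem.1 γ.2, mul_zero, sub_zero] at dγ
  exact right_ne_zero_of_mul_eq_one dγ

/-- The Eisenstein property of the Shimura class for `T_ℓ`. -/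
theorem sum_Lg_heckeT {ℓ : ℕ} (hℓ : ℓ.Prime) (hℓp : ¬ ℓ ∣ p) (γ : Gamma0 p)
    (π : Equiv.Perm (OnePoint (ZMod ℓ))) (γ' : OnePoint (ZMod ℓ) → Gamma0 p)
    (hmul : ∀ x, heckeRep ℓ x * mapGL ℝ (γ : SL(2, ℤ))
      = mapGL ℝ (γ' x : SL(2, ℤ)) * heckeRep ℓ (π x)) :
    haveI : NeZero ℓ := ⟨hℓ.ne_zero⟩
    ∑ x, Lg lam (((γ' x : SL(2, ℤ)) 1 1 : ℤ) : ZMod p)
      = (1 + (ℓ : ZMod n)) * Lg lam (((γ : SL(2, ℤ)) 1 1 : ℤ) : ZMod p) := by
  have : NeZero ℓ := ⟨hℓ.ne_zero⟩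
  have hℓ0 : (ℓ : ZMod p) ≠ 0 := by
    rw [Ne, ZMod.natCast_eq_zero_iff]
    intro h
    exact hℓp ((Nat.prime_dvd_prime_iff_eq (Fact.out : p.Prime) hℓ).1 h ▸ dvd_rfl)
  have hD : ∀ x, repD ℓ p x ≠ 0 := by
    intro x
    induction x using OnePoint.rec with
    | infty => exact one_ne_zero
    | coe j => exact hℓ0
  have key : ∀ x, Lg lam (((γ' x : SL(2, ℤ)) 1 1 : ℤ) : ZMod p)
      = Lg lam (((γ : SL(2, ℤ)) 1 1 : ℤ) : ZMod p) + Lg lam (repD ℓ p x)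
        - Lg lam (repD ℓ p (π x)) := by
    intro x
    have h := repD_mul (p := p) hℓ.ne_zero x (π x) γ (γ' x) (hmul x) (Gamma0_mem.1 (γ' x).2)
    have h2 := congrArg (Lg lam) h
    rw [Lg_mul lam (hD x) (d_ne_zero γ), Lg_mul lam (d_ne_zero (γ' x)) (hD (π x))] at h2
    linear_combination -h2
  simp only [key, Finset.sum_add_distrib, Finset.sum_sub_distrib, Finset.sum_const,
    Finset.card_univ]
  rw [Equiv.sum_comp π (fun x => Lg lam (repD ℓ p x))]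
  have hcard : Fintype.card (OnePoint (ZMod ℓ)) = ℓ + 1 := by
    rw [show Fintype.card (OnePoint (ZMod ℓ)) = Fintype.card (Option (ZMod ℓ)) from rfl,
      Fintype.card_option, ZMod.card]
  rw [hcard, nsmul_eq_mul]
  push_cast
  ring

/-- The Eisenstein property of the Shimura class for `U_p`. -/
theorem Lg_heckeU (γ γ' : Gamma0 p) (i j : ℕ)
    (hmul : ModularForm.heckeMatrix p i * mapGL ℝ (γ : SL(2, ℤ))
      = mapGL ℝ (γ' : SL(2, ℤ)) * ModularForm.heckeMatrix p j) :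
    (((γ' : SL(2, ℤ)) 1 1 : ℤ) : ZMod p) = (((γ : SL(2, ℤ)) 1 1 : ℤ) : ZMod p) := by
  have hp : p ≠ 0 := (Fact.out : p.Prime).ne_zero
  have h00 := congrArg (fun M : GL (Fin 2) ℝ => (M : Matrix (Fin 2) (Fin 2) ℝ) 0 0) hmul
  simp only [Units.val_mul, Matrix.mul_apply, Fin.sum_univ_two] at h00
  simp [ModularForm.val_heckeMatrix hp] at h00
  have h' : (γ : SL(2, ℤ)) 0 0 + (i : ℤ) * (γ : SL(2, ℤ)) 1 0 = (γ' : SL(2, ℤ)) 0 0 := by
    exact_mod_cast h00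
  have h2 := congrArg (Int.cast : ℤ → ZMod p) h'
  push_cast at h2
  rw [Gamma0_mem.1 γ.2, mul_zero, add_zero] at h2
  have dγ := det_zmod (p := p) (γ : SL(2, ℤ))
  rw [Gamma0_mem.1 γ.2, mul_zero, sub_zero] at dγ
  have dγ' := det_zmod (p := p) (γ' : SL(2, ℤ))
  rw [Gamma0_mem.1 γ'.2, mul_zero, sub_zero, ← h2] at dγ'
  exact mul_left_cancel₀ (left_ne_zero_of_mul_eq_one dγ) (dγ'.trans dγ.symm)

instance neZero_p : NeZero p := ⟨(Fact.out : p.Prime).ne_zero⟩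

theorem IsEis.heckeT {c : ZMod n} {f₁ f₂ : CuspForm (Gamma0 p) 2}
    (h : IsEis lam c (periodHomPair p (f₁, f₂))) {ℓ : ℕ} (hℓ : ℓ.Prime) (hℓp : ¬ ℓ ∣ p) :
    IsEis lam (c * (1 + (ℓ : ZMod n)))
      (periodHomPair p (CuspForm.heckeTLin 2 hℓ hℓp f₁, CuspForm.heckeTLin 2 hℓ hℓp f₂)) := by
  have : Fact ℓ.Prime := ⟨hℓ⟩
  have : NeZero ℓ := ⟨hℓ.ne_zero⟩
  intro γ
  have hcN : (p : ℤ) ∣ (γ : SL(2, ℤ)) 1 0 :=
    (ZMod.intCast_zmod_eq_zero_iff_dvd _ _).mp (CongruenceSubgroup.Gamma0_mem.mp γ.2)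
  have hex : ∀ x, ∃ g' : Gamma0 p, heckeRep ℓ x * mapGL ℝ (γ : SL(2, ℤ)) =
      mapGL ℝ (g' : SL(2, ℤ)) * heckeRep ℓ (MulAction.toPerm (redMatrix ℓ γ) x) := by
    intro x
    obtain ⟨g', hg', hmul⟩ := heckeRep_mul hℓp γ hcN x
    exact ⟨⟨g', CongruenceSubgroup.Gamma0_mem.mpr
      ((ZMod.intCast_zmod_eq_zero_iff_dvd _ _).mpr hg')⟩, hmul⟩
  choose γ' hγ' using hex
  rw [pair_hecke (J' := OnePoint (ZMod ℓ)) (heckeRep ℓ) ?_ ?_ f₁ f₂ _ _ ?_ ?_ γ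
    (MulAction.toPerm (redMatrix ℓ γ)) γ' hγ']
  · obtain ⟨m, e1, e2⟩ := h.sum γ'
    refine ⟨m, e1, ?_⟩
    rw [e2, sum_Lg_heckeT hℓ hℓp γ _ γ' hγ']
    ring
  · intro x
    induction x using OnePoint.rec with
    | infty => exact ModularForm.det_heckeDiagMatrix_pos ℓ
    | coe j => exact ModularForm.det_heckeMatrix_pos ℓ _
  · refine ⟨Equiv.optionCongr (Equiv.neg (ZMod ℓ)), fun x => ?_⟩
    induction x using OnePoint.rec with
    | infty =>
      refine ⟨1, one_mem _, ?_⟩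
      rw [map_one, one_mul]
      exact jc_heckeDiagMatrix hℓ.ne_zero
    | coe j => exact jc_heckeMatrix j
  · rw [CuspForm.coe_heckeTLin_apply, heckeT_eq_sum_onePoint]
  · rw [CuspForm.coe_heckeTLin_apply, heckeT_eq_sum_onePoint]

theorem IsEis.heckeU (hn : n ∣ p - 1) {c : ZMod n} {f₁ f₂ : CuspForm (Gamma0 p) 2}
    (h : IsEis lam c (periodHomPair p (f₁, f₂))) (hpp : p ∣ p) :
    IsEis lam c
      (periodHomPair p (CuspForm.heckeULin 2 hpp f₁, CuspForm.heckeULin 2 hpp f₂)) := by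
  intro γ
  have hc : (p : ℤ) ∣ (γ : SL(2, ℤ)) 1 0 :=
    (ZMod.intCast_zmod_eq_zero_iff_dvd _ _).mp (CongruenceSubgroup.Gamma0_mem.mp γ.2)
  have hex : ∀ x : ZMod p, ∃ g' : Gamma0 p,
      ModularForm.heckeMatrix p x.val * mapGL ℝ (γ : SL(2, ℤ)) =
      mapGL ℝ (g' : SL(2, ℤ)) * ModularForm.heckeMatrix p
        ((affinePerm (γ : SL(2, ℤ)) ((ZMod.intCast_zmod_eq_zero_iff_dvd _ _).mpr hc)) x).val := by
    intro x
    obtain ⟨g', hg', hmul⟩ := heckeMatrix_mul_of_dvd (γ : SL(2, ℤ)) hc x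
    refine ⟨⟨g', ?_⟩, hmul⟩
    rw [CongruenceSubgroup.Gamma0_mem, hg']
    push_cast
    rw [CongruenceSubgroup.Gamma0_mem.mp γ.2, mul_zero]
  choose γ' hγ' using hex
  rw [pair_hecke (J' := ZMod p) (fun x => ModularForm.heckeMatrix p x.val) ?_ ?_ f₁ f₂ _ _ ?_ ?_ γ
    (affinePerm (γ : SL(2, ℤ)) ((ZMod.intCast_zmod_eq_zero_iff_dvd _ _).mpr hc)) γ' hγ']
  · obtain ⟨m, e1, e2⟩ := h.sum γ'
    refine ⟨m, e1, ?_⟩
    rw [e2]
    have : ∀ x, Lg lam (((γ' x : SL(2, ℤ)) 1 1 : ℤ) : ZMod p)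
        = Lg lam (((γ : SL(2, ℤ)) 1 1 : ℤ) : ZMod p) := fun x => by
      rw [Lg_heckeU γ (γ' x) _ _ (hγ' x)]
    simp only [this, Finset.sum_const, Finset.card_univ, ZMod.card, nsmul_eq_mul]
    have hp1 : (p : ZMod n) = 1 := by
      have h1 : 1 ≤ p := (Fact.out : p.Prime).one_lt.le
      have : ((p - 1 : ℕ) : ZMod n) = 0 := (ZMod.natCast_eq_zero_iff _ _).2 hn
      rw [Nat.cast_sub h1] at this
      linear_combination this
    rw [hp1, one_mul]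
  · intro x
    exact ModularForm.det_heckeMatrix_pos p _
  · exact ⟨Equiv.neg (ZMod p), fun x => jc_heckeMatrix x⟩
  · rw [CuspForm.coe_heckeULin_apply, heckeU_eq_sum_zmod]
  · rw [CuspForm.coe_heckeULin_apply, heckeU_eq_sum_zmod]

end Eis

end

end Fermat.Agent.S16lib
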