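import Fermat.Prelude.Def_CuspForm_HeckeEvalForms
import Fermat.Agent.S21
import Fermat.Agent.S23lib.Stable

/-!
# S16, part (B), steps (1) and (3): the Shimura class is Eisenstein; conclusion from a lift

Given an integral parabolic homomorphism `ψ : Γ₀(p) → ℤ` which reduces mod `n` to
`γ ↦ χ (d(γ) mod p)` for a surjective character `χ : (ℤ/p)ˣ → ℤ/n`, every `Q` in the abstract Hecke
algebra which kills `S₂(Γ₀(p))` has Eisenstein value divisible by `n`.
-/

set_option autoImplicit false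

namespace Fermat.Agent.S16lib

open UpperHalfPlane CongruenceSubgroup Matrix.SpecialLinearGroup
open ModularCurve ModularCurve.Period
open scoped MatrixGroups ModularForm
open P2MW.S_ModularForm_heckeT_slash_eq_self_of_mem_Gamma0.ModularForm.HeckeSlashInvariance
open Fermat.Agent.S23lib

noncomputable section

section general

variable {N : ℕ}

/-- periods of a Hecke translate at the `J`-conjugate element -/
theorem periodMap_hecke_jc {J' : Type*} [Fintype J'] (α : J' → GL (Fin 2) ℝ)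
    (hdet : ∀ j, 0 < (α j).det.val)
    (hJ : ∃ ρ : Equiv.Perm J', ∀ j, ∃ ε ∈ Gamma0 N, jc (α j) = mapGL ℝ ε * α (ρ j))
    (hE : ∀ f : CuspForm (Gamma0 N) 2, ∃ F, HasEquivariantPrimitive N f F)
    (f g : CuspForm (Gamma0 N) 2) (ht : ⇑g = ∑ j, (⇑f) ∣[(2 : ℤ)] α j)
    (γ : Gamma0 N) (π : Equiv.Perm J') (γ' : J' → Gamma0 N)
    (hmul : ∀ j, α j * mapGL ℝ (γ : SL(2, ℤ)) = mapGL ℝ (γ' j : SL(2, ℤ)) * α (π j)) :
    periodMap N g (Additive.ofMul (jConjGamma0 N γ)) =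
      ∑ j, periodMap N f (Additive.ofMul (jConjGamma0 N (γ' j))) := by
  obtain ⟨ρ, hρ⟩ := hJ
  refine periodMap_hecke (fun j => jc (α j)) (fun j => by rw [det_jc]; exact hdet j) hE f g ?_
    (jConjGamma0 N γ) π (fun j => jConjGamma0 N (γ' j)) ?_
  · rw [ht, ← Equiv.sum_comp ρ]
    refine Finset.sum_congr rfl fun j _ => ?_
    obtain ⟨ε, hε, he⟩ := hρ j
    rw [he, SlashAction.slash_mul,
      SlashInvariantFormClass.slash_action_eq f _ (Subgroup.mem_map_of_mem (mapGL ℝ) hε)]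
  · intro j
    rw [jConjGamma0_coe, jConjGamma0_coe, ← jc_mapGL, ← jc_mapGL, ← jc_mul, ← jc_mul, hmul]

/-- the value of `periodHomPair N (f, h)` at `γ` -/
def pv (f h : CuspForm (Gamma0 N) 2) (γ : Gamma0 N) : ℂ :=
  (periodMap N f (Additive.ofMul γ) + periodMap N f (Additive.ofMul (jConjGamma0 N γ))) +
    (periodMap N h (Additive.ofMul γ) - periodMap N h (Additive.ofMul (jConjGamma0 N γ)))

theorem periodHomPair_apply_eq_pv [NeZero N] (f h : CuspForm (Gamma0 N) 2) (γ : Gamma0 N) :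
    periodHomPair N (f, h) (Additive.ofMul γ) = pv f h γ := by
  obtain ⟨pml, hpml, hdef⟩ := periodHomPair_def N (Fermat.Agent.S21lib.existsPeriodMapLinear N)
  rw [hdef]
  simp only [LinearMap.coprod_apply, LinearMap.comp_apply, LinearMap.add_apply,
    LinearMap.sub_apply, LinearMap.id_apply, AddMonoidHom.add_apply, AddMonoidHom.sub_apply,
    charInvolution_apply, hpml, pv, toMul_ofMul]

theorem pv_hecke {J' : Type*} [Fintype J'] (α : J' → GL (Fin 2) ℝ)
    (hdet : ∀ j, 0 < (α j).det.val)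
    (hJ : ∃ ρ : Equiv.Perm J', ∀ j, ∃ ε ∈ Gamma0 N, jc (α j) = mapGL ℝ ε * α (ρ j))
    (hE : ∀ f : CuspForm (Gamma0 N) 2, ∃ F, HasEquivariantPrimitive N f F)
    (f g h k : CuspForm (Gamma0 N) 2) (ht : ⇑g = ∑ j, (⇑f) ∣[(2 : ℤ)] α j)
    (ht' : ⇑k = ∑ j, (⇑h) ∣[(2 : ℤ)] α j)
    (γ : Gamma0 N) (π : Equiv.Perm J') (γ' : J' → Gamma0 N)
    (hmul : ∀ j, α j * mapGL ℝ (γ : SL(2, ℤ)) = mapGL ℝ (γ' j : SL(2, ℤ)) * α (π j)) :
    pv g k γ = ∑ j, pv f h (γ' j) := by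
  unfold pv
  rw [Finset.sum_add_distrib, Finset.sum_add_distrib, Finset.sum_sub_distrib,
    periodMap_hecke α hdet hE f g ht γ π γ' hmul, periodMap_hecke α hdet hE h k ht' γ π γ' hmul,
    periodMap_hecke_jc α hdet hJ hE f g ht γ π γ' hmul,
    periodMap_hecke_jc α hdet hJ hE h k ht' γ π γ' hmul]

/-- `(f, h)` has integral periods, congruent to `c • φ` modulo `n`. -/
def Good (n : ℕ) (φ : Gamma0 N → ZMod n) (f h : CuspForm (Gamma0 N) 2) (c : ZMod n) : Prop :=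
  ∀ γ : Gamma0 N, ∃ m : ℤ, pv f h γ = m ∧ (m : ZMod n) = c * φ γ

theorem Good.hecke {n : ℕ} {φ : Gamma0 N → ZMod n} {J' : Type*} [Fintype J']
    (α : J' → GL (Fin 2) ℝ) (hdet : ∀ j, 0 < (α j).det.val)
    (hJ : ∃ ρ : Equiv.Perm J', ∀ j, ∃ ε ∈ Gamma0 N, jc (α j) = mapGL ℝ ε * α (ρ j))
    (hE : ∀ f : CuspForm (Gamma0 N) 2, ∃ F, HasEquivariantPrimitive N f F)
    (e : ZMod n)
    (hex : ∀ γ : Gamma0 N, ∃ (π : Equiv.Perm J') (γ' : J' → Gamma0 N),
      (∀ j, α j * mapGL ℝ (γ : SL(2, ℤ)) = mapGL ℝ (γ' j : SL(2, ℤ)) * α (π j)) ∧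
      ∑ j, φ (γ' j) = e * φ γ)
    {f g h k : CuspForm (Gamma0 N) 2} (ht : ⇑g = ∑ j, (⇑f) ∣[(2 : ℤ)] α j)
    (ht' : ⇑k = ∑ j, (⇑h) ∣[(2 : ℤ)] α j) {c : ZMod n} (hG : Good n φ f h c) :
    Good n φ g k (e * c) := by
  intro γ
  obtain ⟨π, γ', hmul, hsum⟩ := hex γ
  choose m hm hm' using fun j => hG (γ' j)
  refine ⟨∑ j, m j, ?_, ?_⟩
  · rw [pv_hecke α hdet hJ hE f g h k ht ht' γ π γ' hmul]
    push_cast
    exact Finset.sum_congr rfl fun j _ => hm j
  · push_cast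
    rw [Finset.sum_congr rfl fun j _ => hm' j, ← Finset.mul_sum, hsum]
    ring

end general

section entries

/-- comparison of the diagonal entries in `α γ = γ' α'` for upper triangular integral `α, α'`. -/
theorem entries_of_mul {A B D A' B' D' : ℤ} (α α' : GL (Fin 2) ℝ)
    (hα : (α : Matrix (Fin 2) (Fin 2) ℝ) = !![(A : ℝ), (B : ℝ); 0, (D : ℝ)])
    (hα' : (α' : Matrix (Fin 2) (Fin 2) ℝ) = !![(A' : ℝ), (B' : ℝ); 0, (D' : ℝ)])
    (g g' : SL(2, ℤ)) (h : α * mapGL ℝ g = mapGL ℝ g' * α') :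
    A * g 0 0 + B * g 1 0 = g' 0 0 * A' ∧ D * g 1 1 = g' 1 0 * B' + g' 1 1 * D' := by
  have h' : (α : Matrix (Fin 2) (Fin 2) ℝ) * (mapGL ℝ g : GL (Fin 2) ℝ).val =
      (mapGL ℝ g' : GL (Fin 2) ℝ).val * (α' : Matrix (Fin 2) (Fin 2) ℝ) := by
    rw [← Units.val_mul, h, Units.val_mul]
  rw [hα, hα'] at h'
  constructor
  · have := congrFun (congrFun h' 0) 0
    simp [Matrix.mul_apply, Fin.sum_univ_two] at this
    exact_mod_cast this
  · have := congrFun (congrFun h' 1) 1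
    simp [Matrix.mul_apply, Fin.sum_univ_two] at this
    exact_mod_cast this

end entries

section chars

variable {p n : ℕ}

theorem sum_toAdd_of_conj {J' : Type*} [Fintype J'] {U : Type*} [CommGroup U]
    (χ : U →* Multiplicative (ZMod n)) (δ : J' → U) (π : Equiv.Perm J') (u : U) (u' : J' → U)
    (h : ∀ j, δ j * u = u' j * δ (π j)) :
    ∑ j, Multiplicative.toAdd (χ (u' j)) = (Fintype.card J' : ZMod n) * Multiplicative.toAdd (χ u) := by
  have h1 : ∀ j, Multiplicative.toAdd (χ (δ j)) + Multiplicative.toAdd (χ u) =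
      Multiplicative.toAdd (χ (u' j)) + Multiplicative.toAdd (χ (δ (π j))) := by
    intro j
    rw [← toAdd_mul, ← toAdd_mul, ← map_mul, ← map_mul, h j]
  have h2 := Finset.sum_congr (rfl : (Finset.univ : Finset J') = Finset.univ) fun j _ => h1 j
  rw [Finset.sum_add_distrib, Finset.sum_add_distrib,
    Equiv.sum_comp π (fun j => Multiplicative.toAdd (χ (δ j))), Finset.sum_const,
    Finset.card_univ, nsmul_eq_mul] at h2
  linear_combination -h2

/-- the lower right entry as a homomorphism `Γ₀(p) → (ℤ/p)ˣ`. -/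
def dU (p : ℕ) : Gamma0 p →* (ZMod p)ˣ := (Gamma0Map p).toHomUnits

theorem coe_dU (γ : Gamma0 p) : ((dU p γ : (ZMod p)ˣ) : ZMod p) = (((γ : SL(2, ℤ)) 1 1 : ℤ) : ZMod p) :=
  rfl

theorem dU_surjective [Fact p.Prime] : Function.Surjective (dU p) := by
  intro u
  have hp : p.Prime := Fact.out
  have hcop : IsCoprime ((u : ZMod p).val : ℤ) (p : ℤ) := by
    rw [Nat.isCoprime_iff_coprime]
    exact (ZMod.val_coe_unit_coprime u)
  obtain ⟨a, b, hab⟩ := hcop
  have hdet : (!![a, -b; (p : ℤ), ((u : ZMod p).val : ℤ)] : Matrix (Fin 2) (Fin 2) ℤ).det = 1 := by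
    rw [Matrix.det_fin_two_of]; linear_combination hab
  let g : SL(2, ℤ) := ⟨!![a, -b; (p : ℤ), ((u : ZMod p).val : ℤ)], hdet⟩
  have hg10 : g 1 0 = (p : ℤ) := rfl
  have hg11 : g 1 1 = ((u : ZMod p).val : ℤ) := rfl
  have hg : g ∈ Gamma0 p := by
    rw [Gamma0_mem, hg10]; simp
  refine ⟨⟨g, hg⟩, ?_⟩
  apply Units.ext
  rw [coe_dU]
  change ((g 1 1 : ℤ) : ZMod p) = _
  rw [hg11]
  simp

end chars

section main

variable {p n : ℕ} [Fact p.Prime]

/-- the Shimura class -/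
def phi (χ : (ZMod p)ˣ →* Multiplicative (ZMod n)) (γ : Gamma0 p) : ZMod n :=
  Multiplicative.toAdd (χ (dU p γ))

theorem val_heckeRep {ℓ : ℕ} (hℓ : ℓ ≠ 0) (x : OnePoint (ZMod ℓ)) :
    ∃ A B : ℤ, ((heckeRep ℓ x : GL (Fin 2) ℝ) : Matrix (Fin 2) (Fin 2) ℝ) =
      !![(A : ℝ), (B : ℝ); 0, ((x.elim 1 (fun _ => (ℓ : ℤ)) : ℤ) : ℝ)] := by
  induction x using OnePoint.rec with
  | infty =>
    refine ⟨ℓ, 0, ?_⟩
    rw [heckeRep_infty, ModularForm.val_heckeDiagMatrix hℓ]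
    simp
  | coe j =>
    refine ⟨1, j.val, ?_⟩
    rw [heckeRep_coe, ModularForm.val_heckeMatrix hℓ]
    simp

theorem hE_all (N : ℕ) [NeZero N] :
    ∀ f : CuspForm (Gamma0 N) 2, ∃ F, HasEquivariantPrimitive N f F :=
  fun f => Fermat.Agent.S21lib.exists_hasEquivariantPrimitive f

theorem Good.heckeT (χ : (ZMod p)ˣ →* Multiplicative (ZMod n)) {ℓ : ℕ} (hℓ : ℓ.Prime)
    (hℓp : ¬ ℓ ∣ p) {f h : CuspForm (Gamma0 p) 2} {c : ZMod n} (hG : Good n (phi χ) f h c) :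
    Good n (phi χ) (CuspForm.heckeTLin 2 hℓ hℓp f) (CuspForm.heckeTLin 2 hℓ hℓp h)
      ((1 + (ℓ : ZMod n)) * c) := by
  have : Fact ℓ.Prime := ⟨hℓ⟩
  have : NeZero ℓ := ⟨hℓ.ne_zero⟩
  have hcop : Nat.Coprime ℓ p := (Nat.Prime.coprime_iff_not_dvd hℓ).2 hℓp
  refine Good.hecke (J' := OnePoint (ZMod ℓ)) (heckeRep ℓ) ?_ ?_ (hE_all p) _ ?_ ?_ ?_ hG
  · intro x
    induction x using OnePoint.rec with
    | infty => exact ModularForm.det_heckeDiagMatrix_pos ℓ
    | coe j => exact ModularForm.det_heckeMatrix_pos ℓ _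
  · refine ⟨Equiv.optionCongr (Equiv.neg (ZMod ℓ)), fun x => ?_⟩
    induction x using OnePoint.rec with
    | infty =>
      refine ⟨1, one_mem _, ?_⟩
      rw [map_one, one_mul]
      exact jc_heckeDiagMatrix hℓ.ne_zero
    | coe j => exact jc_heckeMatrix j
  · intro γ
    have hcN : (p : ℤ) ∣ (γ : SL(2, ℤ)) 1 0 :=
      (ZMod.intCast_zmod_eq_zero_iff_dvd _ _).mp (CongruenceSubgroup.Gamma0_mem.mp γ.2)
    have hex : ∀ x, ∃ g' : Gamma0 p, heckeRep ℓ x * mapGL ℝ (γ : SL(2, ℤ)) =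
        mapGL ℝ (g' : SL(2, ℤ)) * heckeRep ℓ (MulAction.toPerm (redMatrix ℓ γ) x) := by
      intro x
      obtain ⟨g', hg', hmul⟩ := heckeRep_mul hℓp γ hcN x
      exact ⟨⟨g', CongruenceSubgroup.Gamma0_mem.mpr
        ((ZMod.intCast_zmod_eq_zero_iff_dvd _ _).mpr hg')⟩, hmul⟩
    choose γ' hγ' using hex
    refine ⟨MulAction.toPerm (redMatrix ℓ γ), γ', hγ', ?_⟩
    unfold phi
    rw [sum_toAdd_of_conj χ (fun x : OnePoint (ZMod ℓ) => x.elim 1 (fun _ => ZMod.unitOfCoprime ℓ hcop))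
      (MulAction.toPerm (redMatrix ℓ γ)) (dU p γ) (fun x => dU p (γ' x))]
    · congr 1
      have : Fintype.card (OnePoint (ZMod ℓ)) = ℓ + 1 := by
        have h1 : Fintype.card (OnePoint (ZMod ℓ)) = Fintype.card (Option (ZMod ℓ)) :=
          Fintype.card_congr (Equiv.refl _)
        rw [h1, Fintype.card_option, ZMod.card]
      rw [this]
      push_cast
      ring
    · intro x
      obtain ⟨A, B, hAB⟩ := val_heckeRep hℓ.ne_zero x
      obtain ⟨A', B', hAB'⟩ := val_heckeRep hℓ.ne_zero (MulAction.toPerm (redMatrix ℓ γ) x)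
      have h2 := (entries_of_mul _ _ hAB hAB' _ _ (hγ' x)).2
      have h3 := congrArg (Int.cast : ℤ → ZMod p) h2
      push_cast at h3
      rw [CongruenceSubgroup.Gamma0_mem.mp (γ' x).2, zero_mul, zero_add] at h3
      have hδ : ∀ y : OnePoint (ZMod ℓ),
          (((y.elim 1 (fun _ => ZMod.unitOfCoprime ℓ hcop) : (ZMod p)ˣ)) : ZMod p) =
            ((y.elim 1 (fun _ => (ℓ : ℤ)) : ℤ) : ZMod p) := by
        intro y
        induction y using OnePoint.rec with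
        | infty => simp
        | coe j => simp
      apply Units.ext
      rw [Units.val_mul, Units.val_mul, coe_dU, coe_dU, hδ, hδ]
      exact h3
  · rw [CuspForm.coe_heckeTLin_apply, heckeT_eq_sum_onePoint]
  · rw [CuspForm.coe_heckeTLin_apply, heckeT_eq_sum_onePoint]

theorem Good.heckeU (χ : (ZMod p)ˣ →* Multiplicative (ZMod n))
    {f h : CuspForm (Gamma0 p) 2} {c : ZMod n} (hG : Good n (phi χ) f h c) :
    Good n (phi χ) (CuspForm.heckeULin 2 (dvd_refl p) f) (CuspForm.heckeULin 2 (dvd_refl p) h)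
      (1 * c) := by
  have hp : p.Prime := Fact.out
  refine Good.hecke (J' := ZMod p) (fun x => ModularForm.heckeMatrix p x.val) ?_ ?_ (hE_all p) _
    ?_ ?_ ?_ hG
  · intro x
    exact ModularForm.det_heckeMatrix_pos p _
  · exact ⟨Equiv.neg (ZMod p), fun x => jc_heckeMatrix x⟩
  · intro γ
    have hc : (p : ℤ) ∣ (γ : SL(2, ℤ)) 1 0 :=
      (ZMod.intCast_zmod_eq_zero_iff_dvd _ _).mp (CongruenceSubgroup.Gamma0_mem.mp γ.2)
    have hex : ∀ x : ZMod p, ∃ g' : Gamma0 p,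
        ModularForm.heckeMatrix p x.val * mapGL ℝ (γ : SL(2, ℤ)) =
        mapGL ℝ (g' : SL(2, ℤ)) * ModularForm.heckeMatrix p
          ((affinePerm (γ : SL(2, ℤ)) ((ZMod.intCast_zmod_eq_zero_iff_dvd _ _).mpr hc)) x).val := by
      intro x
      obtain ⟨g', hg', hmul⟩ := heckeMatrix_mul_of_dvd (γ : SL(2, ℤ)) hc x
      refine ⟨⟨g', ?_⟩, hmul⟩
      rw [CongruenceSubgroup.Gamma0_mem, hg']
      push_cast
      rw [CongruenceSubgroup.Gamma0_mem.mp γ.2, mul_zero]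
    choose γ' hγ' using hex
    refine ⟨affinePerm (γ : SL(2, ℤ)) ((ZMod.intCast_zmod_eq_zero_iff_dvd _ _).mpr hc), γ', hγ', ?_⟩
    have hd : ∀ x, dU p (γ' x) = dU p γ := by
      intro x
      have hA : ∀ j : ℕ, ((ModularForm.heckeMatrix p j : GL (Fin 2) ℝ) : Matrix (Fin 2) (Fin 2) ℝ) =
          !![((1 : ℤ) : ℝ), ((j : ℤ) : ℝ); 0, ((p : ℤ) : ℝ)] := by
        intro j
        rw [ModularForm.val_heckeMatrix hp.ne_zero]
        simp
      have h2 := (entries_of_mul _ _ (hA _) (hA _) _ _ (hγ' x)).1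
      have h3 := congrArg (Int.cast : ℤ → ZMod p) h2
      push_cast at h3
      rw [CongruenceSubgroup.Gamma0_mem.mp γ.2, mul_zero, add_zero, one_mul, mul_one] at h3
      have h4 := unit_of_apply_one_zero_eq_zero (γ : SL(2, ℤ)) (CongruenceSubgroup.Gamma0_mem.mp γ.2)
      have h5 := unit_of_apply_one_zero_eq_zero (γ' x : SL(2, ℤ))
        (CongruenceSubgroup.Gamma0_mem.mp (γ' x).2)
      apply Units.ext
      rw [coe_dU, coe_dU]
      rw [← h3] at h5
      calc (((γ' x : SL(2, ℤ)) 1 1 : ℤ) : ZMod p)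
          = ((((γ : SL(2, ℤ)) 0 0 : ℤ) : ZMod p) * (((γ : SL(2, ℤ)) 1 1 : ℤ) : ZMod p)) *
            (((γ' x : SL(2, ℤ)) 1 1 : ℤ) : ZMod p) := by rw [h4, one_mul]
        _ = ((((γ : SL(2, ℤ)) 0 0 : ℤ) : ZMod p) * (((γ' x : SL(2, ℤ)) 1 1 : ℤ) : ZMod p)) *
            (((γ : SL(2, ℤ)) 1 1 : ℤ) : ZMod p) := by ring
        _ = _ := by rw [h5, one_mul]
    unfold phi
    simp only [hd]
    rw [Finset.sum_const, Finset.card_univ, ZMod.card, ← toAdd_pow, ← map_pow, one_mul]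
    congr 2
    apply Units.ext
    rw [Units.val_pow_eq_pow_val, ZMod.pow_card]
  · rw [CuspForm.coe_heckeULin_apply, heckeU_eq_sum_zmod]
  · rw [CuspForm.coe_heckeULin_apply, heckeU_eq_sum_zmod]

theorem pv_add (f f' h h' : CuspForm (Gamma0 p) 2) (γ : Gamma0 p) :
    pv (f + f') (h + h') γ = pv f h γ + pv f' h' γ := by
  rw [← periodHomPair_apply_eq_pv, ← periodHomPair_apply_eq_pv, ← periodHomPair_apply_eq_pv,
    ← AddMonoidHom.add_apply, ← map_add]
  rfl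

theorem pv_smul (a : ℂ) (f h : CuspForm (Gamma0 p) 2) (γ : Gamma0 p) :
    pv (a • f) (a • h) γ = a * pv f h γ := by
  rw [← periodHomPair_apply_eq_pv, ← periodHomPair_apply_eq_pv, ← smul_eq_mul,
    ← AddMonoidHom.smul_apply, ← map_smul]
  rfl

theorem Good.eval (χ : (ZMod p)ˣ →* Multiplicative (ZMod n)) (Q : ModularCurve.HeckeAlg) :
    ∀ (f h : CuspForm (Gamma0 p) 2) (c : ZMod n), Good n (phi χ) f h c →
      Good n (phi χ) ((CuspForm.heckeEvalForms p 2 Q : Module.End ℂ (CuspForm (Gamma0 p) 2)) f)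
        ((CuspForm.heckeEvalForms p 2 Q : Module.End ℂ (CuspForm (Gamma0 p) 2)) h)
        (((MvPolynomial.aeval (ModularCurve.eisensteinSystem p) Q : ℤ) : ZMod n) * c) := by
  induction Q using MvPolynomial.induction_on with
  | C a =>
    intro f h c hG γ
    obtain ⟨m, hm, hm'⟩ := hG γ
    refine ⟨a * m, ?_, ?_⟩
    · have : ∀ f : CuspForm (Gamma0 p) 2,
          ((CuspForm.heckeEvalForms p 2 (MvPolynomial.C a) :
            Module.End ℂ (CuspForm (Gamma0 p) 2))) f = (a : ℂ) • f := by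
        intro f
        rw [CuspForm.heckeEvalForms_C]
        simp only [Algebra.algebraMap_eq_smul_one]
        exact (Int.cast_smul_eq_zsmul ℂ a f).symm
      rw [this, this, pv_smul, hm]
      push_cast
      rfl
    · rw [MvPolynomial.aeval_C]
      push_cast
      rw [hm']
      simp
      ring
  | add P Q hP hQ =>
    intro f h c hG γ
    obtain ⟨m, hm, hm'⟩ := hP f h c hG γ
    obtain ⟨m2, hm2, hm2'⟩ := hQ f h c hG γ
    refine ⟨m + m2, ?_, ?_⟩
    · rw [map_add, Subalgebra.coe_add, LinearMap.add_apply, LinearMap.add_apply, pv_add, hm, hm2]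
      push_cast
      rfl
    · rw [map_add]
      push_cast
      rw [hm', hm2']
      ring
  | mul_X P ℓ hP =>
    intro f h c hG
    have key : Good n (phi χ)
        ((CuspForm.heckeEvalForms p 2 (MvPolynomial.X ℓ) : Module.End ℂ (CuspForm (Gamma0 p) 2)) f)
        ((CuspForm.heckeEvalForms p 2 (MvPolynomial.X ℓ) : Module.End ℂ (CuspForm (Gamma0 p) 2)) h)
        (((ModularCurve.eisensteinSystem p ℓ : ℤ) : ZMod n) * c) := by
      by_cases hℓ : (ℓ : ℕ) ∣ p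
      · have h1 : CuspForm.heckeEvalForms p 2 (MvPolynomial.X ℓ) = _ :=
          CuspForm.heckeEvalForms_heckeGen_of_dvd (N := p) (k := 2) hℓ
        rw [h1, CuspForm.heckeAlgebra.coe_U, ModularCurve.eisensteinSystem_of_dvd hℓ]
        obtain ⟨ℓ, hℓprime⟩ := ℓ
        obtain rfl : ℓ = p := (Nat.prime_dvd_prime_iff_eq hℓprime Fact.out).1 hℓ
        push_cast
        exact Good.heckeU χ hG
      · have h1 : CuspForm.heckeEvalForms p 2 (MvPolynomial.X ℓ) = _ :=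
          CuspForm.heckeEvalForms_heckeGen_of_not_dvd (N := p) (k := 2) hℓ
        rw [h1, CuspForm.heckeAlgebra.coe_T, ModularCurve.eisensteinSystem_of_not_dvd hℓ]
        push_cast
        exact Good.heckeT χ ℓ.2 hℓ hG
    have := hP _ _ _ key
    rw [map_mul, map_mul, MvPolynomial.aeval_X]
    push_cast
    rw [mul_assoc]
    exact this

/-- **S16 (B), steps (1)+(3).** -/
theorem eisenstein_dvd_of_lift (p : ℕ) [Fact p.Prime] (n : ℕ)
    (χ : (ZMod p)ˣ →* Multiplicative (ZMod n)) (hχ : Function.Surjective χ)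
    (ψ : Additive (Gamma0 p) →+ ℂ)
    (hpar : ψ ∈ ModularCurve.Period.parabolicHoms ℂ (Gamma0 p) ℂ)
    (m : Gamma0 p → ℤ) (hm : ∀ γ, ψ (Additive.ofMul γ) = (m γ : ℂ))
    (hcong : ∀ (γ : Gamma0 p) (u : (ZMod p)ˣ),
      (u : ZMod p) = (((γ : SL(2, ℤ)) 1 1 : ℤ) : ZMod p) →
        ((m γ : ℤ) : ZMod n) = Multiplicative.toAdd (χ u))
    (Q : ModularCurve.HeckeAlg) (hQ : CuspForm.heckeEvalForms p 2 Q = 0) :
    (n : ℤ) ∣ MvPolynomial.aeval (ModularCurve.eisensteinSystem p) Q := by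
  rw [← (Fermat.Agent.S21.result p).2] at hpar
  obtain ⟨⟨f, h⟩, hfh⟩ := hpar
  have hG : Good n (phi χ) f h 1 := by
    intro γ
    refine ⟨m γ, ?_, ?_⟩
    · rw [← periodHomPair_apply_eq_pv, hfh, hm]
    · rw [one_mul]
      exact hcong γ (dU p γ) (coe_dU γ)
  have h1 := Good.eval χ Q f h 1 hG
  rw [hQ] at h1
  obtain ⟨u, hu⟩ := hχ (Multiplicative.ofAdd 1)
  obtain ⟨γ, rfl⟩ := dU_surjective u
  obtain ⟨k, hk, hk'⟩ := h1 γ
  have hz : pv (0 : CuspForm (Gamma0 p) 2) 0 γ = 0 := by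
    rw [← periodHomPair_apply_eq_pv]
    have : ((0, 0) : CuspForm (Gamma0 p) 2 × CuspForm (Gamma0 p) 2) = 0 := rfl
    rw [this, map_zero]
    rfl
  have hk0 : k = 0 := by
    have h2 : pv (0 : CuspForm (Gamma0 p) 2) 0 γ = k := hk
    rw [hz] at h2
    exact_mod_cast h2.symm
  rw [hk0, mul_one, phi, hu] at hk'
  rw [← ZMod.intCast_zmod_eq_zero_iff_dvd]
  simpa using hk'.symm

end main

end

end Fermat.Agent.S16lib
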