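import Fermat.Agent.S16.PairZ

/-!
# S16 (UP): proof of the weight lemma (WT)
-/

set_option autoImplicit false

namespace Fermat.Agent.S16lib

open PowerSeries

theorem Vp_two_X : Vp 2 (X : PowerSeries ℤ) = X ^ 2 := by
  ext n
  rw [coeff_Vp, coeff_X_pow, coeff_X]
  by_cases h : n = 2
  · subst h; simp
  · rw [if_neg h]
    split_ifs with h1 h2
    · exfalso; omega
    · rfl
    · rfl

theorem X_pow_dvd_Vp_two {t : ℕ} {A : PowerSeries ℤ} (h : X ^ t ∣ A) : X ^ (2 * t) ∣ Vp 2 A := by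
  obtain ⟨G, rfl⟩ := h
  rw [Vp_mul two_ne_zero, Vp_pow two_ne_zero, Vp_two_X, ← pow_mul]
  exact dvd_mul_right _ _

theorem X_dvd_Dz : (X : PowerSeries ℤ) ∣ Dz := dvd_mul_right _ _

theorem not_natCast_dvd_Dz {l : ℕ} (hl : l.Prime) : ¬ (l : PowerSeries ℤ) ∣ Dz := by
  intro h
  have := natCast_dvd_iff.1 h 1
  rw [coeff_one_Dz] at this
  have h1 := Int.natAbs_dvd_natAbs.2 this
  simp only [Int.natAbs_natCast, Int.natAbs_one, Nat.dvd_one] at h1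
  exact hl.one_lt.ne' h1

theorem natCast_dvd_intCast_iff {l : ℕ} {c : ℤ} :
    (l : PowerSeries ℤ) ∣ (c : PowerSeries ℤ) ↔ (l : ℤ) ∣ c := by
  constructor
  · intro h
    have := natCast_dvd_iff.1 h 0
    rwa [intCast_eq_C_int, coeff_zero_C] at this
  · rintro ⟨d, rfl⟩
    exact ⟨(d : PowerSeries ℤ), by push_cast; rfl⟩

/-- **(WT)** -/
theorem weight_lemma_wt {l r m₁ m₂ : ℕ} (hl : l.Prime) (hl2 : l ≠ 2) {f₁ f₂ : PowerSeries ℤ}
    (h₁ : IsL1 (2 * m₁) f₁) (h₂ : IsL1 (2 * m₂) f₂)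
    (hc : (l : PowerSeries ℤ) ^ r ∣ f₁ - f₂) (hne : ¬ (l : PowerSeries ℤ) ∣ f₁) :
    (l : ℤ) ^ r ∣ 4 ^ m₁ - 4 ^ m₂ := by
  by_contra hD
  have hD0 : (4 : ℤ) ^ m₁ - 4 ^ m₂ ≠ 0 := fun h => hD (h ▸ dvd_zero _)
  have hfin : FiniteMultiplicity (l : ℤ) ((4 : ℤ) ^ m₁ - 4 ^ m₂) :=
    Int.finiteMultiplicity_iff.2 ⟨by simpa using hl.one_lt.ne', hD0⟩
  obtain ⟨c, hc1, hc2⟩ := hfin.exists_eq_pow_mul_and_not_dvd
  set ν := multiplicity (l : ℤ) ((4 : ℤ) ^ m₁ - 4 ^ m₂) with hν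
  have hνr : ν + 1 ≤ r := by
    by_contra h
    exact hD (hc1 ▸ Dvd.dvd.mul_right (pow_dvd_pow _ (by omega)) _)
  obtain ⟨e, he⟩ : (l : PowerSeries ℤ) ^ (ν + 1) ∣ f₁ - f₂ := (pow_dvd_pow _ hνr).trans hc
  have hf₂ : f₂ = f₁ - (l : PowerSeries ℤ) ^ (ν + 1) * e := by rw [← he]; ring
  have hP : Prime (l : PowerSeries ℤ) := prime_natCast hl
  have : Fact (Nat.Prime 2) := ⟨Nat.prime_two⟩
  -- the auxiliary forms
  set t : ℕ := m₁ + m₂ + 1 with ht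
  have hΦ₁ : IsL1 (2 * ((6 * t + m₁ : ℕ) : ℤ)) (Dz ^ t * f₁) :=
    ((isL1_Dz.pow t).mul h₁).congr_weight (by push_cast; ring)
  have hΦ₂ : IsL1 (2 * ((6 * t + m₂ : ℕ) : ℤ)) (Dz ^ t * f₂) :=
    ((isL1_Dz.pow t).mul h₂).congr_weight (by push_cast; ring)
  have ha := hΦ₁.hecke 2 (by omega)
  have hb := hΦ₂.hecke 2 (by omega)
  have hY' := ((h₂.mul ha).congr_weight
    (show (2 * (m₂ : ℤ) + 2 * ((6 * t + m₁ : ℕ) : ℤ)) = 2 * (m₁ + m₂) + 12 * t by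
      push_cast; ring)).sub ((h₁.mul hb).congr_weight
    (show (2 * (m₁ : ℤ) + 2 * ((6 * t + m₂ : ℕ) : ℤ)) = 2 * (m₁ + m₂) + 12 * t by
      push_cast; ring))
  -- rewriting
  have e1 : 2 * (6 * t + m₁) - 1 = (12 * t - 1) + 2 * m₁ := by omega
  have e2 : 2 * (6 * t + m₂) - 1 = (12 * t - 1) + 2 * m₂ := by omega
  have hcast : ((4 : PowerSeries ℤ) ^ m₁ - 4 ^ m₂) = (l : PowerSeries ℤ) ^ ν * (c : PowerSeries ℤ) := by
    have := congrArg (fun x : ℤ => (x : PowerSeries ℤ)) hc1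
    push_cast at this
    exact this
  have hV : Vp 2 (Dz ^ t * f₂) = Vp 2 (Dz ^ t * f₁) -
      (l : PowerSeries ℤ) ^ (ν + 1) * Vp 2 (Dz ^ t * e) := by
    rw [hf₂, mul_sub, Vp_sub, mul_left_comm, Vp_mul two_ne_zero ((l : PowerSeries ℤ) ^ (ν + 1)),
      Vp_pow two_ne_zero, Vp_natCast two_ne_zero]
  have hU : Up 2 (Dz ^ t * f₂) = Up 2 (Dz ^ t * f₁) -
      (l : PowerSeries ℤ) ^ (ν + 1) * Up 2 (Dz ^ t * e) := by
    have := Up_natCast_mul (R := ℤ) 2 (l ^ (ν + 1)) (Dz ^ t * e)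
    push_cast at this
    rw [hf₂, mul_sub, Up_sub, mul_left_comm, this]
  set P := Vp 2 (Dz ^ t * f₁) with hPdef
  set Q := Up 2 (Dz ^ t * f₁) with hQdef
  set P' := Vp 2 (Dz ^ t * e) with hP'def
  set Q' := Up 2 (Dz ^ t * e) with hQ'def
  set Y : PowerSeries ℤ := (2 : PowerSeries ℤ) ^ (12 * t - 1) * (c : PowerSeries ℤ) * (f₁ * P) +
    (l : PowerSeries ℤ) * (f₁ * ((2 : PowerSeries ℤ) ^ (2 * (6 * t + m₂) - 1) * P' + Q') -
      e * ((2 : PowerSeries ℤ) ^ (2 * (6 * t + m₁) - 1) * P + Q)) with hYdef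
  have hYY : f₂ * (((2 : ℕ) : PowerSeries ℤ) ^ (2 * (6 * t + m₁) - 1) * P + Q) -
      f₁ * (((2 : ℕ) : PowerSeries ℤ) ^ (2 * (6 * t + m₂) - 1) * Vp 2 (Dz ^ t * f₂) +
        Up 2 (Dz ^ t * f₂)) = (((l : ℤ) ^ ν : ℤ) : PowerSeries ℤ) * Y := by
    rw [hV, hU, hYdef]
    have h4 : ∀ m : ℕ, (2 : PowerSeries ℤ) ^ (2 * m) = 4 ^ m := fun m => by
      rw [pow_mul]; norm_num
    have key : (2 : PowerSeries ℤ) ^ (2 * (6 * t + m₁) - 1) - 2 ^ (2 * (6 * t + m₂) - 1) =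
        2 ^ (12 * t - 1) * ((l : PowerSeries ℤ) ^ ν * (c : PowerSeries ℤ)) := by
      rw [e1, e2, pow_add, pow_add, h4, h4, ← hcast]
      ring
    push_cast
    rw [hf₂]
    linear_combination (f₁ * P) * key
  rw [hYY] at hY'
  have hYL1 : IsL1 (2 * (m₁ + m₂) + 12 * t) Y :=
    hY'.cancel (pow_ne_zero _ (by exact_mod_cast hl.ne_zero))
  -- Sturm
  have hXP : X ^ (2 * t) ∣ f₁ * P :=
    Dvd.dvd.mul_left (X_pow_dvd_Vp_two (Dvd.dvd.mul_right (pow_dvd_pow_of_dvd X_dvd_Dz t) _)) _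
  have hst : (l : PowerSeries ℤ) ∣ Y := by
    have := hYL1.sturm (l : ℤ) (fun n hn => by
      have hn' : n < 2 * t := by
        have : (12 * n : ℤ) < 12 * (2 * t : ℕ) := by
          push_cast
          have : (t : ℤ) = m₁ + m₂ + 1 := by rw [ht]; push_cast; ring
          have h1 : (0 : ℤ) ≤ m₁ := Int.natCast_nonneg _
          have h2 : (0 : ℤ) ≤ m₂ := Int.natCast_nonneg _
          linarith
        omega
      have h0 : coeff n ((2 : PowerSeries ℤ) ^ (12 * t - 1) * (c : PowerSeries ℤ) * (f₁ * P)) = 0 :=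
        (X_pow_dvd_iff.1 (Dvd.dvd.mul_left hXP _)) n hn'
      rw [hYdef, map_add, h0, zero_add]
      exact natCast_dvd_iff.1 (dvd_mul_right _ _) n)
    simpa using this
  have hst2 : (l : PowerSeries ℤ) ∣
      (2 : PowerSeries ℤ) ^ (12 * t - 1) * (c : PowerSeries ℤ) * (f₁ * P) := by
    rw [hYdef] at hst
    exact (dvd_add_left (dvd_mul_right _ _)).1 hst
  -- conclusion
  rcases hP.dvd_or_dvd hst2 with h | h
  · rcases hP.dvd_or_dvd h with h | h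
    · have h2 := hP.dvd_of_dvd_pow h
      have h3 : (l : ℤ) ∣ 2 := by
        have := natCast_dvd_intCast_iff (l := l) (c := 2)
        exact this.1 (by simpa using h2)
      have h4 : l ∣ 2 := by exact_mod_cast h3
      exact hl2 ((Nat.prime_dvd_prime_iff_eq hl Nat.prime_two).1 h4)
    · exact hc2 (natCast_dvd_intCast_iff.1 h)
  · rcases hP.dvd_or_dvd h with h | h
    · exact hne h
    · rw [hPdef, natCast_dvd_Vp_iff two_ne_zero] at h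
      rcases hP.dvd_or_dvd h with h | h
      · exact not_natCast_dvd_Dz hl (hP.dvd_of_dvd_pow h)
      · exact hne h

end Fermat.Agent.S16lib
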