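import Fermat.Agent.S16.PairZ
import Fermat.Agent.S16.WT

/-!
# S16 (UP), task FO2: the weight lemma (WT) and the `q`-expansion principle (Q)
(helper15, report #178; (WT) proved by helper12 in `WT.lean`, (Q) by helper22)
-/

set_option autoImplicit false

namespace Fermat.Agent.S16lib

open PowerSeries

/-- **(WT)** two level one forms of weights `2m₁, 2m₂`, congruent mod `l^r` and nonzero mod `l`
(`l` odd): then `2^(2m₁) ≡ 2^(2m₂) mod l^r`.
Proof: `a_t = T₂(Δ^t f₁)`, `b_t = T₂(Δ^t f₂)`, `Y = (f₂ a_t - f₁ b_t)/l^ν` contradicts `IsL1.sturm`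
for `t` large if `ν = v_l(4^m₁ - 4^m₂) < r`. -/
theorem weight_lemma {l r m₁ m₂ : ℕ} (hl : l.Prime) (hl2 : l ≠ 2) {f₁ f₂ : PowerSeries ℤ}
    (h₁ : IsL1 (2 * m₁) f₁) (h₂ : IsL1 (2 * m₂) f₂)
    (hc : (l : PowerSeries ℤ) ^ r ∣ f₁ - f₂) (hne : ¬ (l : PowerSeries ℤ) ∣ f₁) :
    (l : ℤ) ^ r ∣ 4 ^ m₁ - 4 ^ m₂ :=
  weight_lemma_wt hl hl2 h₁ h₂ hc hne

theorem X_pow_dvd_Vp {p t : ℕ} (hp : p ≠ 0) {A : PowerSeries ℤ} (h : X ^ t ∣ A) :
    X ^ (p * t) ∣ Vp p A := by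
  obtain ⟨G, rfl⟩ := h
  rw [Vp_mul hp, Vp_pow hp, Vp_X hp, ← pow_mul]
  exact dvd_mul_right _ _

/-- **(Q)** `q`-expansion principle between the two cusps. -/
theorem IsPair.dvd_snd {p l m : ℕ} [Fact p.Prime] (hl : l.Prime) (hlp : l ≠ p)
    {A B : PowerSeries ℤ} (h : IsPair p m A B) (hA : (l : PowerSeries ℤ) ∣ A) :
    (l : PowerSeries ℤ) ∣ B := by
  have hpp : p.Prime := Fact.out
  have hp : p ≠ 0 := hpp.ne_zero
  have hP : Prime (l : PowerSeries ℤ) := prime_natCast hl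
  obtain ⟨A', rfl⟩ := hA
  set t : ℕ := m + 1 with ht
  set M : ℕ := m + 6 * t with hM
  have hM1 : 1 ≤ M := by omega
  have hΔ : IsL1 (2 * ((6 * t : ℕ) : ℤ)) (Dz ^ t) :=
    (isL1_Dz.pow t).congr_weight (by push_cast; ring)
  set X₁ : PowerSeries ℤ := (p : PowerSeries ℤ) ^ (6 * t) * Vp p (Dz ^ t) with hX₁
  have pair1 : IsPair p M (B * Dz ^ t) ((l : PowerSeries ℤ) * A' * X₁) := h.swap.mul hΔ.pair
  have hPL1 := pair1.trace hM1
  set W' : PowerSeries ℤ := Up p (A' * X₁) with hW'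
  have hW : Up p ((l : PowerSeries ℤ) * A' * X₁) = (l : PowerSeries ℤ) * W' := by
    rw [mul_assoc, Up_natCast_mul]
  rw [hW] at hPL1
  set P : PowerSeries ℤ := (p : PowerSeries ℤ) ^ (M - 1) * (B * Dz ^ t) + (l : PowerSeries ℤ) * W'
    with hPdef
  set V : PowerSeries ℤ := Vp p (B * Dz ^ t) with hV
  have hVP : Vp p P = (p : PowerSeries ℤ) ^ (M - 1) * V + (l : PowerSeries ℤ) * Vp p W' := by
    rw [hPdef, Vp_add, Vp_mul hp, Vp_mul hp (l : PowerSeries ℤ), Vp_pow hp, Vp_natCast hp,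
      Vp_natCast hp]
  have pairP := hPL1.pair (p := p)
  have pair1' := pair1.intCast_mul ((p : ℤ) ^ (M - 1))
  have pairD := (pair1'.sub pairP).swap
  have hY := pairD.trace hM1
  have hD : (((p : ℤ) ^ (M - 1) : ℤ) : PowerSeries ℤ) * (B * Dz ^ t) - P
      = -((l : PowerSeries ℤ) * W') := by
    rw [hPdef]; push_cast; ring
  rw [hD, Up_neg, Up_natCast_mul, hVP] at hY
  set Z : PowerSeries ℤ := (p : PowerSeries ℤ) ^ (M - 1) * ((p : PowerSeries ℤ) ^ (M - 1) * (A' * X₁))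
    - (p : PowerSeries ℤ) ^ (M - 1) * ((p : PowerSeries ℤ) ^ M * Vp p W') - Up p W' with hZ
  set c : PowerSeries ℤ := (p : PowerSeries ℤ) ^ (M - 1) * ((p : PowerSeries ℤ) ^ M *
    (p : PowerSeries ℤ) ^ (M - 1)) with hc
  have hYeq : (p : PowerSeries ℤ) ^ (M - 1) *
      ((((p : ℤ) ^ (M - 1) : ℤ) : PowerSeries ℤ) * ((l : PowerSeries ℤ) * A' * X₁) -
        (p : PowerSeries ℤ) ^ M *
          ((p : PowerSeries ℤ) ^ (M - 1) * V + (l : PowerSeries ℤ) * Vp p W')) +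
      -((l : PowerSeries ℤ) * Up p W') = -(c * V) + (l : PowerSeries ℤ) * Z := by
    rw [hZ, hc]; push_cast; ring
  rw [hYeq] at hY
  have hXV : X ^ (p * t) ∣ V :=
    X_pow_dvd_Vp hp (Dvd.dvd.mul_left (pow_dvd_pow_of_dvd X_dvd_Dz t) _)
  have hst : (l : PowerSeries ℤ) ∣ -(c * V) + (l : PowerSeries ℤ) * Z := by
    have := hY.sturm (l : ℤ) (fun n hn => by
      have hn' : n < p * t := by
        have h2 : 2 * t ≤ p * t := Nat.mul_le_mul_right _ hpp.two_le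
        have h3 : 12 * n ≤ 2 * M := by exact_mod_cast hn
        omega
      have h0 : coeff n (-(c * V)) = 0 := by
        rw [map_neg, (X_pow_dvd_iff.1 (Dvd.dvd.mul_left hXV c)) n hn', neg_zero]
      rw [map_add, h0, zero_add]
      exact natCast_dvd_iff.1 (dvd_mul_right _ _) n)
    simpa using this
  have hst2 : (l : PowerSeries ℤ) ∣ c * V := by
    have := (dvd_add_left (dvd_mul_right (l : PowerSeries ℤ) Z)).1 hst
    exact (dvd_neg).1 this
  have hlp' : ¬ (l : PowerSeries ℤ) ∣ (p : PowerSeries ℤ) := by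
    intro h
    have h3 : (l : ℤ) ∣ (p : ℤ) := by
      have := natCast_dvd_intCast_iff (l := l) (c := (p : ℤ))
      exact this.1 (by simpa using h)
    have h4 : l ∣ p := by exact_mod_cast h3
    exact hlp ((Nat.prime_dvd_prime_iff_eq hl hpp).1 h4)
  have hlc : ¬ (l : PowerSeries ℤ) ∣ c := by
    intro h
    rcases hP.dvd_or_dvd h with h | h
    · exact hlp' (hP.dvd_of_dvd_pow h)
    · rcases hP.dvd_or_dvd h with h | h
      · exact hlp' (hP.dvd_of_dvd_pow h)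
      · exact hlp' (hP.dvd_of_dvd_pow h)
  have hlV : (l : PowerSeries ℤ) ∣ V := (hP.dvd_or_dvd hst2).resolve_left hlc
  rw [hV, natCast_dvd_Vp_iff hp] at hlV
  rcases hP.dvd_or_dvd hlV with h | h
  · exact h
  · exact absurd (hP.dvd_of_dvd_pow h) (not_natCast_dvd_Dz hl)

/-- **(Q)**, iterated -/
theorem IsPair.pow_dvd_snd {p l m : ℕ} [Fact p.Prime] (hl : l.Prime) (hlp : l ≠ p) (r : ℕ)
    {A B : PowerSeries ℤ} (h : IsPair p m A B) (hA : (l : PowerSeries ℤ) ^ r ∣ A) :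
    (l : PowerSeries ℤ) ^ r ∣ B := by
  induction r generalizing A B with
  | zero => simp
  | succ r ih =>
    obtain ⟨A₁, rfl⟩ := hA
    have h1 : (l : PowerSeries ℤ) ∣ (l : PowerSeries ℤ) ^ (r + 1) * A₁ :=
      Dvd.dvd.mul_right (dvd_pow_self _ (Nat.succ_ne_zero r)) _
    obtain ⟨B₁, rfl⟩ := h.dvd_snd hl hlp h1
    have h2 : IsPair p m ((((l : ℕ) : ℤ) : PowerSeries ℤ) * ((l : PowerSeries ℤ) ^ r * A₁))
        ((((l : ℕ) : ℤ) : PowerSeries ℤ) * B₁) := by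
      have e : (((l : ℕ) : ℤ) : PowerSeries ℤ) * ((l : PowerSeries ℤ) ^ r * A₁)
          = (l : PowerSeries ℤ) ^ (r + 1) * A₁ := by
        push_cast; ring
      rw [e]
      simpa using h
    have h3 := ih (h2.cancel (by exact_mod_cast hl.ne_zero)) (dvd_mul_right _ _)
    rw [pow_succ']
    exact mul_dvd_mul_left _ h3

end Fermat.Agent.S16lib
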