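import Mathlib

/-!
# The ring lemma `Ξ` (S16, part (UP), case `ℓ = 2`, `p ≡ 7 mod 8`)

Pure commutative algebra: if `e4 ≡ 1 mod 16`, `e6 ≡ 1 mod 8`, `g ≡ 1 mod 8` and
`e4 ^ 3 - e6 ^ 2 = 1728 * Δ`, then `g^4 + 2 e4 g^2 - 8 e6 g + 5 e4^2 = 256 * Ξ` with `Ξ ≡ Δ mod 2`.
-/

set_option autoImplicit false

namespace Fermat.Agent.S16lib

/-- The ring lemma. -/
theorem exists_xi {R : Type*} [CommRing R] [IsDomain R] (h2 : (2 : R) ≠ 0)
    (e4 e6 D g : R) (hrel : e4 ^ 3 - e6 ^ 2 = 1728 * D)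
    (h4 : (16 : R) ∣ e4 - 1) (h6 : (8 : R) ∣ e6 - 1) (hg : (8 : R) ∣ g - 1) :
    ∃ X : R, 256 * X = g ^ 4 + 2 * e4 * g ^ 2 - 8 * e6 * g + 5 * e4 ^ 2 ∧ (2 : R) ∣ X - D := by
  obtain ⟨a, ha⟩ := h4
  obtain ⟨b, hb⟩ := h6
  obtain ⟨x, hx⟩ := hg
  have ha' : e4 = 1 + 16 * a := by linear_combination ha
  have hb' : e6 = 1 + 8 * b := by linear_combination hb
  have hx' : g = 1 + 8 * x := by linear_combination hx
  subst ha' hb' hx'
  set c : R := 27 * D - 12 * a ^ 2 + b ^ 2 - 64 * a ^ 3 with hc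
  have h16 : (16 : R) * (3 * a - b) = 16 * (4 * c) := by
    rw [hc]; linear_combination hrel
  have hbc : 3 * a - b = 4 * c := by
    have h16' : (16 : R) ≠ 0 := by
      have : (16 : R) = 2 ^ 4 := by norm_num
      rw [this]; exact pow_ne_zero _ h2
    exact mul_left_cancel₀ h16' h16
  have hb2 : b = 3 * a - 4 * c := by linear_combination -hbc
  refine ⟨c + 5 * a ^ 2 + 2 * (x ^ 2 + 4 * x ^ 3 + 8 * x ^ 4 + a * x + 4 * a * x ^ 2 - b * x),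
    ?_, ?_⟩
  · linear_combination (-64 : R) * hbc
  · refine ⟨13 * D - 6 * a ^ 2 - 32 * a ^ 3 + 7 * a ^ 2 - 12 * a * c + 8 * c ^ 2
      + (x ^ 2 + 4 * x ^ 3 + 8 * x ^ 4 + a * x + 4 * a * x ^ 2 - b * x), ?_⟩
    have : c = 27 * D - 12 * a ^ 2 + (3 * a - 4 * c) ^ 2 - 64 * a ^ 3 := by
      conv_lhs => rw [hc]
      rw [← hb2]
    linear_combination this

end Fermat.Agent.S16lib
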